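import Fermat.Agent.S14.Thaine.Units.UPrime
import Fermat.Agent.S14.Thaine.CycloU.Eigen

/-!
# UnitsAlt / Eigen (hedge of `Thaine/Units/Eigen.lean`; owner helper10)

Same statement as `Units.uPrime_eigen`.  FROZEN.
-/

set_option autoImplicit false

namespace Fermat.Agent.S14.Thaine.UnitsAlt

open NumberField
open Fermat.Agent.S14.Thaine.Units (uPrime piInt theta expSum)

/-- The coercion `(𝓞 K)ˣ → K` commutes with inverses. -/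
private lemma eigen_coe_units_inv (K : Type*) [Field K] [NumberField K] (a : (𝓞 K)ˣ) :
    (((a⁻¹ : (𝓞 K)ˣ) : 𝓞 K) : K) = (((a : 𝓞 K)) : K)⁻¹ := by
  apply eq_inv_of_mul_eq_one_left
  show algebraMap (𝓞 K) K _ * algebraMap (𝓞 K) K _ = 1
  rw [← map_mul, Units.inv_mul, map_one]

/-- An element of `K` one of whose positive powers is a unit of `𝓞 K` is itself a unit
of `𝓞 K`. -/
private lemma eigen_unit_of_pow_eq (K : Type*) [Field K] [NumberField K] (n : ℕ) (hn : 0 < n)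
    (x : K) (a : (𝓞 K)ˣ) (h : x ^ n = ((a : 𝓞 K) : K)) :
    ∃ w : (𝓞 K)ˣ, ((w : 𝓞 K) : K) = x := by
  have hx : IsIntegral ℤ x := by
    apply IsIntegral.of_pow hn
    rw [h]
    exact RingOfIntegers.isIntegral_coe _
  have hx' : IsIntegral ℤ x⁻¹ := by
    apply IsIntegral.of_pow hn
    rw [inv_pow, h, ← eigen_coe_units_inv]
    exact RingOfIntegers.isIntegral_coe _
  have ha0 : ((a : 𝓞 K) : K) ≠ 0 := RingOfIntegers.coe_ne_zero_iff.mpr a.ne_zero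
  have hx0 : x ≠ 0 := by
    rintro rfl
    rw [zero_pow hn.ne'] at h
    exact ha0 h.symm
  obtain ⟨b, hb⟩ : ∃ b : 𝓞 K, ((b : 𝓞 K) : K) = x := ⟨⟨x, hx⟩, rfl⟩
  obtain ⟨b', hb'⟩ : ∃ b' : 𝓞 K, ((b' : 𝓞 K) : K) = x⁻¹ := ⟨⟨x⁻¹, hx'⟩, rfl⟩
  have hmul : b * b' = 1 := by
    apply RingOfIntegers.ext
    show algebraMap (𝓞 K) K (b * b') = algebraMap (𝓞 K) K 1
    rw [map_mul, map_one]
    show ((b : 𝓞 K) : K) * ((b' : 𝓞 K) : K) = 1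
    rw [hb, hb', mul_inv_cancel₀ hx0]
  exact ⟨Units.mkOfMulEqOne b b' hmul, hb⟩

variable (p : ℕ) [Fact p.Prime] (K : Type*) [Field K] [NumberField K]
  [IsCyclotomicExtension {p} ℚ K]

theorem uPrime_eigen (hp5 : 5 ≤ p) (σ : K ≃ₐ[ℚ] K) :
    ∃ w : (𝓞 K)ˣ, σ ((uPrime p K : 𝓞 K) : K) =
      ((uPrime p K : 𝓞 K) : K) ^ sqExp p K σ * ((w : 𝓞 K) : K) ^ p := by
  have hpp : p.Prime := Fact.out
  obtain ⟨E', hE⟩ := Units.p_dvd_expSum p hp5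
  obtain ⟨S, T, ⟨n, hS⟩, -, h⟩ := CycloU.thaineU_eigen (p := p) K σ
  obtain ⟨v, hv⟩ := Units.isUnit_uPrime p K
  have hpne : ((p : ℕ) : 𝓞 K) ≠ 0 := Nat.cast_ne_zero.mpr hpp.ne_zero
  have hS0 : S ≠ 0 := by
    rintro rfl
    exact pow_ne_zero n hpne (zero_dvd_iff.mp hS)
  have hSK : ((S : 𝓞 K) : K) ≠ 0 := RingOfIntegers.coe_ne_zero_iff.mpr hS0
  have hπ0 : piInt p K ≠ 0 := by
    unfold piInt
    rw [sub_ne_zero]
    exact ((CycloU.EigenAux.zetaInt_isPrimitiveRoot p K).ne_one hpp.one_lt).symm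
  have hπK : ((piInt p K : 𝓞 K) : K) ≠ 0 := RingOfIntegers.coe_ne_zero_iff.mpr hπ0
  have hσπ : σ ((piInt p K : 𝓞 K) : K) ≠ 0 := (map_ne_zero σ).mpr hπK
  have hvK : ((v : 𝓞 K) : K) ≠ 0 := RingOfIntegers.coe_ne_zero_iff.mpr v.ne_zero
  have hu : ((thaineU p K : 𝓞 K) : K) =
      ((piInt p K : 𝓞 K) : K) ^ (p * E') * ((v : 𝓞 K) : K) := by
    rw [Units.thaineU_eq, hE, hv]
    show algebraMap (𝓞 K) K _ = algebraMap (𝓞 K) K _ ^ _ * algebraMap (𝓞 K) K _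
    rw [map_mul, map_pow]
  rw [← hv]
  rw [hu, map_mul, map_pow] at h
  -- the unit `a = σ u' / u' ^ q`
  have ha : (((Units.galU K σ v * (v ^ sqExp p K σ)⁻¹ : (𝓞 K)ˣ) : 𝓞 K) : K) =
      σ ((v : 𝓞 K) : K) * (((v : 𝓞 K) : K) ^ sqExp p K σ)⁻¹ := by
    show algebraMap (𝓞 K) K (((Units.galU K σ v : (𝓞 K)ˣ) : 𝓞 K) *
      (((v ^ sqExp p K σ)⁻¹ : (𝓞 K)ˣ) : 𝓞 K)) = _
    rw [map_mul]
    congr 1
    show ((((v ^ sqExp p K σ)⁻¹ : (𝓞 K)ˣ) : 𝓞 K) : K) = _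
    rw [eigen_coe_units_inv]
    rfl
  have hx : (((piInt p K : 𝓞 K) : K) ^ (E' * sqExp p K σ) * ((T : 𝓞 K) : K) /
      (σ ((piInt p K : 𝓞 K) : K) ^ E' * ((S : 𝓞 K) : K))) ^ p =
      (((Units.galU K σ v * (v ^ sqExp p K σ)⁻¹ : (𝓞 K)ˣ) : 𝓞 K) : K) := by
    rw [ha, div_pow, div_eq_iff (pow_ne_zero _ (mul_ne_zero (pow_ne_zero _ hσπ) hSK)),
      ← div_eq_mul_inv, div_mul_eq_mul_div, eq_div_iff (pow_ne_zero _ hvK)]
    have h' : σ ((piInt p K : 𝓞 K) : K) ^ (p * E') * σ ((v : 𝓞 K) : K) * ((S : 𝓞 K) : K) ^ p =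
        (((piInt p K : 𝓞 K) : K) ^ (p * E') * ((v : 𝓞 K) : K)) ^ sqExp p K σ *
          ((T : 𝓞 K) : K) ^ p := h
    linear_combination -h'
  obtain ⟨w, hw⟩ := eigen_unit_of_pow_eq K p hpp.pos _ _ hx
  refine ⟨w, ?_⟩
  rw [hw, hx, ha, mul_comm (σ _), ← mul_assoc, mul_inv_cancel₀ (pow_ne_zero _ hvK), one_mul]

end Fermat.Agent.S14.Thaine.UnitsAlt
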