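import Fermat.Agent.S14.Thaine.UnitsAlt.LemmaX.Ident
import Fermat.Agent.S14.Thaine.UnitsAlt.LemmaX.Stable
import Fermat.Agent.S14.Thaine.UnitsAlt.LemmaX.Cyclic
import Fermat.Agent.S14.Thaine.UnitsAlt.LemmaX.Index
import Fermat.Agent.S14.Thaine.UnitsAlt.LemmaX.Indep
import Fermat.Agent.S14.Thaine.UnitsAlt.LemmaX.Finite

/-!
# UnitsAlt / LemmaX (hedge of `Thaine/Units/LemmaX.lean`, owner helper10)

Same statement as `Fermat.Agent.S14.Thaine.Units.lemmaX`, proved by an index computation: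
with `S = T - c`, `L = ⟨v, T v, …, T^(m-2) v⟩`, `P = pΛ`, `Φ = ∑_{i<m} c^i`:
* `S` is injective and `[Λ : SΛ] = [L : SL]` (both lattices are commensurable);
* `L / SL` is cyclic (generated by `v`) and killed by `Φ`, so `[L : SL] ∣ Φ`;
* if the `c`-eigenspace of `T` on `Λ/pΛ` contained two independent vectors `x₁, x₂`, then with
  `W = ⟨x₁, x₂⟩ + pΛ` we get `SW ⊆ pΛ`, `[W : pΛ] = p²` and `[Λ : SΛ] = [pΛ : SW] · [W : pΛ]`.
Hence `p² ∣ Φ`, a contradiction.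
-/

set_option autoImplicit false

namespace Fermat.Agent.S14.Thaine.UnitsAlt

theorem lemmaX {Λ : Type*} [AddCommGroup Λ]
    (htf : ∀ (n : ℕ) (x : Λ), 0 < n → n • x = 0 → x = 0)
    (T : Λ →+ Λ) (p : ℕ) (hp : p.Prime) (m : ℕ) (hm : 2 ≤ m) (c : ℕ)
    (hN : ∀ x : Λ, ∑ i ∈ Finset.range m, (⇑T)^[i] x = 0)
    (v : Λ)
    (hv : (AddSubgroup.closure {x : Λ | ∃ i : ℕ, i < m - 1 ∧ x = (⇑T)^[i] v}).FiniteIndex)
    (hc : ¬ p ^ 2 ∣ ∑ i ∈ Finset.range m, c ^ i)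
    (x₁ x₂ : Λ)
    (h₁ : ∃ y : Λ, T x₁ = c • x₁ + p • y)
    (h₂ : ∃ y : Λ, T x₂ = c • x₂ + p • y)
    (h₂' : ¬ ∃ y : Λ, x₂ = p • y) :
    ∃ (k : ℤ) (y : Λ), x₁ = k • x₂ + p • y := by
  by_contra hcon
  have hΦ0 : (∑ i ∈ Finset.range m, c ^ i) ≠ 0 := fun h => hc (by rw [h]; exact dvd_zero _)
  obtain ⟨S, hSapp⟩ : ∃ S : Λ →+ Λ, ∀ x, S x = T x - c • x :=
    ⟨T - c • AddMonoidHom.id Λ, fun x => by simp⟩
  obtain ⟨Q, hQ1, hQ2, hQ3⟩ := lx_exists_Q T m c hN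
  have hSinj : Function.Injective S := by
    rw [injective_iff_map_eq_zero]
    intro x hx
    have h := hQ2 x
    rw [← hSapp, hx, map_zero] at h
    exact htf _ x (Nat.pos_of_ne_zero hΦ0) (neg_eq_zero.mp h.symm)
  have hLstab := lx_closure_stable T m hm hN v
  have hLfin := AddSubgroup.finiteIndex_iff.mp hv
  have hvL : v ∈ AddSubgroup.closure {x : Λ | ∃ i : ℕ, i < m - 1 ∧ x = (⇑T)^[i] v} :=
    AddSubgroup.subset_closure ⟨0, by omega, rfl⟩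
  have hLS : (AddSubgroup.closure {x : Λ | ∃ i : ℕ, i < m - 1 ∧ x = (⇑T)^[i] v}).map S ≤
      AddSubgroup.closure {x : Λ | ∃ i : ℕ, i < m - 1 ∧ x = (⇑T)^[i] v} := by
    rintro _ ⟨x, hx, rfl⟩
    rw [hSapp]
    exact AddSubgroup.sub_mem _ (hLstab x hx) (AddSubgroup.nsmul_mem _ hx c)
  have hdvd : ((AddSubgroup.closure {x : Λ | ∃ i : ℕ, i < m - 1 ∧ x = (⇑T)^[i] v}).map S).relIndex
      (AddSubgroup.closure {x : Λ | ∃ i : ℕ, i < m - 1 ∧ x = (⇑T)^[i] v}) ∣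
      ∑ i ∈ Finset.range m, c ^ i := by
    refine lx_relIndex_dvd _ _ hLS v hvL ?_ _ ?_
    · intro x hx
      obtain ⟨n, y, hy, hxy⟩ := lx_closure_cyclic T m c v x hx
      refine ⟨n, y, hy, ?_⟩
      rw [hxy, hSapp]
      abel
    · refine ⟨-(Q v), AddSubgroup.neg_mem _ (hQ3 _ hLstab v hvL), ?_⟩
      rw [map_neg, hSapp, hQ1, neg_neg]
  have hidx := lx_index_range_eq S hSinj _ hLfin hLS
  obtain ⟨P, hP⟩ : ∃ P : AddSubgroup Λ, ∀ x : Λ, x ∈ P ↔ ∃ y : Λ, x = p • y :=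
    ⟨(nsmulAddMonoidHom (α := Λ) p).range, fun x => by
      simp [AddMonoidHom.mem_range, eq_comm]⟩
  have hsfin : {x : Λ | ∃ i : ℕ, i < m - 1 ∧ x = (⇑T)^[i] v}.Finite := by
    refine ((Set.finite_Iio (m - 1)).image (fun i => (⇑T)^[i] v)).subset ?_
    rintro x ⟨i, hi, rfl⟩
    exact ⟨i, hi, rfl⟩
  have hPfin : P.index ≠ 0 := lx_index_smul_ne_zero p hp.pos _ hsfin hLfin P hP
  have hx2 : x₂ ∉ P := fun h => h₂' ((hP _).mp h)
  have hx1 : ¬ ∃ k : ℤ, x₁ - k • x₂ ∈ P := by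
    rintro ⟨k, hk⟩
    obtain ⟨y, hy⟩ := (hP _).mp hk
    exact hcon ⟨k, y, by rw [← hy]; abel⟩
  have hsq := lx_sq_dvd_relIndex p hp P hP hPfin x₁ x₂ hx2 hx1
  have hSP : ∀ x ∈ P, S x ∈ P := by
    intro x hx
    obtain ⟨y, rfl⟩ := (hP _).mp hx
    exact (hP _).mpr ⟨S y, map_nsmul S p y⟩
  have hSW : (AddSubgroup.closure {x₁, x₂} ⊔ P).map S ≤ P := by
    rw [AddSubgroup.map_sup, sup_le_iff]
    refine ⟨?_, ?_⟩
    · rw [AddMonoidHom.map_closure, AddSubgroup.closure_le]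
      rintro _ ⟨x, hx, rfl⟩
      rcases hx with rfl | rfl
      · obtain ⟨y, hy⟩ := h₁
        exact (hP _).mpr ⟨y, by rw [hSapp, hy]; abel⟩
      · obtain ⟨y, hy⟩ := h₂
        exact (hP _).mpr ⟨y, by rw [hSapp, hy]; abel⟩
    · rintro _ ⟨x, hx, rfl⟩
      exact hSP x hx
  have hchain := lx_index_chain S hSinj P _ le_sup_right hPfin hSW
  have h3 : p ^ 2 ∣ S.range.index := by
    rw [hchain]
    exact Dvd.dvd.mul_left hsq _
  rw [hidx] at h3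
  exact hc (h3.trans hdvd)

end Fermat.Agent.S14.Thaine.UnitsAlt
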