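import Mathlib

/-!
# Route T, block `Units`: the pure algebra lemma `lemmaX` (additive form) — independent prover
(helper24), elementary route "B"

Same statement as `Units/LemmaX.lean`, in the namespace `Fermat.Agent.S14.Thaine.UnitsAlt.LemmaXB`.

Proof.  `f = T - c`, `Φ = ∑_{i<m} c^i ≥ 1`, `Ψ = ∑_{i<m} ∑_{j<i} T^j c^(i-1-j)`, so that
`f Ψ = Ψ f = ∑_{i<m} (T^i - c^i) = -Φ`.  Hence `f` is injective.  Let `Λ₀` be the subgroup generated
by `T^i v`, `i < m - 1`; it is `T`-stable, `Λ₀ = f Λ₀ + ℤ v` and `Φ v ∈ f Λ₀`, so in `Λ / f Λ₀` the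
image of `Λ₀` is cyclic of order `d ∣ Φ`; counting indices, `[Λ : f Λ] = d`.  So `W = f Λ + p Λ`
has index dividing `Φ`, and `Λ / W` is an `𝔽_p`-vector space with `p² ∤ #(Λ / W)`: it is cyclic,
say generated by `λ₀`.  If `p ∤ Φ` there is no eigenvector outside `p Λ`.  If `Φ = p a`, every
eigenvector `x` (`f x = p y`) satisfies `a x = -Ψ y ∈ ℤ Ψ λ₀ + p Λ` because `Ψ W ⊆ p Λ`; as
`p ∤ a`, all eigenvectors lie in `ℤ μ + p Λ`, `μ = Ψ λ₀`, and the claim follows.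
-/

set_option autoImplicit false

namespace Fermat.Agent.S14.Thaine.UnitsAlt.LemmaXB

open Finset

section Identities

variable {Λ : Type*} [AddCommGroup Λ]

/-- `∑_{j<i} T^j c^(i-1-j)` in the endomorphism ring. -/
noncomputable def gPoly (T : AddMonoid.End Λ) (c : ℕ) (i : ℕ) : AddMonoid.End Λ :=
  ∑ j ∈ range i, T ^ j * (c : AddMonoid.End Λ) ^ (i - 1 - j)

theorem sub_mul_gPoly (T : AddMonoid.End Λ) (c i : ℕ) :
    (T - (c : AddMonoid.End Λ)) * gPoly T c i = T ^ i - (c : AddMonoid.End Λ) ^ i :=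
  (Nat.cast_commute c T).symm.mul_geom_sum₂ i

theorem gPoly_mul_sub (T : AddMonoid.End Λ) (c i : ℕ) :
    gPoly T c i * (T - (c : AddMonoid.End Λ)) = T ^ i - (c : AddMonoid.End Λ) ^ i :=
  (Nat.cast_commute c T).symm.geom_sum₂_mul i

/-- `Ψ = ∑_{i<m} ∑_{j<i} T^j c^(i-1-j)`. -/
noncomputable def psi (T : AddMonoid.End Λ) (c m : ℕ) : AddMonoid.End Λ :=
  ∑ i ∈ range m, gPoly T c i

theorem sub_mul_psi (T : AddMonoid.End Λ) (c m : ℕ) (hN : ∑ i ∈ range m, T ^ i = 0) :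
    (T - (c : AddMonoid.End Λ)) * psi T c m =
      -((∑ i ∈ range m, c ^ i : ℕ) : AddMonoid.End Λ) := by
  rw [psi, mul_sum]
  simp_rw [sub_mul_gPoly]
  rw [sum_sub_distrib, hN, zero_sub]
  push_cast
  rfl

theorem psi_mul_sub (T : AddMonoid.End Λ) (c m : ℕ) (hN : ∑ i ∈ range m, T ^ i = 0) :
    psi T c m * (T - (c : AddMonoid.End Λ)) =
      -((∑ i ∈ range m, c ^ i : ℕ) : AddMonoid.End Λ) := by
  rw [psi, sum_mul]
  simp_rw [gPoly_mul_sub]
  rw [sum_sub_distrib, hN, zero_sub]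
  push_cast
  rfl

theorem end_sum_apply {ι : Type*} (s : Finset ι) (g : ι → AddMonoid.End Λ) (x : Λ) :
    (∑ i ∈ s, g i) x = ∑ i ∈ s, g i x := by
  classical
  induction s using Finset.induction_on with
  | empty => rfl
  | insert a s ha ih =>
    rw [sum_insert ha, sum_insert ha, ← ih]
    rfl

theorem pow_mem_of_stable (T : AddMonoid.End Λ) (H : AddSubgroup Λ) (hH : ∀ x ∈ H, T x ∈ H)
    (i : ℕ) : ∀ x ∈ H, (T ^ i) x ∈ H := by
  induction i with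
  | zero => intro x hx; simpa using hx
  | succ i ih =>
    intro x hx
    rw [pow_succ]
    exact ih _ (hH x hx)

theorem gPoly_mem_of_stable (T : AddMonoid.End Λ) (c : ℕ) (H : AddSubgroup Λ)
    (hH : ∀ x ∈ H, T x ∈ H) (i : ℕ) : ∀ x ∈ H, gPoly T c i x ∈ H := by
  intro x hx
  rw [gPoly, end_sum_apply]
  refine H.sum_mem fun j _ => ?_
  have h1 : (T ^ j * (c : AddMonoid.End Λ) ^ (i - 1 - j)) x = (T ^ j) (c ^ (i - 1 - j) • x) := by
    rw [← Nat.cast_pow]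
    rfl
  rw [h1]
  exact pow_mem_of_stable T H hH j _ (H.nsmul_mem hx _)

theorem psi_mem_of_stable (T : AddMonoid.End Λ) (c m : ℕ) (H : AddSubgroup Λ)
    (hH : ∀ x ∈ H, T x ∈ H) : ∀ x ∈ H, psi T c m x ∈ H := by
  intro x hx
  rw [psi, end_sum_apply]
  exact H.sum_mem fun i _ => gPoly_mem_of_stable T c H hH i x hx

theorem apply_gPoly (T : AddMonoid.End Λ) (c i : ℕ) (x : Λ) :
    T (gPoly T c i x) - c • gPoly T c i x = (⇑T)^[i] x - c ^ i • x := by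
  have h := congrArg (fun g : AddMonoid.End Λ => g x) (sub_mul_gPoly T c i)
  rw [← Nat.cast_pow] at h
  have h2 : (T ^ i - ((c ^ i : ℕ) : AddMonoid.End Λ)) x = (⇑T)^[i] x - c ^ i • x := by
    rw [← AddMonoid.End.coe_pow]
    rfl
  exact h.trans h2

theorem apply_psi (T : AddMonoid.End Λ) (c m : ℕ)
    (hN : ∀ x : Λ, ∑ i ∈ range m, (⇑T)^[i] x = 0) (x : Λ) :
    T (psi T c m x) - c • psi T c m x = -((∑ i ∈ range m, c ^ i) • x) := by
  have hNE : ∑ i ∈ range m, T ^ i = 0 := by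
    refine AddMonoidHom.ext fun y => ?_
    have h := end_sum_apply (range m) (fun i => T ^ i) y
    simp only [AddMonoid.End.coe_pow] at h
    exact h.trans (hN y)
  exact congrArg (fun g : AddMonoid.End Λ => g x) (sub_mul_psi T c m hNE)

theorem psi_apply (T : AddMonoid.End Λ) (c m : ℕ)
    (hN : ∀ x : Λ, ∑ i ∈ range m, (⇑T)^[i] x = 0) (x : Λ) :
    psi T c m (T x - c • x) = -((∑ i ∈ range m, c ^ i) • x) := by
  have hNE : ∑ i ∈ range m, T ^ i = 0 := by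
    refine AddMonoidHom.ext fun y => ?_
    have h := end_sum_apply (range m) (fun i => T ^ i) y
    simp only [AddMonoid.End.coe_pow] at h
    exact h.trans (hN y)
  exact congrArg (fun g : AddMonoid.End Λ => g x) (psi_mul_sub T c m hNE)

end Identities


/-- `Λ` a torsion-free abelian group, `T` an endomorphism with `∑_{i<m} T^i = 0`, such that
`v, T v, …, T^(m-2) v` generate a subgroup of finite index, `c` with `p² ∤ ∑_{i<m} c^i`.
Then the `c`-eigenspace of `T` on `Λ/pΛ` is at most one-dimensional. -/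
theorem lemmaX {Λ : Type*} [AddCommGroup Λ]
    (htf : ∀ (n : ℕ) (x : Λ), 0 < n → n • x = 0 → x = 0)
    (T : Λ →+ Λ) (p : ℕ) (hp : p.Prime) (m : ℕ) (hm : 2 ≤ m) (c : ℕ)
    (hN : ∀ x : Λ, ∑ i ∈ Finset.range m, (⇑T)^[i] x = 0)
    (v : Λ)
    (hv : (AddSubgroup.closure {x : Λ | ∃ i : ℕ, i < m - 1 ∧ x = (⇑T)^[i] v}).FiniteIndex)
    (hc : ¬ p ^ 2 ∣ ∑ i ∈ Finset.range m, c ^ i)
    (x₁ x₂ : Λ)
    (h₁ : ∃ y : Λ, T x₁ = c • x₁ + p • y)
    (h₂ : ∃ y : Λ, T x₂ = c • x₂ + p • y)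
    (h₂' : ¬ ∃ y : Λ, x₂ = p • y) :
    ∃ (k : ℤ) (y : Λ), x₁ = k • x₂ + p • y := by
  classical
  obtain ⟨Φ, hΦ⟩ : ∃ Φ : ℕ, Φ = ∑ i ∈ Finset.range m, c ^ i := ⟨_, rfl⟩
  have hΦpos : 0 < Φ := by
    rw [hΦ]
    have h0 : c ^ 0 ≤ ∑ i ∈ range m, c ^ i :=
      Finset.single_le_sum (f := fun i => c ^ i) (fun _ _ => Nat.zero_le _)
        (Finset.mem_range.mpr (by omega))
    rw [pow_zero] at h0
    omega
  obtain ⟨f, hfapp⟩ : ∃ f : Λ →+ Λ, ∀ x, f x = T x - c • x :=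
    ⟨T - c • AddMonoidHom.id Λ, fun x => rfl⟩
  obtain ⟨Ψ, hΨ⟩ : ∃ Ψ : Λ →+ Λ, Ψ = psi T c m := ⟨_, rfl⟩
  have hfΨ : ∀ x, f (Ψ x) = -(Φ • x) := by
    intro x
    rw [hfapp, hΨ, hΦ]
    exact apply_psi T c m hN x
  have hΨf : ∀ x, Ψ (f x) = -(Φ • x) := by
    intro x
    rw [hfapp, hΨ, hΦ]
    exact psi_apply T c m hN x
  -- Step 1: `f` is injective
  have hinj : Function.Injective f := by
    rw [injective_iff_map_eq_zero]
    intro x hx
    have h := hΨf x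
    rw [hx, map_zero] at h
    exact htf Φ x hΦpos (neg_eq_zero.mp h.symm)
  -- Step 2: the lattice `Λ₀`
  obtain ⟨Λ₀, hΛ₀⟩ : ∃ Λ₀ : AddSubgroup Λ,
      Λ₀ = AddSubgroup.closure {x : Λ | ∃ i : ℕ, i < m - 1 ∧ x = (⇑T)^[i] v} := ⟨_, rfl⟩
  have hgenmem : ∀ i, i < m - 1 → (⇑T)^[i] v ∈ Λ₀ := fun i hi => by
    rw [hΛ₀]
    exact AddSubgroup.subset_closure ⟨i, hi, rfl⟩
  have hv0 : v ∈ Λ₀ := hgenmem 0 (by omega)
  have htop : (⇑T)^[m - 1] v ∈ Λ₀ := by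
    have h := hN v
    have hm1 : m = (m - 1) + 1 := by omega
    rw [hm1, Finset.sum_range_succ] at h
    have h2 : (⇑T)^[m - 1] v = -∑ i ∈ range (m - 1), (⇑T)^[i] v := by
      rw [eq_neg_iff_add_eq_zero, add_comm]
      exact h
    rw [h2]
    exact Λ₀.neg_mem (Λ₀.sum_mem fun i hi => hgenmem i (Finset.mem_range.mp hi))
  have hstab : ∀ x ∈ Λ₀, T x ∈ Λ₀ := by
    have hle : Λ₀ ≤ Λ₀.comap T := by
      rw [hΛ₀, AddSubgroup.closure_le]
      rintro _ ⟨i, hi, rfl⟩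
      rw [SetLike.mem_coe, AddSubgroup.mem_comap, ← Function.iterate_succ_apply' (⇑T) i v, ← hΛ₀]
      by_cases h : i + 1 < m - 1
      · exact hgenmem _ h
      · have h' : i.succ = m - 1 := by omega
        rw [h']
        exact htop
    exact fun x hx => hle hx
  have hΨmem : ∀ x ∈ Λ₀, Ψ x ∈ Λ₀ := by
    rw [hΨ]
    exact psi_mem_of_stable T c m Λ₀ hstab
  have hgen : ∀ i, ∃ g ∈ Λ₀, (⇑T)^[i] v = c ^ i • v + f g := by
    intro i
    refine ⟨gPoly T c i v, gPoly_mem_of_stable T c Λ₀ hstab i v hv0, ?_⟩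
    have h2 : f (gPoly T c i v) = (⇑T)^[i] v - c ^ i • v := by
      rw [hfapp]
      exact apply_gPoly T c i v
    rw [h2]
    abel
  -- Step 3: `[Λ : f Λ]` divides `Φ`
  obtain ⟨M₁, hM₁⟩ : ∃ M₁ : AddSubgroup Λ, M₁ = Λ₀.map f := ⟨_, rfl⟩
  have hM₁le : M₁ ≤ Λ₀ := by
    rw [hM₁]
    rintro _ ⟨x, hx, rfl⟩
    rw [hfapp]
    exact Λ₀.sub_mem (hstab x hx) (Λ₀.nsmul_mem hx c)
  have hπv : Φ • (QuotientAddGroup.mk' M₁ v) = 0 := by
    rw [← map_nsmul, QuotientAddGroup.mk'_apply, QuotientAddGroup.eq_zero_iff, hM₁]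
    refine ⟨-(Ψ v), Λ₀.neg_mem (hΨmem v hv0), ?_⟩
    rw [map_neg, hfΨ, neg_neg]
  have hH : Λ₀.map (QuotientAddGroup.mk' M₁) =
      AddSubgroup.zmultiples (QuotientAddGroup.mk' M₁ v) := by
    apply le_antisymm
    · rw [AddSubgroup.map_le_iff_le_comap, hΛ₀, AddSubgroup.closure_le]
      rintro _ ⟨i, hi, rfl⟩
      obtain ⟨g, hg, hgeq⟩ := hgen i
      show QuotientAddGroup.mk' M₁ ((⇑T)^[i] v) ∈ AddSubgroup.zmultiples _
      rw [hgeq, map_add, map_nsmul]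
      have h0 : QuotientAddGroup.mk' M₁ (f g) = 0 := by
        rw [QuotientAddGroup.mk'_apply, QuotientAddGroup.eq_zero_iff, hM₁]
        exact ⟨g, hg, rfl⟩
      rw [h0, add_zero]
      exact AddSubgroup.nsmul_mem _ (AddSubgroup.mem_zmultiples _) _
    · rw [AddSubgroup.zmultiples_le]
      exact ⟨v, hv0, rfl⟩
  have hidx : f.range.index ∣ Φ := by
    have h1 : M₁.index = Λ₀.index * f.range.index := by
      rw [hM₁]
      exact AddSubgroup.index_map_of_injective Λ₀ hinj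
    have h2 : (Λ₀.map (QuotientAddGroup.mk' M₁)).index = Λ₀.index :=
      AddSubgroup.index_map_eq Λ₀ (QuotientAddGroup.mk'_surjective M₁)
        (by rw [QuotientAddGroup.ker_mk']; exact hM₁le)
    have h3 : Nat.card (Λ₀.map (QuotientAddGroup.mk' M₁)) *
        (Λ₀.map (QuotientAddGroup.mk' M₁)).index = Nat.card (Λ ⧸ M₁) :=
      AddSubgroup.card_mul_index _
    have h4 : Nat.card (Λ₀.map (QuotientAddGroup.mk' M₁)) =
        addOrderOf (QuotientAddGroup.mk' M₁ v) := by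
      rw [hH]
      exact Nat.card_zmultiples _
    have h5 : M₁.index = Nat.card (Λ ⧸ M₁) := rfl
    have hΛ₀idx : Λ₀.index ≠ 0 := by
      rw [hΛ₀]
      exact hv.index_ne_zero
    have h6 : f.range.index = addOrderOf (QuotientAddGroup.mk' M₁ v) := by
      have h7 : Λ₀.index * f.range.index = Λ₀.index * addOrderOf (QuotientAddGroup.mk' M₁ v) := by
        rw [← h1, h5, ← h3, h4, h2, mul_comm]
      exact Nat.eq_of_mul_eq_mul_left (Nat.pos_of_ne_zero hΛ₀idx) h7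
    rw [h6]
    exact addOrderOf_dvd_of_nsmul_eq_zero hπv
  -- Step 4: `Λ / (f Λ + p Λ)` is cyclic
  obtain ⟨W, hW⟩ : ∃ W : AddSubgroup Λ, W = f.range ⊔ (nsmulAddMonoidHom p : Λ →+ Λ).range :=
    ⟨_, rfl⟩
  have hWidx : W.index ∣ Φ := by
    rw [hW]
    exact (AddSubgroup.index_dvd_of_le le_sup_left).trans hidx
  have hWne : W.index ≠ 0 := by
    intro h
    rw [h, zero_dvd_iff] at hWidx
    omega
  have hpW : ∀ x : Λ, p • x ∈ W := fun x => by
    rw [hW]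
    exact AddSubgroup.mem_sup_right ⟨x, rfl⟩
  have hcyc : ∃ l₀ : Λ, ∀ x : Λ, ∃ (k : ℕ) (y z : Λ), x = k • l₀ + f y + p • z := by
    have : Fact p.Prime := ⟨hp⟩
    let inst : Module (ZMod p) (Λ ⧸ W) := QuotientAddGroup.zmodModule hpW
    have : Finite (Λ ⧸ W) := AddSubgroup.index_ne_zero_iff_finite.mp hWne
    have hfin : Module.Finite (ZMod p) (Λ ⧸ W) := Module.Finite.of_finite
    have hcard : Nat.card (Λ ⧸ W) = p ^ Module.finrank (ZMod p) (Λ ⧸ W) := by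
      have h := @Module.natCard_eq_pow_finrank (ZMod p) (Λ ⧸ W) _ _ inst hfin
      rw [Nat.card_zmod] at h
      exact h
    have hrank : Module.finrank (ZMod p) (Λ ⧸ W) ≤ 1 := by
      by_contra hcon
      push Not at hcon
      apply hc
      rw [← hΦ]
      refine dvd_trans ?_ hWidx
      show p ^ 2 ∣ Nat.card (Λ ⧸ W)
      rw [hcard]
      exact pow_dvd_pow p hcon
    have hfree : Module.Free (ZMod p) (Λ ⧸ W) := Module.Free.of_divisionRing (ZMod p) (Λ ⧸ W)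
    obtain ⟨vbar, hvbar⟩ := (@finrank_le_one_iff (ZMod p) (Λ ⧸ W) _ _ _ inst hfree hfin).mp hrank
    obtain ⟨l₀, rfl⟩ := QuotientAddGroup.mk_surjective vbar
    refine ⟨l₀, fun x => ?_⟩
    obtain ⟨a, ha⟩ := hvbar (QuotientAddGroup.mk x)
    have h1 : ((a.val : ℕ) : ZMod p) • (QuotientAddGroup.mk l₀ : Λ ⧸ W) = QuotientAddGroup.mk x := by
      rw [ZMod.natCast_zmod_val]
      exact ha
    rw [Nat.cast_smul_eq_nsmul, ← QuotientAddGroup.mk_nsmul, QuotientAddGroup.eq, hW] at h1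
    obtain ⟨y', ⟨y, rfl⟩, z', ⟨z, rfl⟩, hyz⟩ := AddSubgroup.mem_sup.mp h1
    refine ⟨a.val, y, z, ?_⟩
    have hyz' : f y + p • z = -(a.val • l₀) + x := hyz
    rw [add_assoc, hyz']
    abel
  obtain ⟨l₀, hl₀⟩ := hcyc
  -- Step 5: the eigenvectors
  obtain ⟨y₁, hy₁⟩ := h₁
  obtain ⟨y₂, hy₂⟩ := h₂
  have hf1 : f x₁ = p • y₁ := by
    rw [hfapp, hy₁]
    abel
  have hf2 : f x₂ = p • y₂ := by
    rw [hfapp, hy₂]
    abel
  have he1 : Φ • x₁ = -(p • Ψ y₁) := by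
    have h := hΨf x₁
    rw [hf1, map_nsmul] at h
    rw [h, neg_neg]
  have he2 : Φ • x₂ = -(p • Ψ y₂) := by
    have h := hΨf x₂
    rw [hf2, map_nsmul] at h
    rw [h, neg_neg]
  have hpZ : Prime (p : ℤ) := Nat.prime_iff_prime_int.mp hp
  by_cases hpΦ : p ∣ Φ
  · obtain ⟨a, ha⟩ := hpΦ
    have hpa : ¬ p ∣ a := by
      rintro ⟨b, hb⟩
      apply hc
      rw [← hΦ, ha, hb]
      exact ⟨b, by ring⟩
    have hcop : IsCoprime (a : ℤ) (p : ℤ) := by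
      rw [isCoprime_comm]
      exact (Prime.coprime_iff_not_dvd hpZ).mpr (by exact_mod_cast hpa)
    obtain ⟨a', s, has⟩ := hcop
    -- eigenvectors: `a • x = -Ψ y`
    have key : ∀ x y : Λ, Φ • x = -(p • Ψ y) → ∃ (K : ℤ) (t : Λ), x = K • Ψ l₀ + p • t := by
      intro x y hxy
      have hax : a • x = -(Ψ y) := by
        have h0 : p • (a • x + Ψ y) = 0 := by
          rw [smul_add, ← mul_smul, ← ha, hxy]
          abel
        have h1 := htf p _ hp.pos h0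
        exact eq_neg_of_add_eq_zero_left h1
      obtain ⟨k, u, z, hk⟩ := hl₀ (-y)
      have hΨk : Ψ (-y) = k • Ψ l₀ + p • (-(a • u) + Ψ z) := by
        rw [hk, map_add, map_add, map_nsmul, hΨf, map_nsmul, ha]
        module
      rw [map_neg] at hΨk
      refine ⟨a' * k, a' • (-(a • u) + Ψ z) + s • x, ?_⟩
      calc x = (a' * (a : ℤ) + s * (p : ℤ)) • x := by rw [has, one_smul]
        _ = (a' * k) • Ψ l₀ + p • (a' • (-(a • u) + Ψ z) + s • x) := by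
          linear_combination (norm := module) a' • hax + a' • hΨk
    obtain ⟨K₁, t₁, hK₁⟩ := key x₁ y₁ he1
    obtain ⟨K₂, t₂, hK₂⟩ := key x₂ y₂ he2
    have hK₂p : ¬ (p : ℤ) ∣ K₂ := by
      rintro ⟨b, hb⟩
      apply h₂'
      refine ⟨b • Ψ l₀ + t₂, ?_⟩
      rw [hK₂, hb]
      module
    have hcop2 : IsCoprime K₂ (p : ℤ) := by
      rw [isCoprime_comm]
      exact (Prime.coprime_iff_not_dvd hpZ).mpr hK₂p
    obtain ⟨K₂', s₂, hKs⟩ := hcop2
    refine ⟨K₁ * K₂', K₁ • (s₂ • Ψ l₀) - (K₁ * K₂') • t₂ + t₁, ?_⟩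
    have hμ : Ψ l₀ = (K₂' * K₂ + s₂ * (p : ℤ)) • Ψ l₀ := by rw [hKs, one_smul]
    calc x₁ = K₁ • Ψ l₀ + p • t₁ := hK₁
      _ = K₁ • ((K₂' * K₂ + s₂ * (p : ℤ)) • Ψ l₀) + p • t₁ := by rw [← hμ]
      _ = (K₁ * K₂') • x₂ + p • (K₁ • (s₂ • Ψ l₀) - (K₁ * K₂') • t₂ + t₁) := by
        linear_combination (norm := module) (-(K₁ * K₂')) • hK₂
  · exfalso
    apply h₂'
    have hcop : IsCoprime (Φ : ℤ) (p : ℤ) := by
      rw [isCoprime_comm]
      exact (Prime.coprime_iff_not_dvd hpZ).mpr (by exact_mod_cast hpΦ)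
    obtain ⟨a', s, has⟩ := hcop
    refine ⟨a' • (-(Ψ y₂)) + s • x₂, ?_⟩
    calc x₂ = (a' * (Φ : ℤ) + s * (p : ℤ)) • x₂ := by rw [has, one_smul]
      _ = p • (a' • (-(Ψ y₂)) + s • x₂) := by
        linear_combination (norm := module) a' • he2

end Fermat.Agent.S14.Thaine.UnitsAlt.LemmaXB
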