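import Fermat.Agent.S14.Thaine.Units.Places

/-!
# Route T, block `Units` (independent second prover: helper24): a Minkowski unit

Same statement as `Units/Minkowski.lean` (`exists_minkowski_unit`), proved here in the namespace
`Fermat.Agent.S14.Thaine.UnitsAlt`.

Proof: let `m = (p-1)/2`, `w₁ = γ^{-(m-1)} • w₀` (`w₀` the distinguished place of Mathlib's
Dirichlet unit theorem) and `u₀` a unit with `log |u₀|_w < 0` for all `w ≠ w₁`
(Mathlib `exists_unit`).  Then `γ^i u₀` has negative logarithm at all places except `γ^i • w₁`,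
and the places `γ^i • w₁`, `i < m - 1`, are exactly the places `≠ w₀`; the determinant criterion of
the Dirichlet unit theorem shows that the family `γ^i u₀`, `i < m - 1`, has maximal rank, hence
generates a subgroup of finite index (Mathlib `isMaxRank_iff_closure_finiteIndex`).
-/

set_option autoImplicit false

namespace Fermat.Agent.S14.Thaine.UnitsAlt

open NumberField NumberField.InfinitePlace NumberField.Units
  NumberField.Units.dirichletUnitTheorem Finset Matrix Module

open Fermat.Agent.S14.Thaine.Units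

section General

variable (K : Type*) [Field K] [NumberField K]

set_option backward.isDefEq.respectTransparency.types false in
/-- The determinant criterion of the Dirichlet unit theorem, for an arbitrary family of units
indexed by the places `≠ w₀` such that the unit attached to `w` has negative logarithm at all
places different from `w`. -/
theorem minkowski_linearIndependent_of_log_neg
    (U : {w : InfinitePlace K // w ≠ w₀} → (𝓞 K)ˣ)
    (hU : ∀ (w : {w : InfinitePlace K // w ≠ w₀}) (w' : InfinitePlace K), w' ≠ w.val →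
      Real.log (w' (U w)) < 0) :
    LinearIndependent ℝ (fun w => logEmbedding K (Additive.ofMul (U w))) := by
  classical
  let B := Pi.basisFun ℝ {w : InfinitePlace K // w ≠ w₀}
  let v := fun w : { w : InfinitePlace K // w ≠ w₀ } ↦ logEmbedding K (Additive.ofMul (U w))
  suffices B.det v ≠ 0 by
    rw [← isUnit_iff_ne_zero, ← Basis.is_basis_iff_det] at this
    exact this.1
  rw [Basis.det_apply]
  refine det_ne_zero_of_sum_col_lt_diag (fun w ↦ ?_)
  simp_rw [Real.norm_eq_abs, B, Basis.coePiBasisFun.toMatrix_eq_transpose, Matrix.transpose_apply]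
  rw [← sub_pos, sum_congr rfl (fun x hx ↦ abs_of_neg ?_), sum_neg_distrib, sub_neg_eq_add,
    sum_erase_eq_sub (mem_univ _), ← add_comm_sub]
  · refine add_pos_of_nonneg_of_pos ?_ ?_
    · rw [sub_nonneg]
      exact le_abs_self _
    · rw [sum_logEmbedding_component (U w)]
      refine mul_pos_of_neg_of_neg ?_ (hU w _ w.prop.symm)
      rw [mult]; split_ifs <;> norm_num
  · refine mul_neg_of_pos_of_neg ?_ (hU w x ?_)
    · rw [mult]; split_ifs <;> norm_num
    · exact Subtype.ext_iff.not.mp (ne_of_mem_erase hx)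

end General

variable (p : ℕ) [Fact p.Prime] (K : Type*) [Field K] [NumberField K]
  [IsCyclotomicExtension {p} ℚ K]

/-- There is a unit `u₀` whose conjugates `γ^i(u₀)`, `i < m - 1`, generate a subgroup of finite
index in the unit group (`m = (p-1)/2`, `γ` a generator of the Galois group). -/
theorem exists_minkowski_unit (hp5 : 5 ≤ p) (γ : K ≃ₐ[ℚ] K)
    (hγ : ∀ σ : K ≃ₐ[ℚ] K, σ ∈ Subgroup.zpowers γ) :
    ∃ u₀ : (𝓞 K)ˣ, (Subgroup.closure
      {e : (𝓞 K)ˣ | ∃ i : ℕ, i < (p - 1) / 2 - 1 ∧ e = galU K (γ ^ i) u₀}).FiniteIndex := by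
  classical
  have hp3 : 3 ≤ p := by omega
  have hm2 : 2 ≤ (p - 1) / 2 := by omega
  have hrank : NumberField.Units.rank K = (p - 1) / 2 - 1 := by
    rw [NumberField.Units.rank, card_infinitePlace p K hp3]
  -- the starting place
  let w₁ : InfinitePlace K := (γ ^ ((p - 1) / 2 - 1))⁻¹ • (w₀ : InfinitePlace K)
  have hbij := places_bijective p K hp3 γ hγ w₁
  let φ : Fin ((p - 1) / 2) ≃ InfinitePlace K := Equiv.ofBijective _ hbij
  have hφ : ∀ i : Fin ((p - 1) / 2), φ i = (γ ^ (i : ℕ)) • w₁ := fun i => rfl
  have hφ0 : φ ⟨(p - 1) / 2 - 1, by omega⟩ = (w₀ : InfinitePlace K) := by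
    rw [hφ]
    exact smul_inv_smul _ _
  obtain ⟨u₀, hu₀⟩ := exists_unit K w₁
  refine ⟨u₀, ?_⟩
  -- key sign property
  have hsign : ∀ (i : ℕ) (w' : InfinitePlace K), w' ≠ (γ ^ i) • w₁ →
      Real.log (w' (galU K (γ ^ i) u₀ : (𝓞 K)ˣ)) < 0 := by
    intro i w' hw'
    have h1 : w' (galU K (γ ^ i) u₀ : (𝓞 K)ˣ) = ((γ ^ i)⁻¹ • w') (u₀ : (𝓞 K)ˣ) := by
      rw [InfinitePlace.smul_apply]
      rfl
    rw [h1]
    apply hu₀
    intro h
    apply hw'
    rw [← h, smul_inv_smul]
  let U : {w : InfinitePlace K // w ≠ w₀} → (𝓞 K)ˣ :=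
    fun w => galU K (γ ^ ((φ.symm w.val : Fin ((p - 1) / 2)) : ℕ)) u₀
  have hli := minkowski_linearIndependent_of_log_neg K U (by
    intro w w' hw'
    apply hsign
    rw [← hφ, Equiv.apply_symm_apply]
    exact hw')
  -- the family indexed by `Fin (rank K)`
  let u : Fin (NumberField.Units.rank K) → (𝓞 K)ˣ := fun j => galU K (γ ^ (j : ℕ)) u₀
  have hjm : ∀ j : Fin (NumberField.Units.rank K), (j : ℕ) < (p - 1) / 2 := fun j => by
    have := j.isLt
    omega
  let e : Fin (NumberField.Units.rank K) → {w : InfinitePlace K // w ≠ w₀} := fun j =>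
    ⟨φ ⟨j, hjm j⟩, by
      rw [← hφ0]
      intro h
      have h2 := congrArg Fin.val (φ.injective h)
      simp only at h2
      have := j.isLt
      omega⟩
  have he : Function.Injective e := by
    intro a b hab
    have h1 := congrArg Subtype.val hab
    have h2 := congrArg Fin.val (φ.injective h1)
    exact Fin.ext h2
  have hmax : IsMaxRank u := by
    have h3 := hli.comp e he
    have h4 : (fun w => logEmbedding K (Additive.ofMul (U w))) ∘ e =
        fun i => logEmbedding K (Additive.ofMul (u i)) := by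
      funext j
      simp only [Function.comp_apply, U, u, e, Equiv.symm_apply_apply]
    rw [h4] at h3
    exact h3
  have hfin := isMaxRank_iff_closure_finiteIndex.mp hmax
  have hset : {e : (𝓞 K)ˣ | ∃ i : ℕ, i < (p - 1) / 2 - 1 ∧ e = galU K (γ ^ i) u₀} =
      Set.range u := by
    ext x
    constructor
    · rintro ⟨i, hi, rfl⟩
      exact ⟨⟨i, by rw [hrank]; exact hi⟩, rfl⟩
    · rintro ⟨j, rfl⟩
      exact ⟨j, by have := j.isLt; omega, rfl⟩
  rw [hset]
  exact hfin

end Fermat.Agent.S14.Thaine.UnitsAlt
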