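import Fermat.Agent.S14.Thaine.UnitsAlt.NotPow1

/-!
# Route T, block `Units` — HEDGE copy `UnitsAlt/NotPow2` (sub-architect helper20; one worker)

Thaine's `u = π^E u'` is not a `p`-th power in `K`.
The statements are IDENTICAL to the ones of the same name in `Thaine/Units/*.lean` (owner
helper276) and FROZEN; only the namespace differs (`UnitsAlt`).  Replace each placeholder by a
proof; auxiliary declarations must be `private` or live in the sub-namespace
`Fermat.Agent.S14.Thaine.UnitsAlt.NotPow2`.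

Notation: `ζ = zetaInt p K = (IsCyclotomicExtension.zeta_spec p ℚ K).toInteger`,
`π = piInt p K = 1 - ζ` (so `π = -(ζ - 1)`; Mathlib states its lemmas for `hζ.toInteger - 1`).

Plan.  Black boxes: `Thaine/Units/{Rep,RepZeta,UPrime}.lean` (namespace `Units`) and
`UnitsAlt.uPrime_ne_zeta_pow_mul_pow`.  Suppose `u = x^p` with `x : K`.  Then `x` is integral
(`IsIntegral.of_pow`, `𝓞 K` integrally closed: `NumberField.RingOfIntegers` is the integral
closure; get `y : 𝓞 K` with `(y : K) = x` and `y ^ p = thaineU p K`).  With `E = expSum p = p * E'`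
(`p_dvd_expSum`) and `thaineU_eq`: `y^p = π^(p E') u'`.  Since `π` is prime (`piInt_prime`) and
`π ∤ u'` (`isUnit_uPrime`, `piInt_not_dvd_of_isUnit`), `π^E' ∣ y` (e.g. via
`multiplicity`/`emultiplicity_pow`, or: unique factorisation `UniqueFactorizationMonoid`, or a
direct induction on `E'` cancelling `π^p`: `π ∣ y^p → π ∣ y`, write `y = π y₁`, cancel
`π^p` in the domain `𝓞 K`).  So `y = π^E' w`, `w^p = u'`, `w` is a unit (`isUnit_of_pow`-type:
`IsUnit (w^p) → IsUnit w`, `isUnit_pow_iff`), and `u' = ζ^0 * w^p` contradicts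
`uPrime_ne_zeta_pow_mul_pow`.
-/

set_option autoImplicit false

namespace Fermat.Agent.S14.Thaine.UnitsAlt

open NumberField Fermat.Agent.S14.Thaine.Units

namespace NotPow2

/-- For a prime element `π` of a domain and `k > 0`: if `π ^ (n * k) ∣ y ^ k` then `π ^ n ∣ y`. -/
theorem pow_dvd_of_pow_mul_dvd_pow {R : Type*} [CommRing R] [IsDomain R] {π : R} (hπ : Prime π)
    {k : ℕ} (hk : 0 < k) : ∀ (n : ℕ) (y : R), π ^ (n * k) ∣ y ^ k → π ^ n ∣ y := by
  intro n
  induction n with
  | zero =>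
    intro y _
    rw [pow_zero]
    exact one_dvd y
  | succ n ih =>
    intro y h
    have hne : (n + 1) * k ≠ 0 := Nat.mul_ne_zero (Nat.succ_ne_zero n) hk.ne'
    have h1 : π ∣ y ^ k := dvd_trans (dvd_pow_self π hne) h
    obtain ⟨y₁, rfl⟩ := hπ.dvd_of_dvd_pow h1
    have h2 : π ^ k * π ^ (n * k) ∣ π ^ k * y₁ ^ k := by
      have e : k + n * k = (n + 1) * k := by ring
      rw [← pow_add, ← mul_pow, e]
      exact h
    have h3 : π ^ (n * k) ∣ y₁ ^ k := (mul_dvd_mul_iff_left (pow_ne_zero k hπ.ne_zero)).mp h2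
    rw [pow_succ']
    exact mul_dvd_mul_left π (ih y₁ h3)

/-- For a prime element `π` of a domain and `k > 0`: if `y ^ k = π ^ (k * n) * v` then `v` is a
`k`-th power. -/
theorem exists_pow_eq_of_pow_eq {R : Type*} [CommRing R] [IsDomain R] {π : R} (hπ : Prime π)
    {k : ℕ} (hk : 0 < k) (n : ℕ) (y v : R) (h : y ^ k = π ^ (k * n) * v) : ∃ w : R, w ^ k = v := by
  have h1 : π ^ (n * k) ∣ y ^ k := by
    rw [h, mul_comm n k]
    exact dvd_mul_right _ _
  obtain ⟨w, rfl⟩ := pow_dvd_of_pow_mul_dvd_pow hπ hk n y h1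
  refine ⟨w, ?_⟩
  have h2 : π ^ (k * n) * w ^ k = π ^ (k * n) * v := by
    rw [← h, mul_pow, ← pow_mul, mul_comm n k]
  exact mul_left_cancel₀ (pow_ne_zero _ hπ.ne_zero) h2

end NotPow2

variable (p : ℕ) [Fact p.Prime] (K : Type*) [Field K] [NumberField K]
  [IsCyclotomicExtension {p} ℚ K]

theorem thaineU_not_pow_aux (hp5 : 5 ≤ p) :
    ¬ ∃ x : K, ((thaineU p K : 𝓞 K) : K) = x ^ p := by
  rintro ⟨x, hx⟩
  have hp : p.Prime := Fact.out
  have hxint : IsIntegral ℤ x := by
    apply IsIntegral.of_pow hp.pos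
    rw [← hx]
    exact RingOfIntegers.isIntegral_coe _
  obtain ⟨E', hE'⟩ := Units.p_dvd_expSum p hp5
  have hy : (⟨x, hxint⟩ : 𝓞 K) ^ p = piInt p K ^ (p * E') * uPrime p K := by
    rw [← hE', ← Units.thaineU_eq p K]
    exact RingOfIntegers.ext hx.symm
  obtain ⟨w, hw⟩ := NotPow2.exists_pow_eq_of_pow_eq (Units.piInt_prime p K) hp.pos E' _ _ hy
  have hwu : IsUnit w := by
    have h : IsUnit (w ^ p) := by
      rw [hw]
      exact Units.isUnit_uPrime p K
    exact (isUnit_pow_iff hp.ne_zero).mp h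
  exact uPrime_ne_zeta_pow_mul_pow p K hp5 0 w hwu (by rw [pow_zero, one_mul, hw])

end Fermat.Agent.S14.Thaine.UnitsAlt
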