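import Fermat.Agent.S14.Thaine.Units.UPrime
import Fermat.Agent.S14.Thaine.Units.Torsion

/-!
# Route T, block `Units` — HEDGE copy `UnitsAlt/NotPow1` (sub-architect helper20; one worker)

`u'` is not (root of unity)·(`p`-th power).
The statements are IDENTICAL to the ones of the same name in `Thaine/Units/*.lean` (owner
helper276) and FROZEN; only the namespace differs (`UnitsAlt`).  Replace each placeholder by a
proof; auxiliary declarations must be `private` or live in the sub-namespace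
`Fermat.Agent.S14.Thaine.UnitsAlt.NotPow1`.

Notation: `ζ = zetaInt p K = (IsCyclotomicExtension.zeta_spec p ℚ K).toInteger`,
`π = piInt p K = 1 - ζ` (so `π = -(ζ - 1)`; Mathlib states its lemmas for `hζ.toInteger - 1`).

Plan.  Black boxes from `Thaine/Units/{Rep,RepZeta,UPrime,Torsion}.lean` (namespace `Units`).
`uPrime_ne_zeta_pow_mul_pow`: if `u' = ζ^i w^p` then by `AB_uPrime`, `AB_zeta_pow`, `AB_pow_p`
(`π ∤ w` by `piInt_not_dvd_of_isUnit`), `AB_mul` and `AB_unique`: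
`0 = -i + 0` and `-1/24 = -i/2 + 0` in `ZMod p`, so `(1 : ZMod p) / 24 = 0`, impossible since
`(24 : ZMod p) ≠ 0` for a prime `p ≥ 5` (`24 = 2^3 * 3`; `ZMod.natCast_eq_zero_iff`,
`Nat.Prime.dvd_mul`, `Nat.le_of_dvd`).
`uPrime_not_torsion_mul_pow`: `t = s^p ζ^i` (`torsion_eq_pow_mul_zeta`), so
`u' = ζ^i (w s)^p` with `w s` a unit: contradiction with the first statement.
-/

set_option autoImplicit false

namespace Fermat.Agent.S14.Thaine.UnitsAlt

open NumberField Fermat.Agent.S14.Thaine.Units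

namespace NotPow1

/-- A prime `p ≥ 5` does not divide `24 = 2 ^ 3 * 3`. -/
theorem not_dvd_twentyFour {p : ℕ} (hp : p.Prime) (hp5 : 5 ≤ p) : ¬ p ∣ 24 := by
  intro h
  have h24 : (24 : ℕ) = 2 ^ 3 * 3 := by norm_num
  rw [h24] at h
  rcases (Nat.Prime.dvd_mul hp).mp h with h2 | h3
  · have h2' : p ∣ 2 := hp.dvd_of_dvd_pow h2
    have := Nat.le_of_dvd (by norm_num) h2'
    omega
  · have := Nat.le_of_dvd (by norm_num) h3
    omega

/-- `24` is nonzero in `ZMod p` for a prime `p ≥ 5`. -/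
theorem twentyFour_ne_zero (p : ℕ) [Fact p.Prime] (hp5 : 5 ≤ p) : (24 : ZMod p) ≠ 0 := by
  intro h
  have h' : ((24 : ℕ) : ZMod p) = 0 := by
    rw [← h]
    norm_num
  rw [ZMod.natCast_eq_zero_iff] at h'
  exact not_dvd_twentyFour Fact.out hp5 h'

end NotPow1

variable (p : ℕ) [Fact p.Prime] (K : Type*) [Field K] [NumberField K]
  [IsCyclotomicExtension {p} ℚ K]

/-- `u' = ζ^i w^p` with `w` a unit is impossible (compare the invariants `(0, -1/24)` of `u'`
with `(-i, -i/2) + (0, 0)`). -/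
theorem uPrime_ne_zeta_pow_mul_pow (hp5 : 5 ≤ p) (i : ℕ) (w : 𝓞 K) (hw : IsUnit w) :
    uPrime p K ≠ zetaInt p K ^ i * w ^ p := by
  intro h
  have h1 : AB p K (uPrime p K) 0 (-1 / 24) := AB_uPrime p K hp5
  have h2 : AB p K (zetaInt p K ^ i * w ^ p) (-(i : ZMod p) + 0) (-(i : ZMod p) / 2 + 0) :=
    AB_mul p K hp5 (AB_zeta_pow p K hp5 i)
      (AB_pow_p p K hp5 w (piInt_not_dvd_of_isUnit p K hw))
  rw [h] at h1
  obtain ⟨ha, hb⟩ := AB_unique p K hp5 h1 h2
  have hi : (i : ZMod p) = 0 := by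
    rw [add_zero] at ha
    exact neg_eq_zero.mp ha.symm
  rw [hi, neg_zero, zero_div, add_zero] at hb
  rcases div_eq_zero_iff.mp hb with h0 | h0
  · exact one_ne_zero (neg_eq_zero.mp h0)
  · exact NotPow1.twentyFour_ne_zero p hp5 h0

theorem uPrime_not_torsion_mul_pow (hp5 : 5 ≤ p) :
    ¬ ∃ w t : (𝓞 K)ˣ, t ∈ NumberField.Units.torsion K ∧
      uPrime p K = (w : 𝓞 K) ^ p * (t : 𝓞 K) := by
  rintro ⟨w, t, ht, h⟩
  obtain ⟨s, i, hs⟩ := torsion_eq_pow_mul_zeta p K (le_trans (by norm_num) hp5) t ht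
  refine uPrime_ne_zeta_pow_mul_pow p K hp5 i ((w * s : (𝓞 K)ˣ) : 𝓞 K) (w * s).isUnit ?_
  rw [h, hs, Units.val_mul, mul_pow]
  ring

end Fermat.Agent.S14.Thaine.UnitsAlt
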