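import Fermat.Agent.S14.Thaine.UnitsAlt.PlacesHalf

/-!
# UnitsAlt / PlacesBij (hedge of `Thaine/Units/Places.lean`, part 3; owner helper10)

Same statement as `Units.places_bijective`.  FROZEN.
-/

set_option autoImplicit false

namespace Fermat.Agent.S14.Thaine.UnitsAlt

open NumberField

variable (p : ℕ) [Fact p.Prime] (K : Type*) [Field K] [NumberField K]
  [IsCyclotomicExtension {p} ℚ K]

theorem places_bijective (hp3 : 3 ≤ p) (γ : K ≃ₐ[ℚ] K)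
    (hγ : ∀ σ : K ≃ₐ[ℚ] K, σ ∈ Subgroup.zpowers γ) (w : InfinitePlace K) :
    Function.Bijective (fun i : Fin ((p - 1) / 2) ↦ (γ ^ (i : ℕ)) • w) := by
  have hm : 0 < (p - 1) / 2 := by omega
  rw [Fintype.bijective_iff_surjective_and_card]
  refine ⟨?_, ?_⟩
  · intro w'
    have : IsGalois ℚ K := IsCyclotomicExtension.isGalois {p} ℚ K
    obtain ⟨σ, rfl⟩ := InfinitePlace.exists_smul_eq_of_comap_eq (k := ℚ) (w := w) (w' := w')
      (Subsingleton.elim _ _)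
    obtain ⟨k, rfl⟩ := Subgroup.mem_zpowers_iff.mp (hγ σ)
    have hfix : ∀ j : ℤ, (γ ^ (((p - 1) / 2 : ℕ) : ℤ)) ^ j • w = w := by
      intro j
      have h1 : γ ^ (((p - 1) / 2 : ℕ) : ℤ) ∈ MulAction.stabilizer (K ≃ₐ[ℚ] K) w := by
        rw [MulAction.mem_stabilizer_iff, zpow_natCast]
        exact gal_pow_half_smul p K hp3 γ hγ w
      exact MulAction.mem_stabilizer_iff.mp (Subgroup.zpow_mem _ h1 j)
    have hmz : (0 : ℤ) < (((p - 1) / 2 : ℕ) : ℤ) := by exact_mod_cast hm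
    have hk : 0 ≤ k % (((p - 1) / 2 : ℕ) : ℤ) := Int.emod_nonneg _ hmz.ne'
    have hk2 : k % (((p - 1) / 2 : ℕ) : ℤ) < (((p - 1) / 2 : ℕ) : ℤ) := Int.emod_lt_of_pos _ hmz
    refine ⟨⟨(k % (((p - 1) / 2 : ℕ) : ℤ)).toNat, by omega⟩, ?_⟩
    show γ ^ (k % (((p - 1) / 2 : ℕ) : ℤ)).toNat • w = γ ^ k • w
    conv_rhs => rw [← Int.emod_add_mul_ediv k (((p - 1) / 2 : ℕ) : ℤ), zpow_add, zpow_mul,
      mul_smul, hfix]
    rw [← zpow_natCast, Int.toNat_of_nonneg hk]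
  · rw [Fintype.card_fin, card_infinitePlace p K hp3]

end Fermat.Agent.S14.Thaine.UnitsAlt
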