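import Fermat.Agent.S14.Thaine.Units.Defs

/-!
# UnitsAlt / PlacesGen (hedge of `Thaine/Units/Places.lean`, part 1; owner helper10)

Same statements as `Units.exists_gal_generator`, `Units.card_infinitePlace`.  FROZEN.
-/

set_option autoImplicit false

namespace Fermat.Agent.S14.Thaine.UnitsAlt

open NumberField

theorem exists_gal_generator (p : ℕ) [Fact p.Prime] (K : Type*) [Field K] [NumberField K]
    [IsCyclotomicExtension {p} ℚ K] :
    ∃ γ : K ≃ₐ[ℚ] K, ∀ σ : K ≃ₐ[ℚ] K, σ ∈ Subgroup.zpowers γ := by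
  have : NeZero p := ⟨(Fact.out : p.Prime).ne_zero⟩
  have : IsCyclic (K ≃ₐ[ℚ] K) :=
    (IsCyclotomicExtension.Rat.galEquivZMod p K).isCyclic.mpr inferInstance
  exact IsCyclic.exists_generator

variable (p : ℕ) [Fact p.Prime] (K : Type*) [Field K] [NumberField K]
  [IsCyclotomicExtension {p} ℚ K]

theorem card_infinitePlace (hp3 : 3 ≤ p) : Fintype.card (InfinitePlace K) = (p - 1) / 2 := by
  have : NeZero p := ⟨(Fact.out : p.Prime).ne_zero⟩
  have h1 : InfinitePlace.nrRealPlaces K = 0 :=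
    IsCyclotomicExtension.Rat.nrRealPlaces_eq_zero (n := p) K (by omega)
  have h2 : InfinitePlace.nrComplexPlaces K = Nat.totient p / 2 :=
    IsCyclotomicExtension.Rat.nrComplexPlaces_eq_totient_div_two p K
  rw [InfinitePlace.card_eq_nrRealPlaces_add_nrComplexPlaces, h1, h2, zero_add,
    Nat.totient_prime (Fact.out : p.Prime)]

end Fermat.Agent.S14.Thaine.UnitsAlt
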