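import Fermat.Agent.S14.Thaine.UnitsAlt.PlacesGen

/-!
# UnitsAlt / PlacesHalf (hedge of `Thaine/Units/Places.lean`, part 2; owner helper10)

Same statement as `Units.gal_pow_half_smul`.  FROZEN.
-/

set_option autoImplicit false

namespace Fermat.Agent.S14.Thaine.UnitsAlt

open NumberField

variable (p : ℕ) [Fact p.Prime] (K : Type*) [Field K] [NumberField K]
  [IsCyclotomicExtension {p} ℚ K]

/-- `γ^m` (complex conjugation) fixes every infinite place. -/
theorem gal_pow_half_smul (hp3 : 3 ≤ p) (γ : K ≃ₐ[ℚ] K)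
    (hγ : ∀ σ : K ≃ₐ[ℚ] K, σ ∈ Subgroup.zpowers γ) (w : InfinitePlace K) :
    (γ ^ ((p - 1) / 2)) • w = w := by
  have hp : p.Prime := Fact.out
  have : NeZero p := ⟨hp.ne_zero⟩
  have := IsCyclotomicExtension.isGalois {p} ℚ K
  have : IsTotallyComplex K :=
    IsCyclotomicExtension.Rat.isTotallyComplex K (by omega : 2 < p)
  have hw : ¬ InfinitePlace.IsUnramified ℚ w :=
    InfinitePlace.not_isUnramified_iff.mpr
      ⟨IsTotallyComplex.isComplex w, IsTotallyReal.isReal _⟩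
  have hcard : Nat.card (MulAction.stabilizer (K ≃ₐ[ℚ] K) w) = 2 :=
    InfinitePlace.not_isUnramified_iff_card_stabilizer_eq_two.mp hw
  -- a non-trivial element of the stabilizer
  obtain ⟨τ, hτ1⟩ : ∃ τ : MulAction.stabilizer (K ≃ₐ[ℚ] K) w, τ ≠ 1 := by
    by_contra h
    push Not at h
    have : Subsingleton (MulAction.stabilizer (K ≃ₐ[ℚ] K) w) :=
      ⟨fun a b => by rw [h a, h b]⟩
    have h1 : Nat.card (MulAction.stabilizer (K ≃ₐ[ℚ] K) w) = 1 := Nat.card_unique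
    omega
  have hτ2 : τ ^ 2 = 1 := by
    have := pow_card_eq_one' (G := MulAction.stabilizer (K ≃ₐ[ℚ] K) w) (x := τ)
    rwa [hcard] at this
  have hτ2' : (τ : K ≃ₐ[ℚ] K) ^ 2 = 1 := by
    have := congrArg (Subtype.val) hτ2
    simpa using this
  have hτ1' : (τ : K ≃ₐ[ℚ] K) ≠ 1 := fun h => hτ1 (Subtype.ext h)
  -- order of γ
  have hodd : Odd p := hp.odd_of_ne_two (by omega)
  obtain ⟨m, hm⟩ := hodd
  have hm' : (p - 1) / 2 = m := by omega
  have hord : orderOf γ = 2 * m := by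
    rw [orderOf_eq_card_of_forall_mem_zpowers hγ, IsGalois.card_aut_eq_finrank,
      IsCyclotomicExtension.finrank (n := p) K
        (Polynomial.cyclotomic.irreducible_rat (NeZero.pos _)), Nat.totient_prime hp]
    omega
  have hγ2m : γ ^ (2 * m) = 1 := by rw [← hord]; exact pow_orderOf_eq_one γ
  obtain ⟨k, hk⟩ := Subgroup.mem_zpowers_iff.mp (hγ (τ : K ≃ₐ[ℚ] K))
  have h2k : γ ^ (2 * k) = 1 := by
    rw [mul_comm, zpow_mul, hk]
    exact_mod_cast hτ2'
  have hdvd : ((2 * m : ℕ) : ℤ) ∣ 2 * k := by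
    rw [← hord]; exact orderOf_dvd_iff_zpow_eq_one.mpr h2k
  have hmk : (m : ℤ) ∣ k := by
    have : (2 : ℤ) * (m : ℤ) ∣ 2 * k := by exact_mod_cast hdvd
    exact (mul_dvd_mul_iff_left (by norm_num : (2 : ℤ) ≠ 0)).mp this
  obtain ⟨j, hj⟩ := hmk
  have hτeq : (τ : K ≃ₐ[ℚ] K) = γ ^ m := by
    rcases Int.even_or_odd' j with ⟨i, hi | hi⟩
    · exfalso
      apply hτ1'
      rw [← hk, hj, hi, show (m : ℤ) * (2 * i) = ((2 * m : ℕ) : ℤ) * i by push_cast; ring,
        zpow_mul, zpow_natCast, hγ2m, one_zpow]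
    · rw [← hk, hj, hi,
        show (m : ℤ) * (2 * i + 1) = ((2 * m : ℕ) : ℤ) * i + (m : ℕ) by push_cast; ring,
        zpow_add, zpow_mul, zpow_natCast, hγ2m, one_zpow, one_mul, zpow_natCast]
  rw [hm', ← hτeq]
  exact τ.2

end Fermat.Agent.S14.Thaine.UnitsAlt
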