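import Fermat.Agent.S14.Thaine.UnitsAlt.PlacesBij

/-!
# UnitsAlt / PlacesNorm (hedge of `Thaine/Units/Places.lean`, part 4; owner helper10)

Same statement as `Units.norm_mem_torsion`.  FROZEN.
-/

set_option autoImplicit false

namespace Fermat.Agent.S14.Thaine.UnitsAlt

open NumberField
open Fermat.Agent.S14.Thaine.Units (galU coe_galU galU_one galU_mul galU_pow_apply)

variable (p : ℕ) [Fact p.Prime] (K : Type*) [Field K] [NumberField K]
  [IsCyclotomicExtension {p} ℚ K]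

/-- The "half norm" `∏_{i<m} γ^i(e)` of a unit is a root of unity. -/
theorem norm_mem_torsion (hp3 : 3 ≤ p) (γ : K ≃ₐ[ℚ] K)
    (hγ : ∀ σ : K ≃ₐ[ℚ] K, σ ∈ Subgroup.zpowers γ) (e : (𝓞 K)ˣ) :
    ∏ i ∈ Finset.range ((p - 1) / 2), galU K (γ ^ i) e ∈ NumberField.Units.torsion K := by
  rw [NumberField.Units.mem_torsion]
  intro w
  have : NeZero p := ⟨(Fact.out : p.Prime).ne_zero⟩
  have : IsTotallyComplex K :=
    IsCyclotomicExtension.Rat.isTotallyComplex (n := p) K (by omega)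
  have hγ' : ∀ σ : K ≃ₐ[ℚ] K, σ ∈ Subgroup.zpowers γ⁻¹ := by
    intro σ
    rw [Subgroup.zpowers_inv]
    exact hγ σ
  have hbij := places_bijective p K hp3 γ⁻¹ hγ' w
  have h1 : w (((∏ i ∈ Finset.range ((p - 1) / 2), galU K (γ ^ i) e : (𝓞 K)ˣ) : 𝓞 K) : K)
      = ∏ i ∈ Finset.range ((p - 1) / 2), w ((γ ^ i) ((e : 𝓞 K) : K)) := by
    rw [Units.coe_prod]
    change w (algebraMap (𝓞 K) K _) = _
    rw [map_prod (algebraMap (𝓞 K) K), map_prod]
    exact Finset.prod_congr rfl fun i _ => by rw [← coe_galU]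
  have h2 : ∏ i ∈ Finset.range ((p - 1) / 2), w ((γ ^ i) ((e : 𝓞 K) : K))
      = ∏ w' : InfinitePlace K, w' ((e : 𝓞 K) : K) := by
    rw [Finset.prod_range, ← hbij.prod_comp (fun w' : InfinitePlace K => w' ((e : 𝓞 K) : K))]
    refine Finset.prod_congr rfl fun i _ => ?_
    rw [InfinitePlace.smul_apply, inv_pow]
    rfl
  have h3 : (∏ w' : InfinitePlace K, w' ((e : 𝓞 K) : K)) ^ 2 = 1 := by
    rw [← Finset.prod_pow]
    have h4 := InfinitePlace.prod_eq_abs_norm ((e : 𝓞 K) : K)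
    simp only [IsTotallyComplex.mult_eq] at h4
    rw [h4]
    have h5 := NumberField.Units.norm K e
    rw [h5, Rat.cast_one]
  have h0 : 0 ≤ ∏ w' : InfinitePlace K, w' ((e : 𝓞 K) : K) :=
    Finset.prod_nonneg fun w' _ => apply_nonneg w' _
  rw [h1, h2]
  nlinarith [h3, h0]

end Fermat.Agent.S14.Thaine.UnitsAlt
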