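import Fermat.Agent.S14.Thaine.Units.Defs

/-!
# Route T, block `Units` — HEDGE copy `UnitsAlt/Rep2` (sub-architect helper20; one worker)

Formal calculus of `Rep` (no arithmetic of `π` needed).
The statements are IDENTICAL to the ones of the same name in `Thaine/Units/*.lean` (owner
helper276) and FROZEN; only the namespace differs (`UnitsAlt`).  Replace each placeholder by a
proof; auxiliary declarations must be `private` or live in the sub-namespace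
`Fermat.Agent.S14.Thaine.UnitsAlt.Rep2`.

Notation: `ζ = zetaInt p K = (IsCyclotomicExtension.zeta_spec p ℚ K).toInteger`,
`π = piInt p K = 1 - ζ` (so `π = -(ζ - 1)`; Mathlib states its lemmas for `hζ.toInteger - 1`).

Plan.  Unfold `Rep` (membership in `Ideal.span {π ^ 3}`, `Ideal.mem_span_singleton`: divisibility by
`π ^ 3`).  `Rep_intCast`: the difference is `0` (`push_cast; ring_nf; simp`).  `Rep_of_sub_mem`,
`Rep_add`: `Ideal.add_mem` after rewriting the difference (`ring`).  `Rep_mul`: with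
`x = X + π³ r`, `y = Y + π³ r'` the difference of the products is `π³ * (explicit polynomial)`:
exhibit the witness and close with `ring` / `linear_combination` (the products of the terms of
degree `≥ 3` in `π` go into the multiple of `π ^ 3`).
-/

set_option autoImplicit false

namespace Fermat.Agent.S14.Thaine.UnitsAlt

open NumberField Fermat.Agent.S14.Thaine.Units

namespace Rep2

/-- Transitivity modulo an ideal, in the shape needed for `Rep_of_sub_mem`. -/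
theorem sub_mem_aux {R : Type*} [CommRing R] (I : Ideal R) (x y q : R) (h : x - y ∈ I)
    (hy : y - q ∈ I) : x - q ∈ I := by
  have e : x - q = (x - y) + (y - q) := by ring
  rw [e]
  exact Ideal.add_mem _ h hy

/-- Additivity of the truncated expansions modulo `π ^ 3`. -/
theorem add_aux {R : Type*} [CommRing R] (π x y a₀ a₁ a₂ b₀ b₁ b₂ : R)
    (hx : x - (a₀ + a₁ * π + a₂ * π ^ 2) ∈ Ideal.span {π ^ 3})
    (hy : y - (b₀ + b₁ * π + b₂ * π ^ 2) ∈ Ideal.span {π ^ 3}) :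
    x + y - ((a₀ + b₀) + (a₁ + b₁) * π + (a₂ + b₂) * π ^ 2) ∈ Ideal.span {π ^ 3} := by
  have e : x + y - ((a₀ + b₀) + (a₁ + b₁) * π + (a₂ + b₂) * π ^ 2)
      = (x - (a₀ + a₁ * π + a₂ * π ^ 2)) + (y - (b₀ + b₁ * π + b₂ * π ^ 2)) := by ring
  rw [e]
  exact Ideal.add_mem _ hx hy

/-- Multiplicativity of the truncated expansions modulo `π ^ 3`. -/
theorem mul_aux {R : Type*} [CommRing R] (π x y a₀ a₁ a₂ b₀ b₁ b₂ : R)
    (hx : x - (a₀ + a₁ * π + a₂ * π ^ 2) ∈ Ideal.span {π ^ 3})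
    (hy : y - (b₀ + b₁ * π + b₂ * π ^ 2) ∈ Ideal.span {π ^ 3}) :
    x * y - (a₀ * b₀ + (a₀ * b₁ + a₁ * b₀) * π + (a₀ * b₂ + a₁ * b₁ + a₂ * b₀) * π ^ 2)
      ∈ Ideal.span {π ^ 3} := by
  have e : x * y - (a₀ * b₀ + (a₀ * b₁ + a₁ * b₀) * π + (a₀ * b₂ + a₁ * b₁ + a₂ * b₀) * π ^ 2)
      = (x - (a₀ + a₁ * π + a₂ * π ^ 2)) * y
        + (a₀ + a₁ * π + a₂ * π ^ 2) * (y - (b₀ + b₁ * π + b₂ * π ^ 2))
        + π ^ 3 * ((a₁ * b₂ + a₂ * b₁) + a₂ * b₂ * π) := by ring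
  rw [e]
  exact Ideal.add_mem _ (Ideal.add_mem _ (Ideal.mul_mem_right _ _ hx) (Ideal.mul_mem_left _ _ hy))
    (Ideal.mul_mem_right _ _ (Ideal.subset_span (Set.mem_singleton _)))

end Rep2

variable (p : ℕ) [Fact p.Prime] (K : Type*) [Field K] [NumberField K]
  [IsCyclotomicExtension {p} ℚ K]

theorem Rep_intCast (n : ℤ) : Rep p K (n : 𝓞 K) n 0 0 := by
  unfold Fermat.Agent.S14.Thaine.Units.Rep
  have e : (n : 𝓞 K) - ((n : 𝓞 K) + ((0 : ℤ) : 𝓞 K) * piInt p K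
      + ((0 : ℤ) : 𝓞 K) * piInt p K ^ 2) = 0 := by
    rw [Int.cast_zero, zero_mul, zero_mul, add_zero, add_zero, sub_self]
  rw [e]
  exact Ideal.zero_mem _

theorem Rep_of_sub_mem {x y : 𝓞 K} {c₀ c₁ c₂ : ℤ} (h : x - y ∈ Ideal.span {piInt p K ^ 3})
    (hy : Rep p K y c₀ c₁ c₂) : Rep p K x c₀ c₁ c₂ := by
  unfold Fermat.Agent.S14.Thaine.Units.Rep at hy ⊢
  exact Rep2.sub_mem_aux _ x y _ h hy

theorem Rep_add {x y : 𝓞 K} {c₀ c₁ c₂ d₀ d₁ d₂ : ℤ} (hx : Rep p K x c₀ c₁ c₂)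
    (hy : Rep p K y d₀ d₁ d₂) : Rep p K (x + y) (c₀ + d₀) (c₁ + d₁) (c₂ + d₂) := by
  unfold Fermat.Agent.S14.Thaine.Units.Rep at hx hy ⊢
  have h := Rep2.add_aux (piInt p K) x y c₀ c₁ c₂ d₀ d₁ d₂ hx hy
  simpa only [Int.cast_add] using h

theorem Rep_mul {x y : 𝓞 K} {c₀ c₁ c₂ d₀ d₁ d₂ : ℤ} (hx : Rep p K x c₀ c₁ c₂)
    (hy : Rep p K y d₀ d₁ d₂) :
    Rep p K (x * y) (c₀ * d₀) (c₀ * d₁ + c₁ * d₀) (c₀ * d₂ + c₁ * d₁ + c₂ * d₀) := by
  unfold Fermat.Agent.S14.Thaine.Units.Rep at hx hy ⊢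
  have h := Rep2.mul_aux (piInt p K) x y c₀ c₁ c₂ d₀ d₁ d₂ hx hy
  simpa only [Int.cast_add, Int.cast_mul] using h

end Fermat.Agent.S14.Thaine.UnitsAlt
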