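import Fermat.Agent.S14.Thaine.UnitsAlt.Rep1
import Fermat.Agent.S14.Thaine.UnitsAlt.Rep2

/-!
# Route T, block `Units` — HEDGE copy `UnitsAlt/Rep3` (sub-architect helper20; one worker)

Uniqueness of the coefficients modulo `p`; units congruent to integers.
The statements are IDENTICAL to the ones of the same name in `Thaine/Units/*.lean` (owner
helper276) and FROZEN; only the namespace differs (`UnitsAlt`).  Replace each placeholder by a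
proof; auxiliary declarations must be `private` or live in the sub-namespace
`Fermat.Agent.S14.Thaine.UnitsAlt.Rep3`.

Notation: `ζ = zetaInt p K = (IsCyclotomicExtension.zeta_spec p ℚ K).toInteger`,
`π = piInt p K = 1 - ζ` (so `π = -(ζ - 1)`; Mathlib states its lemmas for `hζ.toInteger - 1`).

Plan.  Use `UnitsAlt.piInt_dvd_intCast_iff`, `piInt_pow_dvd_p`, `piInt_prime`,
`piInt_not_dvd_of_isUnit` (Rep1) and the `Rep` calculus (Rep2) as black boxes.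
`Rep_unique`: with `e_i = c_i - d_i` (integers) we get `π³ ∣ e₀ + e₁ π + e₂ π²`.  Then `π ∣ e₀`, so
`p ∣ e₀`, so `π³ ∣ e₀` (`π^(p-1) ∣ p`, `3 ≤ p - 1`); cancel one `π` (`𝓞 K` is a domain, `π ≠ 0`):
`π² ∣ e₁ + e₂ π`, so `π ∣ e₁`, `p ∣ e₁`, `π³ ∣ e₁`; then `π ∣ e₂`, `p ∣ e₂`.  Conclude with
`(ZMod.intCast_zmod_eq_zero_iff_dvd _ _)`/`ZMod.intCast_eq_intCast_iff_dvd_sub`.
`AB_unique`: from `Rep_unique`.  `AB_of_int`: `Rep x n 0 0` (`Rep_of_sub_mem`, `Rep_intCast`);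
`(n : ZMod p) ≠ 0` since otherwise `p ∣ n`, `π ∣ n`, `π ∣ x`, impossible for a unit;
`a = 0 / n = 0`, `b = 0 / n - (0 / n)^2 / 2 = 0` (`simp`).
-/

set_option autoImplicit false

namespace Fermat.Agent.S14.Thaine.UnitsAlt

open NumberField Fermat.Agent.S14.Thaine.Units

variable (p : ℕ) [Fact p.Prime] (K : Type*) [Field K] [NumberField K]
  [IsCyclotomicExtension {p} ℚ K]

namespace Rep3

/-- `π³ ∣ n` for an integer `n` divisible by `π` (if `p ≥ 5`). -/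
theorem pi_cube_dvd_of_pi_dvd (hp5 : 5 ≤ p) {n : ℤ} (h : piInt p K ∣ (n : 𝓞 K)) :
    piInt p K ^ 3 ∣ (n : 𝓞 K) := by
  obtain ⟨k, rfl⟩ := (piInt_dvd_intCast_iff p K n).mp h
  have h1 : piInt p K ^ 3 ∣ piInt p K ^ (p - 1) := pow_dvd_pow _ (by omega)
  have h2 : piInt p K ^ 3 ∣ ((p : ℕ) : 𝓞 K) := h1.trans (piInt_pow_dvd_p p K)
  have e : (((p : ℤ) * k : ℤ) : 𝓞 K) = ((p : ℕ) : 𝓞 K) * (k : 𝓞 K) := by push_cast; rfl
  rw [e]
  exact Dvd.dvd.mul_right h2 _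

/-- Pure divisibility bookkeeping in a commutative domain: from `π³ ∣ a + b π + c π²`, and the fact
that `π ∣ y` implies `π³ ∣ y` for `y ∈ {a, b}`, get `π ∣ a`, `π ∣ b`, `π ∣ c`. -/
theorem dvd_aux {R : Type*} [CommRing R] [IsDomain R] {π a b c : R} (hπ0 : π ≠ 0)
    (ha : π ∣ a → π ^ 3 ∣ a) (hb : π ∣ b → π ^ 3 ∣ b)
    (h : π ^ 3 ∣ a + b * π + c * π ^ 2) : π ∣ a ∧ π ∣ b ∧ π ∣ c := by
  have h0 : π ∣ a := by
    have h1 : π ∣ a + b * π + c * π ^ 2 := (dvd_pow_self π (by norm_num)).trans h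
    have h2 : π ∣ b * π + c * π ^ 2 := ⟨b + c * π, by ring⟩
    have h3 := dvd_sub h1 h2
    have e : a + b * π + c * π ^ 2 - (b * π + c * π ^ 2) = a := by ring
    rwa [e] at h3
  have h0' : π ^ 3 ∣ a := ha h0
  have h12 : π * π ^ 2 ∣ π * (b + c * π) := by
    have h3 := dvd_sub h h0'
    have e : a + b * π + c * π ^ 2 - a = π * (b + c * π) := by ring
    have e' : π ^ 3 = π * π ^ 2 := by ring
    rwa [e, e'] at h3
  have h12' : π ^ 2 ∣ b + c * π := (mul_dvd_mul_iff_left hπ0).mp h12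
  have h1 : π ∣ b := by
    have h3 : π ∣ b + c * π := (dvd_pow_self π (by norm_num)).trans h12'
    have h4 : π ∣ c * π := dvd_mul_left π _
    have h5 := dvd_sub h3 h4
    rwa [add_sub_cancel_right] at h5
  have h1' : π ^ 3 ∣ b := hb h1
  have h2 : π ∣ c := by
    have h3 : π * π ∣ π * c := by
      have h4 : π ^ 2 ∣ b := (pow_dvd_pow π (by norm_num : 2 ≤ 3)).trans h1'
      have h5 := dvd_sub h12' h4
      have e : b + c * π - b = π * c := by ring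
      have e' : π ^ 2 = π * π := by ring
      rwa [e, e'] at h5
    exact (mul_dvd_mul_iff_left hπ0).mp h3
  exact ⟨h0, h1, h2⟩

/-- The core of the uniqueness: if `π³ ∣ e₀ + e₁ π + e₂ π²` with integers `e_i`, then `p` divides
each `e_i`. -/
theorem dvd_of_pi_cube_dvd (hp5 : 5 ≤ p) {e₀ e₁ e₂ : ℤ}
    (h : piInt p K ^ 3 ∣
      (e₀ : 𝓞 K) + (e₁ : 𝓞 K) * piInt p K + (e₂ : 𝓞 K) * piInt p K ^ 2) :
    (p : ℤ) ∣ e₀ ∧ (p : ℤ) ∣ e₁ ∧ (p : ℤ) ∣ e₂ := by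
  have hπ0 : piInt p K ≠ 0 := (piInt_prime p K).ne_zero
  obtain ⟨h0, h1, h2⟩ := dvd_aux hπ0 (pi_cube_dvd_of_pi_dvd p K hp5)
    (pi_cube_dvd_of_pi_dvd p K hp5) h
  exact ⟨(piInt_dvd_intCast_iff p K e₀).mp h0, (piInt_dvd_intCast_iff p K e₁).mp h1,
    (piInt_dvd_intCast_iff p K e₂).mp h2⟩

end Rep3

/-- Uniqueness of the coefficients modulo `p` (needs `π³ ∣ p`, i.e. `p ≥ 5`). -/
theorem Rep_unique (hp5 : 5 ≤ p) {x : 𝓞 K} {c₀ c₁ c₂ d₀ d₁ d₂ : ℤ} (h : Rep p K x c₀ c₁ c₂)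
    (h' : Rep p K x d₀ d₁ d₂) :
    (c₀ : ZMod p) = (d₀ : ZMod p) ∧ (c₁ : ZMod p) = (d₁ : ZMod p) ∧
      (c₂ : ZMod p) = (d₂ : ZMod p) := by
  rw [Fermat.Agent.S14.Thaine.Units.Rep, Ideal.mem_span_singleton] at h h'
  have key := dvd_sub h h'
  have e : x - ((c₀ : 𝓞 K) + (c₁ : 𝓞 K) * piInt p K + (c₂ : 𝓞 K) * piInt p K ^ 2)
      - (x - ((d₀ : 𝓞 K) + (d₁ : 𝓞 K) * piInt p K + (d₂ : 𝓞 K) * piInt p K ^ 2))
      = ((d₀ - c₀ : ℤ) : 𝓞 K) + ((d₁ - c₁ : ℤ) : 𝓞 K) * piInt p K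
        + ((d₂ - c₂ : ℤ) : 𝓞 K) * piInt p K ^ 2 := by
    push_cast
    ring
  rw [e] at key
  obtain ⟨k0, k1, k2⟩ := Rep3.dvd_of_pi_cube_dvd p K hp5 key
  exact ⟨(ZMod.intCast_eq_intCast_iff_dvd_sub c₀ d₀ p).mpr k0,
    (ZMod.intCast_eq_intCast_iff_dvd_sub c₁ d₁ p).mpr k1,
    (ZMod.intCast_eq_intCast_iff_dvd_sub c₂ d₂ p).mpr k2⟩

theorem AB_unique (hp5 : 5 ≤ p) {x : 𝓞 K} {a b a' b' : ZMod p} (h : AB p K x a b)
    (h' : AB p K x a' b') : a = a' ∧ b = b' := by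
  obtain ⟨c₀, c₁, c₂, hrep, -, rfl, rfl⟩ := h
  obtain ⟨d₀, d₁, d₂, hrep', -, rfl, rfl⟩ := h'
  obtain ⟨e0, e1, e2⟩ := Rep_unique p K hp5 hrep hrep'
  rw [e0, e1, e2]
  exact ⟨rfl, rfl⟩

/-- A unit congruent to a rational integer modulo `π³` has invariants `(0, 0)`. -/
theorem AB_of_int (hp5 : 5 ≤ p) {x : 𝓞 K} (hx : IsUnit x) (n : ℤ)
    (h : x - (n : 𝓞 K) ∈ Ideal.span {piInt p K ^ 3}) : AB p K x 0 0 := by
  have _ := hp5
  have hrep : Rep p K x n 0 0 := Rep_of_sub_mem p K h (Rep_intCast p K n)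
  have hn : (n : ZMod p) ≠ 0 := by
    intro h0
    have h1 : piInt p K ∣ (n : 𝓞 K) :=
      (piInt_dvd_intCast_iff p K n).mpr ((ZMod.intCast_zmod_eq_zero_iff_dvd n p).mp h0)
    have h2 : piInt p K ∣ x - (n : 𝓞 K) :=
      (dvd_pow_self (piInt p K) (by norm_num)).trans (Ideal.mem_span_singleton.mp h)
    have h3 := dvd_add h2 h1
    rw [sub_add_cancel] at h3
    exact piInt_not_dvd_of_isUnit p K hx h3
  refine ⟨n, 0, 0, hrep, hn, ?_, ?_⟩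
  · simp
  · simp

end Fermat.Agent.S14.Thaine.UnitsAlt
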