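import Fermat.Agent.S14.Thaine.UnitsAlt.Rep2

/-!
# Route T, block `Units` — HEDGE copy `UnitsAlt/Rep4` (sub-architect helper20; one worker)

Multiplicativity of the invariants `AB`.
The statements are IDENTICAL to the ones of the same name in `Thaine/Units/*.lean` (owner
helper276) and FROZEN; only the namespace differs (`UnitsAlt`).  Replace each placeholder by a
proof; auxiliary declarations must be `private` or live in the sub-namespace
`Fermat.Agent.S14.Thaine.UnitsAlt.Rep4`.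

Notation: `ζ = zetaInt p K = (IsCyclotomicExtension.zeta_spec p ℚ K).toInteger`,
`π = piInt p K = 1 - ζ` (so `π = -(ζ - 1)`; Mathlib states its lemmas for `hζ.toInteger - 1`).

Plan.  Use `UnitsAlt.Rep_mul`, `Rep_intCast` (Rep2) as black boxes.
`AB_one`: `Rep 1 1 0 0` from `Rep_intCast 1` (`Int.cast_one`).  `AB_mul`: from representations
`(c₀,c₁,c₂)`, `(d₀,d₁,d₂)` take `(c₀d₀, c₀d₁+c₁d₀, c₀d₂+c₁d₁+c₂d₀)` (`Rep_mul`); in the field
`ZMod p` (instance from `Fact p.Prime`; `(2 : ZMod p) ≠ 0` since `p ≥ 5`, e.g. via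
`ZMod.natCast_eq_zero_iff`/`(ZMod.natCast_self_eq_zero)` and `Nat.le_of_dvd`) check
`(c₀d₁+c₁d₀)/(c₀d₀) = c₁/c₀ + d₁/d₀` and
`(c₀d₂+c₁d₁+c₂d₀)/(c₀d₀) - ((c₁/c₀ + d₁/d₀))^2/2 = (c₂/c₀ - (c₁/c₀)^2/2) + (d₂/d₀ - (d₁/d₀)^2/2)`
by `field_simp; ring` (push casts first: `Int.cast_mul`, `Int.cast_add`).
`AB_pow`: induction on `k` (`pow_succ`, `AB_one`, `AB_mul`; `Nat.cast_succ`, `add_mul`).
`AB_prod`: `Finset.induction_on` (needs `DecidableEq ι`: use `classical`).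
-/

set_option autoImplicit false

namespace Fermat.Agent.S14.Thaine.UnitsAlt

open NumberField Fermat.Agent.S14.Thaine.Units

variable (p : ℕ) [Fact p.Prime] (K : Type*) [Field K] [NumberField K]
  [IsCyclotomicExtension {p} ℚ K]

namespace Rep4

/-- `(2 : ZMod p) ≠ 0` for `p ≥ 5`. -/
theorem two_ne_zero_zmod (p : ℕ) (hp5 : 5 ≤ p) : (2 : ZMod p) ≠ 0 := by
  intro h
  have h' : ((2 : ℕ) : ZMod p) = 0 := by exact_mod_cast h
  rw [ZMod.natCast_eq_zero_iff] at h'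
  have h'' : p ≤ 2 := Nat.le_of_dvd (by norm_num) h'
  omega

/-- The field identities behind `AB_mul`: additivity of the two "logarithmic" invariants. -/
theorem ab_identity {F : Type*} [Field F] (h2 : (2 : F) ≠ 0) {c₀ c₁ c₂ d₀ d₁ d₂ : F}
    (hc : c₀ ≠ 0) (hd : d₀ ≠ 0) :
    (c₁ / c₀ + d₁ / d₀ = (c₀ * d₁ + c₁ * d₀) / (c₀ * d₀)) ∧
      ((c₂ / c₀ - (c₁ / c₀) ^ 2 / 2) + (d₂ / d₀ - (d₁ / d₀) ^ 2 / 2) =
        (c₀ * d₂ + c₁ * d₁ + c₂ * d₀) / (c₀ * d₀)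
          - ((c₀ * d₁ + c₁ * d₀) / (c₀ * d₀)) ^ 2 / 2) := by
  constructor
  · field_simp
    ring
  · field_simp
    ring

end Rep4

theorem AB_one : AB p K 1 0 0 := by
  refine ⟨1, 0, 0, ?_, ?_, ?_, ?_⟩
  · have h := Rep_intCast p K 1
    rwa [Int.cast_one] at h
  · rw [Int.cast_one]
    exact one_ne_zero
  · rw [Int.cast_zero, zero_div]
  · rw [Int.cast_zero, zero_div, zero_pow two_ne_zero, zero_div, sub_zero]

theorem AB_mul (hp5 : 5 ≤ p) {x y : 𝓞 K} {a b a' b' : ZMod p} (hx : AB p K x a b)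
    (hy : AB p K y a' b') : AB p K (x * y) (a + a') (b + b') := by
  obtain ⟨c₀, c₁, c₂, hc, hc0, rfl, rfl⟩ := hx
  obtain ⟨d₀, d₁, d₂, hd, hd0, rfl, rfl⟩ := hy
  obtain ⟨h1, h2⟩ := Rep4.ab_identity (Rep4.two_ne_zero_zmod p hp5) (c₁ := (c₁ : ZMod p))
    (c₂ := (c₂ : ZMod p)) (d₁ := (d₁ : ZMod p)) (d₂ := (d₂ : ZMod p)) hc0 hd0
  refine ⟨c₀ * d₀, c₀ * d₁ + c₁ * d₀, c₀ * d₂ + c₁ * d₁ + c₂ * d₀, Rep_mul p K hc hd, ?_, ?_, ?_⟩
  · rw [Int.cast_mul]
    exact mul_ne_zero hc0 hd0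
  · rw [h1]
    push_cast
    rfl
  · rw [h2]
    push_cast
    rfl

theorem AB_pow (hp5 : 5 ≤ p) {x : 𝓞 K} {a b : ZMod p} (hx : AB p K x a b) (k : ℕ) :
    AB p K (x ^ k) ((k : ZMod p) * a) ((k : ZMod p) * b) := by
  induction k with
  | zero =>
    rw [pow_zero, Nat.cast_zero, zero_mul, zero_mul]
    exact AB_one p K
  | succ k ih =>
    rw [pow_succ, Nat.cast_succ, add_mul, add_mul, one_mul, one_mul]
    exact AB_mul p K hp5 ih hx

theorem AB_prod (hp5 : 5 ≤ p) {ι : Type*} (s : Finset ι) (x : ι → 𝓞 K) (a b : ι → ZMod p)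
    (h : ∀ i ∈ s, AB p K (x i) (a i) (b i)) :
    AB p K (∏ i ∈ s, x i) (∑ i ∈ s, a i) (∑ i ∈ s, b i) := by
  classical
  induction s using Finset.induction_on with
  | empty =>
    rw [Finset.prod_empty, Finset.sum_empty, Finset.sum_empty]
    exact AB_one p K
  | insert i s hi ih =>
    rw [Finset.prod_insert hi, Finset.sum_insert hi, Finset.sum_insert hi]
    exact AB_mul p K hp5 (h i (Finset.mem_insert_self i s))
      (ih (fun j hj => h j (Finset.mem_insert_of_mem hj)))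

end Fermat.Agent.S14.Thaine.UnitsAlt
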