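import Fermat.Agent.S14.Thaine.UnitsAlt.Rep1
import Fermat.Agent.S14.Thaine.UnitsAlt.Rep2
import Fermat.Agent.S14.Thaine.UnitsAlt.Rep3
import Fermat.Agent.S14.Thaine.UnitsAlt.Rep4

/-!
# Route T, block `Units` — HEDGE copy `UnitsAlt/Rep`: aggregator (no declarations)

All theorems of `Thaine/Units/Rep.lean` are proved, with identical names and statements, in the
namespace `Fermat.Agent.S14.Thaine.UnitsAlt` by the files imported above.
-/
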