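import Fermat.Agent.S14.Thaine.Units.Defs

/-!
# Route T, block `Units` — HEDGE copy `UnitsAlt/Rep1` (sub-architect helper20; one worker)

Arithmetic of `π` in `𝓞 K`, `K = ℚ(ζ_p)`.
The statements are IDENTICAL to the ones of the same name in `Thaine/Units/*.lean` (owner
helper276) and FROZEN; only the namespace differs (`UnitsAlt`).  Replace each placeholder by a
proof; auxiliary declarations must be `private` or live in the sub-namespace
`Fermat.Agent.S14.Thaine.UnitsAlt.Rep1`.

Notation: `ζ = zetaInt p K = (IsCyclotomicExtension.zeta_spec p ℚ K).toInteger`,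
`π = piInt p K = 1 - ζ` (so `π = -(ζ - 1)`; Mathlib states its lemmas for `hζ.toInteger - 1`).

Plan.  Mathlib file `Mathlib/NumberTheory/NumberField/Cyclotomic/Ideal.lean`, namespace
`IsCyclotomicExtension.Rat` (with `hζ := IsCyclotomicExtension.zeta_spec p ℚ K`):
`zeta_sub_one_dvd_intCast_iff' : hζ.toInteger - 1 ∣ (n : 𝓞 K) ↔ (p : ℤ) ∣ n`,
`associated_zeta_sub_one_pow_prime : Associated ((hζ.toInteger - 1) ^ (p - 1)) (p : 𝓞 K)`; and
`IsPrimitiveRoot.zeta_sub_one_prime' : Prime (hζ.toInteger - 1)`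
(`Mathlib/NumberTheory/NumberField/Cyclotomic/Basic.lean`).  Transfer along `π = -(ζ - 1)`
(`neg_dvd`, `Prime.neg`/`Associated.prime`, `neg_pow`, `Even`/`Odd` of `p - 1` is NOT needed:
use `Associated` and `dvd` only).  A prime element does not divide a unit (`Prime.not_unit`,
`isUnit_of_dvd_unit`).
-/

set_option autoImplicit false

namespace Fermat.Agent.S14.Thaine.UnitsAlt

open NumberField Fermat.Agent.S14.Thaine.Units

variable (p : ℕ) [Fact p.Prime] (K : Type*) [Field K] [NumberField K]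
  [IsCyclotomicExtension {p} ℚ K]

namespace Rep1

/-- `π = -(ζ - 1)`. -/
theorem piInt_eq_neg :
    piInt p K = -((IsCyclotomicExtension.zeta_spec p ℚ K).toInteger - 1) := by
  unfold piInt zetaInt
  ring

end Rep1

/-- `π = 1 - ζ` divides the integer `n` iff `p ∣ n`. -/
theorem piInt_dvd_intCast_iff (n : ℤ) : piInt p K ∣ (n : 𝓞 K) ↔ (p : ℤ) ∣ n := by
  rw [Rep1.piInt_eq_neg, neg_dvd]
  exact IsCyclotomicExtension.Rat.zeta_sub_one_dvd_intCast_iff' p
    (IsCyclotomicExtension.zeta_spec p ℚ K)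

/-- `π ^ (p - 1)` divides `p`. -/
theorem piInt_pow_dvd_p : piInt p K ^ (p - 1) ∣ ((p : ℕ) : 𝓞 K) := by
  have h1 : piInt p K ∣ (IsCyclotomicExtension.zeta_spec p ℚ K).toInteger - 1 := by
    rw [Rep1.piInt_eq_neg, neg_dvd]
  exact (pow_dvd_pow_of_dvd h1 (p - 1)).trans
    (IsCyclotomicExtension.Rat.associated_zeta_sub_one_pow_prime p
      (IsCyclotomicExtension.zeta_spec p ℚ K)).dvd

theorem piInt_prime : Prime (piInt p K) := by
  rw [Rep1.piInt_eq_neg]
  exact (IsCyclotomicExtension.zeta_spec p ℚ K).zeta_sub_one_prime'.neg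

theorem piInt_not_dvd_of_isUnit {x : 𝓞 K} (hx : IsUnit x) : ¬ piInt p K ∣ x := by
  intro h
  exact (piInt_prime p K).not_isUnit (isUnit_of_dvd_unit h hx)

end Fermat.Agent.S14.Thaine.UnitsAlt
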