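import Fermat.Agent.S14.Thaine.UnitsAlt.RepZeta1

/-!
# Route T, block `Units` — HEDGE copy `UnitsAlt/RepZeta2` (sub-architect helper20; one worker)

`Rep`/`AB` of `θ_j = ∑_{i<j} ζ^i`.
The statements are IDENTICAL to the ones of the same name in `Thaine/Units/*.lean` (owner
helper276) and FROZEN; only the namespace differs (`UnitsAlt`).  Replace each placeholder by a
proof; auxiliary declarations must be `private` or live in the sub-namespace
`Fermat.Agent.S14.Thaine.UnitsAlt.RepZeta2`.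

Notation: `ζ = zetaInt p K = (IsCyclotomicExtension.zeta_spec p ℚ K).toInteger`,
`π = piInt p K = 1 - ζ` (so `π = -(ζ - 1)`; Mathlib states its lemmas for `hζ.toInteger - 1`).

Plan.  Black boxes: `Thaine/Units/Rep.lean` (namespace `Units`) and `UnitsAlt.Rep_zeta_pow`.
`Rep_theta`: induction on `j` (`theta p K (j+1) = theta p K j + ζ^j`, `Finset.sum_range_succ`),
`Rep_add`, and `C(j+1,2) = C(j,2) + j`, `C(j+1,3) = C(j,3) + C(j,2)` (`Nat.choose_succ_succ'`);
base case `theta p K 0 = 0` is `Rep 0 0 0 0` (`Rep_intCast 0`).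
`AB_theta` (`0 < j < p`): `c₀ = j`, nonzero in `ZMod p` (`ZMod.natCast_eq_zero_iff`,
`Nat.le_of_dvd`); `a = -C(j,2)/j = -(j-1)/2`; `b = C(j,3)/j - (C(j,2)/j)^2/2 = (j-1)(j-5)/24`.
Prove the cast identities `(C(j,2) : ZMod p) * 2 = j * (j - 1)` and
`(C(j,3) : ZMod p) * 6 = j * (j - 1) * (j - 2)` from the ℕ identities (e.g.
`Nat.choose_two_right`, `Nat.descFactorial_eq_factorial_mul_choose` / induction on `j`), then
`field_simp; ring` with `(2 : ZMod p) ≠ 0`, `(3 : ZMod p) ≠ 0`, `(24 : ZMod p) ≠ 0` (as `p ≥ 5` is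
prime: `24 = 2^3 * 3`).
-/

set_option autoImplicit false

namespace Fermat.Agent.S14.Thaine.UnitsAlt

open NumberField Fermat.Agent.S14.Thaine.Units

variable (p : ℕ) [Fact p.Prime] (K : Type*) [Field K] [NumberField K]
  [IsCyclotomicExtension {p} ℚ K]

namespace RepZeta2

/-- The binomial coefficients `C(j,2)`, `C(j,3)` in a commutative ring, without division. -/
theorem choose_cast (R : Type*) [CommRing R] (j : ℕ) :
    ((j.choose 2 : ℕ) : R) * 2 = (j : R) * ((j : R) - 1) ∧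
      ((j.choose 3 : ℕ) : R) * 6 = (j : R) * ((j : R) - 1) * ((j : R) - 2) := by
  induction j with
  | zero => simp
  | succ j ih =>
    have e2 : (j + 1).choose 2 = j + j.choose 2 := by
      have h := Nat.choose_succ_succ' j 1
      rw [Nat.choose_one_right] at h
      exact h
    have e3 : (j + 1).choose 3 = j.choose 2 + j.choose 3 := Nat.choose_succ_succ' j 2
    rw [e2, e3]
    push_cast
    constructor
    · linear_combination ih.1
    · linear_combination 3 * ih.1 + ih.2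

/-- A positive natural number `< p` is nonzero in `ZMod p`. -/
theorem natCast_ne_zero (p : ℕ) {n : ℕ} (hn : 0 < n) (hnp : n < p) : (n : ZMod p) ≠ 0 := by
  rw [Ne, ZMod.natCast_eq_zero_iff]
  exact Nat.not_dvd_of_pos_of_lt hn hnp

theorem two_ne_zero' (p : ℕ) (hp5 : 5 ≤ p) : (2 : ZMod p) ≠ 0 := by
  have h := natCast_ne_zero p (n := 2) (by norm_num) (by omega)
  exact_mod_cast h

theorem three_ne_zero' (p : ℕ) (hp5 : 5 ≤ p) : (3 : ZMod p) ≠ 0 := by
  have h := natCast_ne_zero p (n := 3) (by norm_num) (by omega)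
  exact_mod_cast h

end RepZeta2

/-- `θ_j = ∑_{i<j} ζ^i ≡ j - C(j,2) π + C(j,3) π²`. -/
theorem Rep_theta (j : ℕ) :
    Rep p K (theta p K j) (j : ℤ) (-((j.choose 2 : ℕ) : ℤ)) ((j.choose 3 : ℕ) : ℤ) := by
  induction j with
  | zero =>
    have h := Units.Rep_intCast p K 0
    have e0 : theta p K 0 = ((0 : ℤ) : 𝓞 K) := by
      rw [Int.cast_zero]
      exact Finset.sum_range_zero _
    have e2 : -(((0 : ℕ).choose 2 : ℕ) : ℤ) = 0 := by
      rw [Nat.choose_zero_succ, Nat.cast_zero, neg_zero]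
    have e3 : (((0 : ℕ).choose 3 : ℕ) : ℤ) = 0 := by
      rw [Nat.choose_zero_succ, Nat.cast_zero]
    rw [e0, Nat.cast_zero, e2, e3]
    exact h
  | succ j ih =>
    have h := Units.Rep_add p K ih (UnitsAlt.Rep_zeta_pow p K j)
    have e0 : theta p K (j + 1) = theta p K j + zetaInt p K ^ j := Finset.sum_range_succ _ _
    have e1 : ((j + 1 : ℕ) : ℤ) = (j : ℤ) + 1 := by
      push_cast
      ring
    have e2 : -(((j + 1).choose 2 : ℕ) : ℤ) = -((j.choose 2 : ℕ) : ℤ) + -(j : ℤ) := by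
      have h2 : (j + 1).choose 2 = j.choose 1 + j.choose 2 := Nat.choose_succ_succ' j 1
      rw [h2, Nat.choose_one_right]
      push_cast
      ring
    have e3 : (((j + 1).choose 3 : ℕ) : ℤ) = ((j.choose 3 : ℕ) : ℤ) + ((j.choose 2 : ℕ) : ℤ) := by
      have h3 : (j + 1).choose 3 = j.choose 2 + j.choose 3 := Nat.choose_succ_succ' j 2
      rw [h3]
      push_cast
      ring
    rw [e0, e1, e2, e3]
    exact h

theorem AB_theta (hp5 : 5 ≤ p) (j : ℕ) (hj : 0 < j) (hjp : j < p) :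
    AB p K (theta p K j) (-((j : ZMod p) - 1) / 2)
      (((j : ZMod p) - 1) * ((j : ZMod p) - 5) / 24) := by
  have h2 : (2 : ZMod p) ≠ 0 := RepZeta2.two_ne_zero' p hp5
  have h3 : (3 : ZMod p) ≠ 0 := RepZeta2.three_ne_zero' p hp5
  have h6 : (6 : ZMod p) ≠ 0 := by
    have e : (6 : ZMod p) = 2 * 3 := by norm_num
    rw [e]
    exact mul_ne_zero h2 h3
  have h24 : (24 : ZMod p) ≠ 0 := by
    have e : (24 : ZMod p) = 2 * 2 * (2 * 3) := by norm_num
    rw [e]
    exact mul_ne_zero (mul_ne_zero h2 h2) (mul_ne_zero h2 h3)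
  have hJ : (j : ZMod p) ≠ 0 := RepZeta2.natCast_ne_zero p hj hjp
  obtain ⟨hC2, hC3⟩ := RepZeta2.choose_cast (ZMod p) j
  have hC2' : ((j.choose 2 : ℕ) : ZMod p) = (j : ZMod p) * ((j : ZMod p) - 1) / 2 := by
    rw [eq_div_iff h2]
    exact hC2
  have hC3' : ((j.choose 3 : ℕ) : ZMod p)
      = (j : ZMod p) * ((j : ZMod p) - 1) * ((j : ZMod p) - 2) / 6 := by
    rw [eq_div_iff h6]
    exact hC3
  refine ⟨(j : ℤ), -((j.choose 2 : ℕ) : ℤ), ((j.choose 3 : ℕ) : ℤ), Rep_theta p K j, ?_, ?_, ?_⟩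
  · rw [Int.cast_natCast]
    exact hJ
  · rw [Int.cast_neg, Int.cast_natCast, Int.cast_natCast, hC2']
    field_simp
  · rw [Int.cast_neg, Int.cast_natCast, Int.cast_natCast, Int.cast_natCast, hC2', hC3']
    field_simp
    ring

end Fermat.Agent.S14.Thaine.UnitsAlt
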