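import Fermat.Agent.S14.Thaine.Units.Rep

/-!
# Route T, block `Units` — HEDGE copy `UnitsAlt/RepZeta3` (sub-architect helper20; one worker)

Residue field of `(π)` and `p`-th powers.
The statements are IDENTICAL to the ones of the same name in `Thaine/Units/*.lean` (owner
helper276) and FROZEN; only the namespace differs (`UnitsAlt`).  Replace each placeholder by a
proof; auxiliary declarations must be `private` or live in the sub-namespace
`Fermat.Agent.S14.Thaine.UnitsAlt.RepZeta3`.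

Notation: `ζ = zetaInt p K = (IsCyclotomicExtension.zeta_spec p ℚ K).toInteger`,
`π = piInt p K = 1 - ζ` (so `π = -(ζ - 1)`; Mathlib states its lemmas for `hζ.toInteger - 1`).

Plan.  Black boxes: `Thaine/Units/Rep.lean` (namespace `Units`).
`exists_int_sub_dvd`: the quotient `𝓞 K ⧸ span {π}` has `p` elements
(`IsCyclotomicExtension.Rat.absNorm_span_zeta_sub_one` / `IsPrimitiveRoot.card_quotient_toInteger_sub_one`
for `ζ - 1`, `span {π} = span {ζ - 1}`), so the `p` integers `0, …, p-1`, pairwise incongruent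
modulo `π` (`piInt_dvd_intCast_iff`), exhaust it (`Finite.injective_iff_surjective` for the map
`ZMod p → 𝓞 K ⧸ span {π}` or for `Fin p`); alternative: `𝓞 K = ℤ[ζ]`
(`IsCyclotomicExtension.Rat.isIntegralClosure_adjoin_singleton_of_prime`, `Algebra.adjoin_induction`)
and `ζ ≡ 1 mod π`.
`AB_pow_p`: write `w = n + π t` (`exists_int_sub_dvd`); then `π^p ∣ w^p - n^p`: binomial theorem
(`add_pow`), for `0 < k < p` the coefficient `C(p,k)` is divisible by `p` (`Nat.Prime.dvd_choose_self`)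
hence by `π^(p-1)` (`piInt_pow_dvd_p`) and is multiplied by `π^k`; the last term is `π^p t^p`.
(Alternative: `w^p - n^p = ∏_{i<p} (w - ζ^i n)` and each factor is divisible by `π`.)
Since `3 ≤ p`: `π³ ∣ w^p - (n^p : ℤ)`; so `Rep (w^p) (n^p) 0 0` (`Rep_of_sub_mem`, `Rep_intCast`,
`Int.cast_pow`); `p ∤ n` because `π ∤ w`; hence `((n^p : ℤ) : ZMod p) ≠ 0` and `a = b = 0`.
-/

set_option autoImplicit false

namespace Fermat.Agent.S14.Thaine.UnitsAlt

open NumberField Fermat.Agent.S14.Thaine.Units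

variable (p : ℕ) [Fact p.Prime] (K : Type*) [Field K] [NumberField K]
  [IsCyclotomicExtension {p} ℚ K]

/-- Every element of `𝓞 K` is congruent to a rational integer modulo `π`
(the residue field of `(π)` is `𝔽_p`). -/
theorem exists_int_sub_dvd (x : 𝓞 K) : ∃ n : ℤ, piInt p K ∣ x - (n : 𝓞 K) := by
  obtain ⟨f, hf⟩ :=
    (IsCyclotomicExtension.zeta_spec p ℚ K).integralPowerBasis.exists_eq_aeval' x
  rw [IsPrimitiveRoot.integralPowerBasis_gen] at hf
  refine ⟨f.eval 1, ?_⟩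
  have h := Polynomial.sub_dvd_eval_sub (1 : 𝓞 K) (zetaInt p K)
    (f.map (algebraMap ℤ (𝓞 K)))
  rw [Polynomial.eval_one_map, Polynomial.eval_map_algebraMap, eq_intCast] at h
  rw [hf]
  exact (dvd_sub_comm).mp h

namespace RepZeta3

/-- `w ≡ v (mod π)` implies `w ^ p ≡ v ^ p (mod π ^ p)`. -/
theorem pow_dvd_pow_sub_pow (w v : 𝓞 K) (h : piInt p K ∣ w - v) :
    piInt p K ^ p ∣ w ^ p - v ^ p := by
  obtain ⟨t, ht⟩ := h
  have hw : w = v + piInt p K * t := by rw [← ht]; ring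
  obtain ⟨r, hr⟩ := exists_add_pow_prime_eq (Fact.out : p.Prime) v (piInt p K * t)
  obtain ⟨c, hc⟩ := piInt_pow_dvd_p p K
  have hpp : piInt p K ^ p = piInt p K ^ (p - 1) * piInt p K := by
    rw [← pow_succ, Nat.sub_add_cancel (Fact.out : p.Prime).one_le]
  refine ⟨t ^ p + c * v * t * r, ?_⟩
  rw [hw, hr, hc, mul_pow, hpp]
  ring

end RepZeta3

/-- `w ≡ w₀ (mod π)` implies `w^p ≡ w₀^p (mod π^p)`, so `p`-th powers have invariants `(0, 0)`. -/
theorem AB_pow_p (hp5 : 5 ≤ p) (w : 𝓞 K) (hw : ¬ piInt p K ∣ w) : AB p K (w ^ p) 0 0 := by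
  obtain ⟨n, hn⟩ := exists_int_sub_dvd p K w
  have h1 : piInt p K ^ p ∣ w ^ p - (n : 𝓞 K) ^ p := RepZeta3.pow_dvd_pow_sub_pow p K w n hn
  have h3 : piInt p K ^ 3 ∣ w ^ p - (((n ^ p : ℤ)) : 𝓞 K) := by
    rw [Int.cast_pow]
    exact (pow_dvd_pow _ (by omega : 3 ≤ p)).trans h1
  have hrep : Rep p K (w ^ p) (n ^ p) 0 0 :=
    Rep_of_sub_mem p K (Ideal.mem_span_singleton.mpr h3) (Rep_intCast p K (n ^ p))
  have hpn : ¬ (p : ℤ) ∣ n := by
    intro hdvd
    have h4 : piInt p K ∣ (n : 𝓞 K) := (piInt_dvd_intCast_iff p K n).mpr hdvd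
    have h5 : piInt p K ∣ w - (n : 𝓞 K) + (n : 𝓞 K) := dvd_add hn h4
    rw [sub_add_cancel] at h5
    exact hw h5
  have hn0 : ((n : ℤ) : ZMod p) ≠ 0 := by
    rw [Ne, ZMod.intCast_zmod_eq_zero_iff_dvd]
    exact hpn
  refine ⟨n ^ p, 0, 0, hrep, ?_, ?_, ?_⟩
  · rw [Int.cast_pow]
    exact pow_ne_zero _ hn0
  · rw [Int.cast_zero, zero_div]
  · rw [Int.cast_zero, zero_div, zero_pow two_ne_zero, zero_div, sub_zero]

end Fermat.Agent.S14.Thaine.UnitsAlt
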