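import Fermat.Agent.S14.Thaine.Units.Rep

/-!
# Route T, block `Units` — HEDGE copy `UnitsAlt/RepZeta1` (sub-architect helper20; one worker)

`Rep`/`AB` of `ζ^i`.
The statements are IDENTICAL to the ones of the same name in `Thaine/Units/*.lean` (owner
helper276) and FROZEN; only the namespace differs (`UnitsAlt`).  Replace each placeholder by a
proof; auxiliary declarations must be `private` or live in the sub-namespace
`Fermat.Agent.S14.Thaine.UnitsAlt.RepZeta1`.

Notation: `ζ = zetaInt p K = (IsCyclotomicExtension.zeta_spec p ℚ K).toInteger`,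
`π = piInt p K = 1 - ζ` (so `π = -(ζ - 1)`; Mathlib states its lemmas for `hζ.toInteger - 1`).

Plan.  The lemmas of `Thaine/Units/Rep.lean` (namespace `Units`, opened here) may be used as black
boxes.  `Rep_zeta_pow`: induction on `i` with `ζ = 1 - π` (`zetaInt p K = 1 - piInt p K` by
definition of `piInt`): `Rep ζ 1 (-1) 0` directly, then `Rep_mul` and
`Nat.choose_succ_succ'`/`Nat.succ_sub_one` bookkeeping: `(1, -i, C(i,2)) * (1, -1, 0) =`
`(1, -(i+1), C(i,2) + i)` and `C(i+1,2) = C(i,2) + i` (`Nat.choose_two_right`,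
`Nat.choose_succ_succ`, `Nat.choose_one_right`).  Use `Rep_of_sub_mem`-free rewriting: the
coefficients must match syntactically, so finish with a `convert`/`have : ... = ... := by
push_cast; ring` on the integer triples.
`AB_zeta_pow`: from `Rep_zeta_pow`: `c₀ = 1`, `a = -i`, `b = C(i,2) - i^2/2 = -i/2` in `ZMod p`
(`(2 : ZMod p) ≠ 0`; `2 * C(i,2) = i * (i - 1)`: `Nat.choose_two_right`, `Nat.triangle_succ` or
`Nat.two_mul_choose_two...`; prove the cast identity `((i.choose 2 : ℕ) : ZMod p) * 2 = i * (i - 1)`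
from the ℕ identity `i.choose 2 * 2 = i * (i - 1)`; careful with truncated subtraction, do a case
split `i = 0` / `i = j + 1`).

Proof used here (self-contained, no lemma of `Thaine/Units/Rep.lean` is needed): in any commutative
ring, `x ^ 3 ∣ (1 - x) ^ i - (1 - i x + C(i,2) x ^ 2)` (induction on `i`), applied to `x = π`; and
`C(i,2) * 2 = i * (i - 1)` in any commutative ring (induction on `i`).
-/

set_option autoImplicit false

namespace Fermat.Agent.S14.Thaine.UnitsAlt

open NumberField Fermat.Agent.S14.Thaine.Units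

namespace RepZeta1

/-- `C(i + 1, 2) = i + C(i, 2)`. -/
theorem choose_succ_two (i : ℕ) : (i + 1).choose 2 = i + i.choose 2 := by
  rw [Nat.choose_succ_succ' i 1, Nat.choose_one_right]

/-- In a commutative ring, `(1 - x) ^ i ≡ 1 - i x + C(i,2) x ^ 2` modulo `x ^ 3`. -/
theorem pow_three_dvd {R : Type*} [CommRing R] (x : R) (i : ℕ) :
    x ^ 3 ∣ (1 - x) ^ i -
      (((1 : ℤ) : R) + ((-(i : ℤ) : ℤ) : R) * x + (((i.choose 2 : ℕ) : ℤ) : R) * x ^ 2) := by
  induction i with
  | zero => simp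
  | succ i ih =>
    obtain ⟨q, hq⟩ := ih
    refine ⟨(1 - x) * q - ((i.choose 2 : ℕ) : R), ?_⟩
    rw [choose_succ_two]
    push_cast at hq ⊢
    linear_combination (1 - x) * hq

/-- In a commutative ring, `C(i,2) * 2 = i * (i - 1)`. -/
theorem choose_two_mul_two {R : Type*} [CommRing R] (i : ℕ) :
    ((i.choose 2 : ℕ) : R) * 2 = (i : R) * ((i : R) - 1) := by
  induction i with
  | zero => simp
  | succ i ih =>
    rw [choose_succ_two]
    push_cast
    linear_combination ih

/-- `2 ≠ 0` in `ZMod p` for `p ≥ 5`. -/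
theorem two_ne_zero_zmod (p : ℕ) (hp5 : 5 ≤ p) : (2 : ZMod p) ≠ 0 := by
  intro h
  have h' : ((2 : ℕ) : ZMod p) = 0 := by exact_mod_cast h
  rw [ZMod.natCast_eq_zero_iff] at h'
  have := Nat.le_of_dvd (by norm_num) h'
  omega

end RepZeta1

variable (p : ℕ) [Fact p.Prime] (K : Type*) [Field K] [NumberField K]
  [IsCyclotomicExtension {p} ℚ K]

/-- `ζ^i = (1 - π)^i ≡ 1 - i π + C(i,2) π²`. -/
theorem Rep_zeta_pow (i : ℕ) :
    Rep p K (zetaInt p K ^ i) 1 (-(i : ℤ)) ((i.choose 2 : ℕ) : ℤ) := by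
  have hζ : zetaInt p K = 1 - piInt p K := by rw [piInt, sub_sub_cancel]
  unfold Fermat.Agent.S14.Thaine.Units.Rep
  rw [Ideal.mem_span_singleton, hζ]
  exact RepZeta1.pow_three_dvd (piInt p K) i

theorem AB_zeta_pow (hp5 : 5 ≤ p) (i : ℕ) :
    AB p K (zetaInt p K ^ i) (-(i : ZMod p)) (-(i : ZMod p) / 2) := by
  have h2 : (2 : ZMod p) ≠ 0 := RepZeta1.two_ne_zero_zmod p hp5
  have hC : ((i.choose 2 : ℕ) : ZMod p) * 2 = (i : ZMod p) * ((i : ZMod p) - 1) :=
    RepZeta1.choose_two_mul_two i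
  refine ⟨1, -(i : ℤ), ((i.choose 2 : ℕ) : ℤ), Rep_zeta_pow p K i, ?_, ?_, ?_⟩
  · rw [Int.cast_one]
    exact one_ne_zero
  · rw [Int.cast_one, div_one, Int.cast_neg, Int.cast_natCast]
  · rw [Int.cast_one, div_one, div_one, Int.cast_neg, Int.cast_natCast, Int.cast_natCast]
    field_simp
    linear_combination (-1 : ZMod p) * hC

end Fermat.Agent.S14.Thaine.UnitsAlt
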