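import Fermat.Agent.S14.Thaine.Units.Rep

/-!
# Route T, block `Units` — HEDGE copy `UnitsAlt/Step2` (sub-architect helper20; one worker)

The prime above `p` is `(π)`.
The statements are IDENTICAL to the ones of the same name in `Thaine/Units/*.lean` (owner
helper276) and FROZEN; only the namespace differs (`UnitsAlt`).  Replace each placeholder by a
proof; auxiliary declarations must be `private` or live in the sub-namespace
`Fermat.Agent.S14.Thaine.UnitsAlt.Step2`.

Notation: `ζ = zetaInt p K = (IsCyclotomicExtension.zeta_spec p ℚ K).toInteger`,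
`π = piInt p K = 1 - ζ` (so `π = -(ζ - 1)`; Mathlib states its lemmas for `hζ.toInteger - 1`).

Plan.  Black boxes from `Thaine/Units/Rep.lean` (namespace `Units`): `piInt_pow_dvd_p`,
`piInt_prime`.  `π^(p-1) ∣ p ∈ 𝔭` gives `π^(p-1) ∈ 𝔭`... careful: from `π^(p-1) ∣ p` one gets
`p ∈ span {π}`, not `π ∈ 𝔭`; use instead that `p` is ASSOCIATED to `π^(p-1)`
(`IsCyclotomicExtension.Rat.associated_zeta_sub_one_pow_prime`, `π = -(ζ - 1)`), so
`π^(p-1) ∈ 𝔭` and `π ∈ 𝔭` (`Ideal.IsPrime.mem_of_pow_mem`).  Then `span {π} ≤ 𝔭`; `span {π}` is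
a nonzero prime ideal (`Ideal.span_singleton_prime`, `piInt_prime`), hence maximal
(`Ideal.IsPrime.isMaximal` in the Dedekind domain `𝓞 K`), and `𝔭 ≠ ⊤`, so equality
(`Ideal.IsMaximal.eq_of_le`).  Alternative: Mathlib
`IsCyclotomicExtension.Rat.eq_span_zeta_sub_one_of_liesOver'` after showing
`𝔭.LiesOver (Ideal.span {(p : ℤ)})`.  See also `Fermat/Agent/S14/Thaine/Glue/UnitLocal.lean`
(`GlueP.unit_local_eq_span`) on main for a proved relative of this statement (you may copy its
proof idea, but do not import that file).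
-/

set_option autoImplicit false

namespace Fermat.Agent.S14.Thaine.UnitsAlt

open NumberField Fermat.Agent.S14.Thaine.Units

variable (p : ℕ) [Fact p.Prime] (K : Type*) [Field K] [NumberField K]
  [IsCyclotomicExtension {p} ℚ K]

/-- A prime of `𝓞 K` containing `p` is `(π)`. -/
theorem eq_span_piInt (𝔭 : Ideal (𝓞 K)) (h𝔭 : 𝔭.IsPrime) (hp𝔭 : ((p : ℕ) : 𝓞 K) ∈ 𝔭) :
    𝔭 = Ideal.span {piInt p K} := by
  have hLO : 𝔭.LiesOver (Ideal.span {(p : ℤ)}) := by
    rw [Ideal.liesOver_iff]
    refine Ideal.IsMaximal.eq_of_le (Int.ideal_span_isMaximal_of_prime p)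
      Ideal.IsPrime.ne_top' ?_
    rw [Ideal.span_singleton_le_iff_mem, Ideal.under, Ideal.mem_comap, algebraMap_int_eq,
      map_natCast]
    exact hp𝔭
  have h : 𝔭 = Ideal.span {(IsCyclotomicExtension.zeta_spec p ℚ K).toInteger - 1} :=
    IsCyclotomicExtension.Rat.eq_span_zeta_sub_one_of_liesOver' p K
      (IsCyclotomicExtension.zeta_spec p ℚ K) 𝔭
  have hpi : piInt p K = -((IsCyclotomicExtension.zeta_spec p ℚ K).toInteger - 1) := by
    unfold piInt zetaInt
    ring
  rw [hpi, Ideal.span_singleton_neg]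
  exact h

end Fermat.Agent.S14.Thaine.UnitsAlt
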