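import Mathlib

/-!
# Route T, block `Units` — HEDGE copy `UnitsAlt/Step1` (sub-architect helper20; one worker)

Choice of the eigenvalue lift (pure number theory).
The statements are IDENTICAL to the ones of the same name in `Thaine/Units/*.lean` (owner
helper276) and FROZEN; only the namespace differs (`UnitsAlt`).  Replace each placeholder by a
proof; auxiliary declarations must be `private` or live in the sub-namespace
`Fermat.Agent.S14.Thaine.UnitsAlt.Step1`.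

Notation: `ζ = zetaInt p K = (IsCyclotomicExtension.zeta_spec p ℚ K).toInteger`,
`π = piInt p K = 1 - ζ` (so `π = -(ζ - 1)`; Mathlib states its lemmas for `hζ.toInteger - 1`).

Plan.  Let `S c = ∑_{i<m} c^i`.  Suppose `p² ∣ S c₀` and `p² ∣ S (c₀ + p)`.
(1) `(c₀ + p)^i ≡ c₀^i + i * c₀^(i-1) * p (mod p²)` (binomial theorem `add_pow`, or induction on
`i`), so `S (c₀ + p) ≡ S c₀ + p * D (mod p²)` with `D = ∑_{i<m} i * c₀^(i-1)`; hence `p ∣ D`.
(2) `(c₀ - 1) * S c₀ = c₀^m - 1` (`Nat.geomSum_eq`/`mul_geom_sum`, work in `ℤ` or `ZMod p`), and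
differentiating, `(c₀ - 1) * D + S c₀ = m * c₀^(m-1)` (prove by induction on `m` in `ℤ`).  Modulo
`p` (work in the field `ZMod p`, `haveI := Fact.mk hp`): `S c₀ = 0` and `D = 0` give
`m * c₀^(m-1) = 0`, contradicting `p ∤ m` (`0 < m < p`) and `p ∤ c₀`.
So one of `c₀`, `c₀ + p` works (`by_contra` + `push_neg`).
-/

set_option autoImplicit false

namespace Fermat.Agent.S14.Thaine.UnitsAlt

namespace Step1

open Polynomial

/-- `f = ∑_{i<m} X^i` satisfies `f' * (X - 1) + f = m X^(m-1)` (derivative of the geometric sum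
formula), evaluated at an integer `c`. -/
theorem deriv_identity (m : ℕ) (c : ℤ) :
    (derivative (∑ i ∈ Finset.range m, (X : ℤ[X]) ^ i)).eval c * (c - 1) +
      ∑ i ∈ Finset.range m, c ^ i = (m : ℤ) * c ^ (m - 1) := by
  have hgeom : (∑ i ∈ Finset.range m, (X : ℤ[X]) ^ i) * (X - 1) = X ^ m - 1 := geom_sum_mul X m
  have hder := congrArg (fun g : ℤ[X] => (derivative g).eval c) hgeom
  simp only [derivative_mul, derivative_sub, derivative_X, derivative_one, sub_zero, mul_one,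
    derivative_X_pow, eval_add, eval_mul, eval_sub, eval_X, eval_one, eval_geom_sum, eval_C,
    eval_pow] at hder
  exact hder

/-- If `p²` divides both `∑_{i<m} c^i` and `∑_{i<m} (c+p)^i` then `p ∣ m c^(m-1)`. -/
theorem key (p : ℤ) (hp0 : p ≠ 0) (m : ℕ) (c : ℤ)
    (h1 : p ^ 2 ∣ ∑ i ∈ Finset.range m, c ^ i)
    (h2 : p ^ 2 ∣ ∑ i ∈ Finset.range m, (c + p) ^ i) :
    p ∣ (m : ℤ) * c ^ (m - 1) := by
  obtain ⟨k, hk⟩ := (∑ i ∈ Finset.range m, (X : ℤ[X]) ^ i).binomExpansion c p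
  rw [eval_geom_sum, eval_geom_sum] at hk
  have hD : p ∣ (derivative (∑ i ∈ Finset.range m, (X : ℤ[X]) ^ i)).eval c := by
    have h3 : p * p ∣ (derivative (∑ i ∈ Finset.range m, (X : ℤ[X]) ^ i)).eval c * p := by
      have h4 : (derivative (∑ i ∈ Finset.range m, (X : ℤ[X]) ^ i)).eval c * p =
          ∑ i ∈ Finset.range m, (c + p) ^ i - ∑ i ∈ Finset.range m, c ^ i - k * p ^ 2 := by
        rw [hk]; ring
      rw [h4, ← pow_two]
      exact dvd_sub (dvd_sub h2 h1) (dvd_mul_left _ _)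
    exact (mul_dvd_mul_iff_right hp0).mp h3
  rw [← deriv_identity m c]
  exact dvd_add (dvd_mul_of_dvd_left hD _) (dvd_trans (dvd_pow_self p two_ne_zero) h1)

end Step1

/-- Choice of the eigenvalue lift: `c ≡ c₀ (mod p)` with `p² ∤ ∑_{i<m} c^i`. -/
theorem exists_lift_not_sq_dvd (p : ℕ) (hp : p.Prime) (m : ℕ) (hm0 : 0 < m) (hmp : m < p)
    (c₀ : ℕ) (hc₀ : ¬ p ∣ c₀) :
    ∃ c : ℕ, (c = c₀ ∨ c = c₀ + p) ∧ ¬ p ^ 2 ∣ ∑ i ∈ Finset.range m, c ^ i := by
  by_contra hcon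
  have h1 : p ^ 2 ∣ ∑ i ∈ Finset.range m, c₀ ^ i := by
    by_contra h
    exact hcon ⟨c₀, Or.inl rfl, h⟩
  have h2 : p ^ 2 ∣ ∑ i ∈ Finset.range m, (c₀ + p) ^ i := by
    by_contra h
    exact hcon ⟨c₀ + p, Or.inr rfl, h⟩
  have h1' : (p : ℤ) ^ 2 ∣ ∑ i ∈ Finset.range m, (c₀ : ℤ) ^ i := by
    have := Int.natCast_dvd_natCast.mpr h1
    push_cast at this
    exact this
  have h2' : (p : ℤ) ^ 2 ∣ ∑ i ∈ Finset.range m, ((c₀ : ℤ) + (p : ℤ)) ^ i := by
    have := Int.natCast_dvd_natCast.mpr h2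
    push_cast at this
    exact this
  have h3 : (p : ℤ) ∣ (m : ℤ) * (c₀ : ℤ) ^ (m - 1) :=
    Step1.key (p : ℤ) (Int.natCast_ne_zero.mpr hp.ne_zero) m (c₀ : ℤ) h1' h2'
  have h4 : p ∣ m * c₀ ^ (m - 1) := by
    apply Int.natCast_dvd_natCast.mp
    push_cast
    exact h3
  rcases (Nat.Prime.dvd_mul hp).mp h4 with h | h
  · exact absurd (Nat.le_of_dvd hm0 h) (not_le.mpr hmp)
  · exact hc₀ (hp.dvd_of_dvd_pow h)

end Fermat.Agent.S14.Thaine.UnitsAlt
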