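import Fermat.Agent.S14.Thaine.Units.NotPow
import Fermat.Agent.S14.Thaine.Units.StepAB
import Fermat.Agent.S14.Thaine.Units.Eigen
import Fermat.Agent.S14.Thaine.Units.Transfer
import Fermat.Agent.S14.Thaine.Units.Minkowski
import Fermat.Agent.S14.Thaine.UnitsAlt.Step1

/-!
# Route T, block `Units` — HEDGE copy `UnitsAlt/Step3` (sub-architect helper20; one worker)

Every `ω²`-eigen-unit modulo `p`-th powers is `u'^k w^p t`.
The statements are IDENTICAL to the ones of the same name in `Thaine/Units/*.lean` (owner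
helper276) and FROZEN; only the namespace differs (`UnitsAlt`).  Replace each placeholder by a
proof; auxiliary declarations must be `private` or live in the sub-namespace
`Fermat.Agent.S14.Thaine.UnitsAlt.Step3`.

Notation: `ζ = zetaInt p K = (IsCyclotomicExtension.zeta_spec p ℚ K).toInteger`,
`π = piInt p K = 1 - ζ` (so `π = -(ζ - 1)`; Mathlib states its lemmas for `hζ.toInteger - 1`).

Plan.  Black boxes (namespace `Units`): `exists_gal_generator`, `norm_mem_torsion` (Places),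
`exists_minkowski_unit` (Minkowski), `lemmaX_mul` (Transfer), `uPrime_eigen` (Eigen),
`uPrime_not_torsion_mul_pow` (NotPow), `isUnit_uPrime` (UPrime), `galU_pow_apply` (Defs), and
`UnitsAlt.exists_lift_not_sq_dvd` (Step1).
Let `γ` be a generator (`exists_gal_generator`), `m = (p-1)/2` (`2 ≤ m`, `0 < m < p`),
`c₀ = sqExp p K γ` (`p ∤ c₀`: it is the `val` of the square of a unit of `ZMod p`, nonzero and
`< p`), `c ∈ {c₀, c₀ + p}` with `p² ∤ ∑_{i<m} c^i`.  Apply `lemmaX_mul` with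
`E = (𝓞 K)ˣ`, `tors = NumberField.Units.torsion K`, `f = (galU K γ).toMonoidHom`, `v = u₀` the
Minkowski unit, `e₁ = ε`, `e₂ = isUnit_uPrime.unit`:
* `htors`: `e^n ∈ torsion → e ∈ torsion` (torsion = elements of finite order:
  `CommGroup.mem_torsion`, `isOfFinOrder_pow`-type lemma, `n > 0`);
* `hf`: a group automorphism preserves finite order (`MonoidHom.isOfFinOrder`);
* `hN`: `norm_mem_torsion` + `galU_pow_apply` (rewrite `f^[i]` as `galU K (γ^i)`);
* `hv`: from `exists_minkowski_unit` (a subgroup containing a finite-index subgroup has finite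
  index: `Subgroup.finiteIndex_of_le le_sup_left`);
* `h₁`: from `heig γ`: `γ ε = ε^c₀ w^p`; if `c = c₀ + p` use `ε^c₀ = ε^c (ε⁻¹)^p`; `t = 1`;
* `h₂`: the same for `u'` from `uPrime_eigen`; `h₂'`: `uPrime_not_torsion_mul_pow`.
Translate between equalities in `K`, in `𝓞 K` and in `(𝓞 K)ˣ` with `Units.ext`,
`RingOfIntegers.ext`, `coe_galU`.  The conclusion of `lemmaX_mul` is the claim.
-/

set_option autoImplicit false

namespace Fermat.Agent.S14.Thaine.UnitsAlt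

open NumberField Fermat.Agent.S14.Thaine.Units

namespace Step3

/-- `p ∤ sqExp σ`: it is the `val` of the square of a unit of `ZMod p`. -/
theorem not_dvd_sqExp (p : ℕ) [Fact p.Prime] (K : Type*) [Field K] [NumberField K]
    [IsCyclotomicExtension {p} ℚ K] (σ : K ≃ₐ[ℚ] K) : ¬ p ∣ sqExp p K σ := by
  intro hdvd
  have hlt : sqExp p K σ < p := ZMod.val_lt _
  have h0 : sqExp p K σ = 0 := Nat.eq_zero_of_dvd_of_lt hdvd hlt
  unfold sqExp at h0
  rw [ZMod.val_eq_zero] at h0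
  unfold chi at h0
  exact pow_ne_zero 2 (Units.ne_zero _) h0

/-- Changing the exponent `c₀` to `c ∈ {c₀, c₀ + p}` in an eigen-relation modulo `p`-th powers. -/
theorem eigen_lift {E : Type*} [CommGroup E] (tors : Subgroup E) (f : E →* E) (p c₀ c : ℕ)
    (hc : c = c₀ ∨ c = c₀ + p) (e w : E) (h : f e = e ^ c₀ * w ^ p) :
    ∃ w' t : E, t ∈ tors ∧ f e = e ^ c * w' ^ p * t := by
  rcases hc with rfl | rfl
  · exact ⟨w, 1, tors.one_mem, by rw [h, mul_one]⟩
  · refine ⟨e⁻¹ * w, 1, tors.one_mem, ?_⟩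
    rw [h, mul_one, pow_add, mul_pow, inv_pow, mul_assoc, mul_inv_cancel_left]

/-- An eigen-relation in `K` gives the same relation in the unit group. -/
theorem galU_eq_of_coe {K : Type*} [Field K] [NumberField K] (σ : K ≃ₐ[ℚ] K) (e w : (𝓞 K)ˣ)
    (n p : ℕ)
    (h : σ ((e : 𝓞 K) : K) = ((e : 𝓞 K) : K) ^ n * ((w : 𝓞 K) : K) ^ p) :
    galU K σ e = e ^ n * w ^ p := by
  apply Units.ext
  apply RingOfIntegers.ext
  rw [coe_galU, h]
  simp only [Units.val_mul, Units.val_pow_eq_pow_val, RingOfIntegers.coe_eq_algebraMap, map_mul,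
    map_pow]

/-- The iterates of the monoid homomorphism `galU K γ` are the `galU K (γ ^ i)`. -/
theorem iterate_galU {K : Type*} [Field K] [NumberField K] (γ : K ≃ₐ[ℚ] K) (i : ℕ)
    (e : (𝓞 K)ˣ) : (⇑(galU K γ).toMonoidHom)^[i] e = galU K (γ ^ i) e := by
  rw [galU_pow_apply]
  rfl

/-- `e ^ n ∈ torsion` with `0 < n` implies `e ∈ torsion`. -/
theorem mem_torsion_of_pow {K : Type*} [Field K] [NumberField K] (e : (𝓞 K)ˣ) (n : ℕ)
    (hn : 0 < n) (h : e ^ n ∈ NumberField.Units.torsion K) : e ∈ NumberField.Units.torsion K := by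
  have h' : IsOfFinOrder (e ^ n) := (CommGroup.mem_torsion _).mp h
  exact (CommGroup.mem_torsion _).mpr (h'.of_pow hn.ne')

/-- A group homomorphism preserves the torsion subgroup. -/
theorem map_mem_torsion {K : Type*} [Field K] [NumberField K] (f : (𝓞 K)ˣ →* (𝓞 K)ˣ)
    (t : (𝓞 K)ˣ) (ht : t ∈ NumberField.Units.torsion K) : f t ∈ NumberField.Units.torsion K := by
  have h' : IsOfFinOrder t := (CommGroup.mem_torsion _).mp ht
  exact (CommGroup.mem_torsion _).mpr (f.isOfFinOrder h')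

/-- The main statement, for a given generator `γ` of the Galois group (only the eigen-relation
for `γ` is needed). -/
theorem exists_decomp_of_generator (p : ℕ) [Fact p.Prime] (K : Type*) [Field K] [NumberField K]
    [IsCyclotomicExtension {p} ℚ K] (hp5 : 5 ≤ p) (γ : K ≃ₐ[ℚ] K)
    (hγ : ∀ σ : K ≃ₐ[ℚ] K, σ ∈ Subgroup.zpowers γ) (ε : (𝓞 K)ˣ)
    (heig : ∃ w : (𝓞 K)ˣ,
      γ ((ε : 𝓞 K) : K) = ((ε : 𝓞 K) : K) ^ sqExp p K γ * ((w : 𝓞 K) : K) ^ p) :
    ∃ (k : ℕ) (w t : (𝓞 K)ˣ), t ∈ NumberField.Units.torsion K ∧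
      (ε : 𝓞 K) = uPrime p K ^ k * (w : 𝓞 K) ^ p * (t : 𝓞 K) := by
  have hp : p.Prime := Fact.out
  have hp3 : 3 ≤ p := by omega
  have hm2 : 2 ≤ (p - 1) / 2 := by omega
  have hm0 : 0 < (p - 1) / 2 := by omega
  have hmp : (p - 1) / 2 < p := by omega
  -- the eigenvalue lift `c ∈ {c₀, c₀ + p}`, `c₀ = sqExp p K γ`
  obtain ⟨c, hc, hcS⟩ := exists_lift_not_sq_dvd p hp ((p - 1) / 2) hm0 hmp (sqExp p K γ)
    (not_dvd_sqExp p K γ)
  -- the Minkowski unit
  obtain ⟨u₀, hu₀⟩ := exists_minkowski_unit p K hp5 γ hγ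
  -- the unit `u'`
  have hu'coe : (((isUnit_uPrime p K).unit : (𝓞 K)ˣ) : 𝓞 K) = uPrime p K := IsUnit.unit_spec _
  -- the hypotheses of `lemmaX_mul`
  have hN : ∀ e : (𝓞 K)ˣ, ∏ i ∈ Finset.range ((p - 1) / 2), (⇑(galU K γ).toMonoidHom)^[i] e ∈
      NumberField.Units.torsion K := by
    intro e
    have h := norm_mem_torsion p K hp3 γ hγ e
    rw [Finset.prod_congr rfl (fun i _ => iterate_galU γ i e)]
    exact h
  have hset : {e : (𝓞 K)ˣ | ∃ i : ℕ, i < (p - 1) / 2 - 1 ∧ e = (⇑(galU K γ).toMonoidHom)^[i] u₀} =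
      {e : (𝓞 K)ˣ | ∃ i : ℕ, i < (p - 1) / 2 - 1 ∧ e = galU K (γ ^ i) u₀} := by
    simp only [iterate_galU]
  have hv : (Subgroup.closure
      {e : (𝓞 K)ˣ | ∃ i : ℕ, i < (p - 1) / 2 - 1 ∧ e = (⇑(galU K γ).toMonoidHom)^[i] u₀} ⊔
        NumberField.Units.torsion K).FiniteIndex := by
    rw [hset]
    exact Subgroup.finiteIndex_of_le le_sup_left
  have h₁ : ∃ w t : (𝓞 K)ˣ, t ∈ NumberField.Units.torsion K ∧
      (galU K γ).toMonoidHom ε = ε ^ c * w ^ p * t := by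
    obtain ⟨w, hw⟩ := heig
    exact eigen_lift _ _ p (sqExp p K γ) c hc ε w (galU_eq_of_coe γ ε w _ p hw)
  have h₂ : ∃ w t : (𝓞 K)ˣ, t ∈ NumberField.Units.torsion K ∧
      (galU K γ).toMonoidHom (isUnit_uPrime p K).unit =
        (isUnit_uPrime p K).unit ^ c * w ^ p * t := by
    obtain ⟨w, hw⟩ := uPrime_eigen p K hp5 γ
    refine eigen_lift _ _ p (sqExp p K γ) c hc _ w (galU_eq_of_coe γ _ w _ p ?_)
    rw [hu'coe]
    exact hw
  have h₂' : ¬ ∃ w t : (𝓞 K)ˣ, t ∈ NumberField.Units.torsion K ∧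
      (isUnit_uPrime p K).unit = w ^ p * t := by
    rintro ⟨w, t, ht, h⟩
    apply uPrime_not_torsion_mul_pow p K hp5
    refine ⟨w, t, ht, ?_⟩
    rw [← hu'coe, h, Units.val_mul, Units.val_pow_eq_pow_val]
  obtain ⟨k, w, t, ht, h⟩ := lemmaX_mul (NumberField.Units.torsion K) mem_torsion_of_pow
    (galU K γ).toMonoidHom (map_mem_torsion _) p hp ((p - 1) / 2) hm2 c hN u₀ hv hcS ε
    (isUnit_uPrime p K).unit h₁ h₂ h₂'
  refine ⟨k, w, t, ht, ?_⟩
  rw [h, Units.val_mul, Units.val_mul, Units.val_pow_eq_pow_val, Units.val_pow_eq_pow_val, hu'coe]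

end Step3

variable (p : ℕ) [Fact p.Prime] (K : Type*) [Field K] [NumberField K]
  [IsCyclotomicExtension {p} ℚ K]

/-- Every unit in the `ω²`-eigenspace modulo `p`-th powers is `u'^k w^p t` with `t` a root of
unity. -/
theorem exists_decomp (hp5 : 5 ≤ p) (ε : (𝓞 K)ˣ)
    (heig : ∀ σ : K ≃ₐ[ℚ] K, ∃ w : (𝓞 K)ˣ,
      σ ((ε : 𝓞 K) : K) = ((ε : 𝓞 K) : K) ^ sqExp p K σ * ((w : 𝓞 K) : K) ^ p) :
    ∃ (k : ℕ) (w t : (𝓞 K)ˣ), t ∈ NumberField.Units.torsion K ∧
      (ε : 𝓞 K) = uPrime p K ^ k * (w : 𝓞 K) ^ p * (t : 𝓞 K) := by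
  obtain ⟨γ, hγ⟩ := exists_gal_generator p K
  exact Step3.exists_decomp_of_generator p K hp5 γ hγ ε (heig γ)

end Fermat.Agent.S14.Thaine.UnitsAlt
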