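import Fermat.Agent.S14.Thaine.Units.UPrime
import Fermat.Agent.S14.Thaine.Units.Torsion

/-!
# Route T, block `Units` — HEDGE copy `UnitsAlt/StepAB` (sub-architect helper20; one worker)

The final local computation of `unit_step`.
The statements are IDENTICAL to the ones of the same name in `Thaine/Units/*.lean` (owner
helper276) and FROZEN; only the namespace differs (`UnitsAlt`).  Replace each placeholder by a
proof; auxiliary declarations must be `private` or live in the sub-namespace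
`Fermat.Agent.S14.Thaine.UnitsAlt.StepAB`.

Notation: `ζ = zetaInt p K = (IsCyclotomicExtension.zeta_spec p ℚ K).toInteger`,
`π = piInt p K = 1 - ζ` (so `π = -(ζ - 1)`; Mathlib states its lemmas for `hζ.toInteger - 1`).

Plan.  Black boxes from `Thaine/Units/{Rep,RepZeta,UPrime,Torsion}.lean` (namespace `Units`).
`t = s^p ζ^i` (`torsion_eq_pow_mul_zeta`, `3 ≤ p`), so `ε = u'^k (w s)^p ζ^i`.  Invariants:
`AB ε 0 0` (`AB_of_int`, `ε` is a unit), `AB u' 0 (-1/24)` (`AB_uPrime`), `AB ((w s)^p) 0 0`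
(`AB_pow_p`, units are not divisible by `π`), `AB (ζ^i) (-i) (-i/2)` (`AB_zeta_pow`); by `AB_pow`,
`AB_mul`, `AB_unique`: `0 = k * 0 + 0 + (-i)` and `0 = k * (-1/24) + 0 + (-i/2)` in `ZMod p`, so
`(i : ZMod p) = 0` and `(k : ZMod p) = 0` (`(24 : ZMod p) ≠ 0`).  Hence `p ∣ i`, `ζ^i = 1`
(`ζ^p = 1`: `(IsCyclotomicExtension.zeta_spec p ℚ K).toInteger_isPrimitiveRoot.pow_eq_one`), and
`k = p k'`: `ε = (u'^k' * w * s)^p`; take `w' :=` the unit `(isUnit_uPrime).unit ^ k' * w * s`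
and prove the equality of units via `Units.ext` (`Units.val_pow_eq_pow_val`, `Units.val_mul`).
-/

set_option autoImplicit false

namespace Fermat.Agent.S14.Thaine.UnitsAlt

open NumberField Fermat.Agent.S14.Thaine.Units

variable (p : ℕ) [Fact p.Prime] (K : Type*) [Field K] [NumberField K]
  [IsCyclotomicExtension {p} ℚ K]

namespace StepAB

/-- `24` is invertible modulo a prime `p ≥ 5`. -/
theorem twentyfour_ne_zero (q : ℕ) (hq : q.Prime) (hq5 : 5 ≤ q) : (24 : ZMod q) ≠ 0 := by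
  intro h24
  have hdvd : q ∣ 24 := (ZMod.natCast_eq_zero_iff 24 q).mp (by exact_mod_cast h24)
  have h2 : q ∣ 2 ^ 3 * 3 := by
    norm_num
    exact hdvd
  rcases (Nat.Prime.dvd_mul hq).mp h2 with h | h
  · have h' := (Nat.prime_dvd_prime_iff_eq hq Nat.prime_two).mp (hq.dvd_of_dvd_pow h)
    omega
  · have h' := (Nat.prime_dvd_prime_iff_eq hq Nat.prime_three).mp h
    omega

/-- The linear algebra in `ZMod p`: from the two invariant equations, `i = 0` and `k = 0`. -/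
theorem zmod_solve (q : ℕ) [Fact q.Prime] (hq5 : 5 ≤ q) (k i : ZMod q)
    (ha : (0 : ZMod q) = k * 0 + 0 + -i)
    (hb : (0 : ZMod q) = k * (-1 / 24) + 0 + -i / 2) : i = 0 ∧ k = 0 := by
  have hi : i = 0 := by
    have h1 : (0 : ZMod q) = -i := by simpa using ha
    exact neg_eq_zero.mp h1.symm
  refine ⟨hi, ?_⟩
  rw [hi] at hb
  have hb' : k * (-1 / 24) = 0 := by simpa using hb.symm
  rcases mul_eq_zero.mp hb' with h | h
  · exact h
  · exfalso
    rcases div_eq_zero_iff.mp h with h | h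
    · exact one_ne_zero (neg_eq_zero.mp h)
    · exact twentyfour_ne_zero q Fact.out hq5 h

end StepAB

/-- If `ε = u'^k w^p t` (`t` a root of unity) and `ε ≡ n (mod π³)`, then `ε` is a `p`-th power. -/
theorem pow_of_decomp (hp5 : 5 ≤ p) (ε : (𝓞 K)ˣ) (n : ℤ)
    (hloc : (ε : 𝓞 K) - (n : 𝓞 K) ∈ Ideal.span {piInt p K ^ 3})
    (k : ℕ) (w t : (𝓞 K)ˣ) (ht : t ∈ NumberField.Units.torsion K)
    (h : (ε : 𝓞 K) = uPrime p K ^ k * (w : 𝓞 K) ^ p * (t : 𝓞 K)) :
    ∃ w' : (𝓞 K)ˣ, ε = w' ^ p := by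
  obtain ⟨s, i, hst⟩ :=
    Fermat.Agent.S14.Thaine.Units.torsion_eq_pow_mul_zeta p K (by omega) t ht
  -- `ε = u'^k (w s)^p ζ^i`
  have hε : (ε : 𝓞 K) =
      uPrime p K ^ k * ((w : 𝓞 K) * (s : 𝓞 K)) ^ p * zetaInt p K ^ i := by
    rw [h, hst]
    ring
  -- the invariants of the factors
  have h1 : AB p K (ε : 𝓞 K) 0 0 :=
    Fermat.Agent.S14.Thaine.Units.AB_of_int p K hp5 ε.isUnit n hloc
  have h2 : AB p K (uPrime p K ^ k) ((k : ZMod p) * 0) ((k : ZMod p) * (-1 / 24)) :=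
    Fermat.Agent.S14.Thaine.Units.AB_pow p K hp5
      (Fermat.Agent.S14.Thaine.Units.AB_uPrime p K hp5) k
  have hws : IsUnit ((w : 𝓞 K) * (s : 𝓞 K)) := w.isUnit.mul s.isUnit
  have h3 : AB p K (((w : 𝓞 K) * (s : 𝓞 K)) ^ p) 0 0 :=
    Fermat.Agent.S14.Thaine.Units.AB_pow_p p K hp5 _
      (Fermat.Agent.S14.Thaine.Units.piInt_not_dvd_of_isUnit p K hws)
  have h4 : AB p K (zetaInt p K ^ i) (-(i : ZMod p)) (-(i : ZMod p) / 2) :=
    Fermat.Agent.S14.Thaine.Units.AB_zeta_pow p K hp5 i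
  have h5 := Fermat.Agent.S14.Thaine.Units.AB_mul p K hp5
    (Fermat.Agent.S14.Thaine.Units.AB_mul p K hp5 h2 h3) h4
  rw [← hε] at h5
  obtain ⟨ha, hb⟩ := Fermat.Agent.S14.Thaine.Units.AB_unique p K hp5 h1 h5
  obtain ⟨hi, hk⟩ := StepAB.zmod_solve p hp5 (k : ZMod p) (i : ZMod p) ha hb
  obtain ⟨i', rfl⟩ := (ZMod.natCast_eq_zero_iff i p).mp hi
  obtain ⟨k', rfl⟩ := (ZMod.natCast_eq_zero_iff k p).mp hk
  have hζp : zetaInt p K ^ p = 1 :=
    (IsCyclotomicExtension.zeta_spec p ℚ K).toInteger_isPrimitiveRoot.pow_eq_one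
  have hζi : zetaInt p K ^ (p * i') = 1 := by rw [pow_mul, hζp, one_pow]
  refine ⟨(Fermat.Agent.S14.Thaine.Units.isUnit_uPrime p K).unit ^ k' * w * s, ?_⟩
  apply _root_.Units.ext
  rw [hε, hζi, mul_one, _root_.Units.val_pow_eq_pow_val, _root_.Units.val_mul,
    _root_.Units.val_mul, _root_.Units.val_pow_eq_pow_val, IsUnit.unit_spec]
  ring

end Fermat.Agent.S14.Thaine.UnitsAlt
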