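import Fermat.Agent.S14.Thaine.Units.Step

/-!
# Route T, block `Units`: independent proof of the glue lemma `exists_decomp` (helper14)

Same statement as `Units.exists_decomp` in `Thaine/Units/Step.lean`.  The proof uses only
`exists_gal_generator`, `exists_minkowski_unit`, `norm_mem_torsion`, `exists_lift_not_sq_dvd`,
`uPrime_eigen`, `isUnit_uPrime`, `uPrime_not_torsion_mul_pow` and `lemmaX_mul`, so it can be pasted
verbatim as the body of `Units.exists_decomp`.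
-/

set_option autoImplicit false

namespace Fermat.Agent.S14.Thaine.UnitsAlt

open NumberField Fermat.Agent.S14.Thaine.Units

variable (p : ℕ) [Fact p.Prime] (K : Type*) [Field K] [NumberField K]
  [IsCyclotomicExtension {p} ℚ K]

/-- Every unit in the `ω²`-eigenspace modulo `p`-th powers is `u'^k w^p t` with `t` a root of
unity. -/
theorem exists_decomp (hp5 : 5 ≤ p) (ε : (𝓞 K)ˣ)
    (heig : ∀ σ : K ≃ₐ[ℚ] K, ∃ w : (𝓞 K)ˣ,
      σ ((ε : 𝓞 K) : K) = ((ε : 𝓞 K) : K) ^ sqExp p K σ * ((w : 𝓞 K) : K) ^ p) :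
    ∃ (k : ℕ) (w t : (𝓞 K)ˣ), t ∈ NumberField.Units.torsion K ∧
      (ε : 𝓞 K) = uPrime p K ^ k * (w : 𝓞 K) ^ p * (t : 𝓞 K) := by
  classical
  have hpP : p.Prime := Fact.out
  obtain ⟨γ, hγ⟩ := exists_gal_generator p K
  obtain ⟨u₀, hu₀⟩ := exists_minkowski_unit p K hp5 γ hγ
  have hm2 : 2 ≤ (p - 1) / 2 := by omega
  have hmp : (p - 1) / 2 < p := by omega
  -- the endomorphism `f = γ` of the unit group
  have hfi : ∀ (i : ℕ) (e : (𝓞 K)ˣ),
      (⇑(galU K γ).toMonoidHom)^[i] e = galU K (γ ^ i) e :=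
    fun i e => (galU_pow_apply K γ i e).symm
  -- the exponent
  have hc₀p : ¬ p ∣ sqExp p K γ := by
    intro hdvd
    have h0 : ((chi p K γ) ^ 2).val = 0 := Nat.eq_zero_of_dvd_of_lt hdvd (ZMod.val_lt _)
    have h1 : (chi p K γ) ^ 2 = 0 := (ZMod.val_eq_zero _).mp h0
    have h2 : chi p K γ = 0 := by simpa using h1
    exact (Units.ne_zero (IsCyclotomicExtension.Rat.galEquivZMod p K γ)) h2
  obtain ⟨c, hc, hcsq⟩ :=
    exists_lift_not_sq_dvd p hpP ((p - 1) / 2) (by omega) hmp (sqExp p K γ) hc₀p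
  -- the eigen-property with exponent `c`
  have key : ∀ e : (𝓞 K)ˣ,
      (∃ w : (𝓞 K)ˣ, γ ((e : 𝓞 K) : K) = ((e : 𝓞 K) : K) ^ sqExp p K γ * ((w : 𝓞 K) : K) ^ p) →
      ∃ w t : (𝓞 K)ˣ, t ∈ NumberField.Units.torsion K ∧
        (galU K γ).toMonoidHom e = e ^ c * w ^ p * t := by
    rintro e ⟨w, hw⟩
    have h1 : (galU K γ).toMonoidHom e = e ^ sqExp p K γ * w ^ p := by
      apply Units.ext
      apply RingOfIntegers.ext
      have h2 : ((((galU K γ).toMonoidHom e : (𝓞 K)ˣ) : 𝓞 K) : K) = γ ((e : 𝓞 K) : K) :=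
        coe_galU K γ e
      rw [h2, hw]
      push_cast
      rfl
    rcases hc with rfl | rfl
    · exact ⟨w, 1, one_mem _, by rw [h1, mul_one]⟩
    · refine ⟨w * e⁻¹, 1, one_mem _, ?_⟩
      rw [h1, mul_one, pow_add, mul_pow, inv_pow]
      rw [mul_assoc, mul_comm (w ^ p) ((e ^ p)⁻¹), ← mul_assoc (e ^ p), mul_inv_cancel, one_mul]
  -- hypotheses of the algebra lemma
  have htors : ∀ (e : (𝓞 K)ˣ) (n : ℕ), 0 < n → e ^ n ∈ NumberField.Units.torsion K →
      e ∈ NumberField.Units.torsion K := by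
    intro e n hn he
    exact (CommGroup.mem_torsion _).mpr
      (IsOfFinOrder.of_pow ((CommGroup.mem_torsion _).mp he) hn.ne')
  have hf : ∀ t ∈ NumberField.Units.torsion K,
      (galU K γ).toMonoidHom t ∈ NumberField.Units.torsion K := by
    intro t ht
    exact (CommGroup.mem_torsion _).mpr
      (MonoidHom.isOfFinOrder _ ((CommGroup.mem_torsion _).mp ht))
  have hN : ∀ e : (𝓞 K)ˣ, ∏ i ∈ Finset.range ((p - 1) / 2),
      (⇑(galU K γ).toMonoidHom)^[i] e ∈ NumberField.Units.torsion K := by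
    intro e
    simp_rw [hfi]
    exact norm_mem_torsion p K (by omega) γ hγ e
  have hv : (Subgroup.closure {e : (𝓞 K)ˣ | ∃ i : ℕ, i < (p - 1) / 2 - 1 ∧
      e = (⇑(galU K γ).toMonoidHom)^[i] u₀} ⊔ NumberField.Units.torsion K).FiniteIndex := by
    have hset : {e : (𝓞 K)ˣ | ∃ i : ℕ, i < (p - 1) / 2 - 1 ∧
        e = (⇑(galU K γ).toMonoidHom)^[i] u₀} =
        {e : (𝓞 K)ˣ | ∃ i : ℕ, i < (p - 1) / 2 - 1 ∧ e = galU K (γ ^ i) u₀} := by
      ext e
      simp only [Set.mem_ofPred_eq, hfi]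
    rw [hset]
    have := hu₀
    exact Subgroup.finiteIndex_of_le le_sup_left
  -- the two eigen-units
  have hu' : (((isUnit_uPrime p K).unit : (𝓞 K)ˣ) : 𝓞 K) = uPrime p K := IsUnit.unit_spec _
  have h₁ := key ε (heig γ)
  have h₂ := key (isUnit_uPrime p K).unit (by rw [hu']; exact uPrime_eigen p K hp5 γ)
  have h₂' : ¬ ∃ w t : (𝓞 K)ˣ, t ∈ NumberField.Units.torsion K ∧
      (isUnit_uPrime p K).unit = w ^ p * t := by
    rintro ⟨w, t, ht, h⟩
    apply uPrime_not_torsion_mul_pow p K hp5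
    refine ⟨w, t, ht, ?_⟩
    have h3 := congrArg (fun x : (𝓞 K)ˣ => (x : 𝓞 K)) h
    simpa [hu'] using h3
  obtain ⟨k, w, t, ht, h⟩ := lemmaX_mul (NumberField.Units.torsion K) htors
    (galU K γ).toMonoidHom hf p hpP ((p - 1) / 2) hm2 c hN u₀ hv hcsq ε
    (isUnit_uPrime p K).unit h₁ h₂ h₂'
  refine ⟨k, w, t, ht, ?_⟩
  have h3 := congrArg (fun x : (𝓞 K)ˣ => (x : 𝓞 K)) h
  simpa [hu'] using h3

end Fermat.Agent.S14.Thaine.UnitsAlt
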