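import Fermat.Agent.S14.Thaine.Units.Defs

/-!
# UnitsAlt / Three (hedge of `Thaine/Units/Three.lean`; owner helper10)

Same statement as `Units.unit_step_three`.  FROZEN.
-/

set_option autoImplicit false

namespace Fermat.Agent.S14.Thaine.UnitsAlt

open NumberField

/-- Every unit of `𝓞 K` (`K = ℚ(ζ₃)`) is `± y` with `y ^ 3 = 1`. -/
private theorem three_unit_form (K : Type*) [Field K] [NumberField K]
    [IsCyclotomicExtension {3} ℚ K] (u : (𝓞 K)ˣ) :
    ∃ y : (𝓞 K)ˣ, y ^ 3 = 1 ∧ (u = y ∨ u = -y) := by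
  have hζ := IsCyclotomicExtension.zeta_spec 3 ℚ K
  have hmem := IsCyclotomicExtension.Rat.Three.Units.mem hζ u
  set η : (𝓞 K)ˣ := (IsPrimitiveRoot.isUnit (hζ.toInteger_isPrimitiveRoot) (by decide)).unit
    with hη
  have hη3 : η ^ 3 = 1 := by
    apply Units.ext
    rw [Units.val_pow_eq_pow_val, Units.val_one]
    exact hζ.toInteger_isPrimitiveRoot.pow_eq_one
  have hη6 : (η ^ 2) ^ 3 = 1 := by
    rw [← pow_mul, show 2 * 3 = 3 * 2 from rfl, pow_mul, hη3, one_pow]
  simp only [List.mem_cons, List.not_mem_nil, or_false] at hmem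
  rcases hmem with h | h | h | h | h | h
  · exact ⟨1, one_pow _, Or.inl h⟩
  · exact ⟨1, one_pow _, Or.inr h⟩
  · exact ⟨η, hη3, Or.inl h⟩
  · exact ⟨η, hη3, Or.inr h⟩
  · exact ⟨η ^ 2, hη6, Or.inl h⟩
  · exact ⟨η ^ 2, hη6, Or.inr h⟩

private theorem three_sqExp (K : Type*) [Field K] [NumberField K]
    [IsCyclotomicExtension {3} ℚ K] (σ : K ≃ₐ[ℚ] K) : sqExp 3 K σ = 1 := by
  have h : ∀ u : (ZMod 3)ˣ, (((u : ZMod 3)) ^ 2).val = 1 := by decide
  exact h _

theorem unit_step_three {p : ℕ} [Fact p.Prime] (hp : p = 3)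
    (K : Type*) [Field K] [NumberField K] [IsCyclotomicExtension {p} ℚ K]
    (ε : (𝓞 K)ˣ)
    (heig : ∀ σ : K ≃ₐ[ℚ] K, ∃ w : (𝓞 K)ˣ,
      σ ((ε : 𝓞 K) : K) = ((ε : 𝓞 K) : K) ^ sqExp p K σ * ((w : 𝓞 K) : K) ^ p) :
    ∃ w : (𝓞 K)ˣ, ε = w ^ p := by
  subst hp
  -- complex conjugation
  set σ : K ≃ₐ[ℚ] K := (IsCyclotomicExtension.Rat.galEquivZMod 3 K).symm (-1) with hσ
  have hσx : ∀ x : K, x ^ 3 = 1 → σ x = x ^ 2 := by
    intro x hx
    rw [IsCyclotomicExtension.Rat.galEquivZMod_apply_of_pow_eq 3 K σ hx, hσ,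
      MulEquiv.apply_symm_apply]
    rfl
  obtain ⟨w, hw⟩ := heig σ
  rw [three_sqExp K σ, pow_one] at hw
  obtain ⟨y, hy3, hy⟩ := three_unit_form K ε
  obtain ⟨z, hz3, hz⟩ := three_unit_form K w
  have hY3 : (((y : 𝓞 K) : K)) ^ 3 = 1 := by
    have := congrArg (fun u : (𝓞 K)ˣ => ((u : 𝓞 K) : K)) hy3
    simpa using this
  have hZ3 : (((z : 𝓞 K) : K)) ^ 3 = 1 := by
    have := congrArg (fun u : (𝓞 K)ˣ => ((u : 𝓞 K) : K)) hz3
    simpa using this
  have hY0 : (((y : 𝓞 K) : K)) ≠ 0 := by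
    intro h
    rw [h] at hY3
    norm_num at hY3
  have hW : (((w : 𝓞 K) : K)) ^ 3 = 1 ∨ (((w : 𝓞 K) : K)) ^ 3 = -1 := by
    rcases hz with h | h
    · left; rw [h]; exact hZ3
    · right
      have hneg : (((-z : (𝓞 K)ˣ) : 𝓞 K) : K) = -((z : 𝓞 K) : K) := by simp
      rw [h, hneg, Odd.neg_pow (by decide), hZ3]
  have hσY := hσx _ hY3
  have h2 : (2 : K) ≠ 0 := two_ne_zero
  -- key: `y = 1`
  have hY1 : (((y : 𝓞 K) : K)) = 1 := by
    have hε : (((ε : 𝓞 K) : K)) = ((y : 𝓞 K) : K) ∨ (((ε : 𝓞 K) : K)) = -((y : 𝓞 K) : K) := by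
      rcases hy with h | h
      · left; rw [h]
      · right; rw [h]; simp
    set Y : K := ((y : 𝓞 K) : K) with hYdef
    have hneg : Y ≠ -1 := by
      intro h
      rw [h] at hY3
      apply h2
      linear_combination -hY3
    rcases hε with he | he <;> rcases hW with hW | hW
    · rw [he, hσY, hW] at hw
      have : Y * (Y - 1) = 0 := by linear_combination hw
      rcases mul_eq_zero.1 this with h | h
      · exact absurd h hY0
      · linear_combination h
    · rw [he, hσY, hW] at hw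
      have : Y * (Y + 1) = 0 := by linear_combination hw
      rcases mul_eq_zero.1 this with h | h
      · exact absurd h hY0
      · exact absurd (by linear_combination h) hneg
    · rw [he, map_neg, hσY, hW] at hw
      have : Y * (Y - 1) = 0 := by linear_combination -hw
      rcases mul_eq_zero.1 this with h | h
      · exact absurd h hY0
      · linear_combination h
    · rw [he, map_neg, hσY, hW] at hw
      have : Y * (Y + 1) = 0 := by linear_combination -hw
      rcases mul_eq_zero.1 this with h | h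
      · exact absurd h hY0
      · exact absurd (by linear_combination h) hneg
  have hy1 : y = 1 := by
    apply Units.ext
    apply RingOfIntegers.ext
    simpa using hY1
  rw [hy1] at hy
  rcases hy with h | h
  · exact ⟨1, by rw [h, one_pow]⟩
  · refine ⟨-1, ?_⟩
    rw [h]
    rw [Odd.neg_pow (by decide), one_pow]

end Fermat.Agent.S14.Thaine.UnitsAlt
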