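import Fermat.Agent.S14.Thaine.Units.Defs

/-!
# UnitsAlt / Torsion (hedge of `Thaine/Units/Torsion.lean`; owner helper10)

Same statement as `Units.torsion_eq_pow_mul_zeta`.  FROZEN.
-/

set_option autoImplicit false

namespace Fermat.Agent.S14.Thaine.UnitsAlt

open NumberField

variable (p : ℕ) [Fact p.Prime] (K : Type*) [Field K] [NumberField K]
  [IsCyclotomicExtension {p} ℚ K]

theorem torsion_eq_pow_mul_zeta (hp3 : 3 ≤ p) (t : (𝓞 K)ˣ) (ht : t ∈ NumberField.Units.torsion K) :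
    ∃ (s : (𝓞 K)ˣ) (i : ℕ), (t : 𝓞 K) = (s : 𝓞 K) ^ p * zetaInt p K ^ i := by
  have hpp : p.Prime := Fact.out
  have hodd : Odd p := hpp.odd_of_ne_two (by omega)
  have hfin : IsOfFinOrder t := (CommGroup.mem_torsion _).1 ht
  obtain ⟨k, hkpos, hk⟩ := isOfFinOrder_iff_pow_eq_one.1 hfin
  have hK : IsOfFinOrder (((t : 𝓞 K) : 𝓞 K) : K) := by
    refine isOfFinOrder_iff_pow_eq_one.2 ⟨k, hkpos, ?_⟩
    have h1 : ((t : 𝓞 K)) ^ k = 1 := by
      rw [← Units.val_pow_eq_pow_val, hk, Units.val_one]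
    have h2 := congrArg (fun x : 𝓞 K => (x : K)) h1
    simpa using h2
  obtain ⟨r, hr⟩ :=
    (IsCyclotomicExtension.zeta_spec p ℚ K).exists_neg_pow_of_isOfFinOrder hodd hK
  refine ⟨(-1) ^ r, r, ?_⟩
  apply RingOfIntegers.ext
  have hz : ((zetaInt p K : 𝓞 K) : K) = IsCyclotomicExtension.zeta p ℚ K := rfl
  have hs : (((-1 : (𝓞 K)ˣ) ^ r : (𝓞 K)ˣ) : 𝓞 K) ^ p = (-1 : 𝓞 K) ^ r := by
    rw [Units.val_pow_eq_pow_val, Units.val_neg, Units.val_one, ← pow_mul, mul_comm, pow_mul,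
      hodd.neg_one_pow]
  rw [hs, hr]
  simp only [map_mul, map_pow, map_neg, map_one, hz]
  rw [neg_pow]
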