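import Fermat.Agent.S14.Thaine.Units.LemmaX

/-!
# UnitsAlt / Transfer (hedge of `Thaine/Units/Transfer.lean`; owner helper10)

Same statement as `Units.lemmaX_mul`.  FROZEN.
-/

set_option autoImplicit false

namespace Fermat.Agent.S14.Thaine.UnitsAlt

/-- Multiplicative version of `Units.lemmaX`. -/
private theorem lemmaX_mul_aux {G : Type*} [CommGroup G]
    (htf : ∀ (n : ℕ) (x : G), 0 < n → x ^ n = 1 → x = 1)
    (g : G →* G) (p : ℕ) (hp : p.Prime) (m : ℕ) (hm : 2 ≤ m) (c : ℕ)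
    (hN : ∀ x : G, ∏ i ∈ Finset.range m, (⇑g)^[i] x = 1)
    (v : G)
    (hv : (Subgroup.closure {x : G | ∃ i : ℕ, i < m - 1 ∧ x = (⇑g)^[i] v}).FiniteIndex)
    (hc : ¬ p ^ 2 ∣ ∑ i ∈ Finset.range m, c ^ i)
    (x₁ x₂ : G)
    (h₁ : ∃ y : G, g x₁ = x₁ ^ c * y ^ p)
    (h₂ : ∃ y : G, g x₂ = x₂ ^ c * y ^ p)
    (h₂' : ¬ ∃ y : G, x₂ = y ^ p) :
    ∃ (k : ℤ) (y : G), x₁ = x₂ ^ k * y ^ p := by
  have hiter : ∀ (i : ℕ) (x : Additive G),
      (⇑(MonoidHom.toAdditive g))^[i] x = Additive.ofMul ((⇑g)^[i] (Additive.toMul x)) := by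
    intro i
    induction i with
    | zero => intro x; rfl
    | succ n ih =>
      intro x
      rw [Function.iterate_succ_apply', Function.iterate_succ_apply', ih]
      rfl
  have key := Units.lemmaX (Λ := Additive G)
    (fun n x hn h => htf n x hn h) (MonoidHom.toAdditive g) p hp m hm c
    (by
      intro x
      have h := hN (Additive.toMul x)
      have h2 : ∑ i ∈ Finset.range m, (⇑(MonoidHom.toAdditive g))^[i] x
          = Additive.ofMul (∏ i ∈ Finset.range m, (⇑g)^[i] (Additive.toMul x)) := by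
        rw [ofMul_prod]
        exact Finset.sum_congr rfl (fun i _ => hiter i x)
      rw [h2, h]; rfl)
    (Additive.ofMul v)
    (by
      have h := (Subgroup.finiteIndex_toAddSubgroup_iff (H := Subgroup.closure
        {x : G | ∃ i : ℕ, i < m - 1 ∧ x = (⇑g)^[i] v})).mpr hv
      rw [Subgroup.toAddSubgroup_closure] at h
      have hS : {x : Additive G | ∃ i : ℕ, i < m - 1 ∧
          x = (⇑(MonoidHom.toAdditive g))^[i] (Additive.ofMul v)}
          = Additive.toMul ⁻¹' {x : G | ∃ i : ℕ, i < m - 1 ∧ x = (⇑g)^[i] v} := by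
        ext x
        constructor
        · rintro ⟨i, hi, hx⟩
          refine ⟨i, hi, ?_⟩
          rw [hx, hiter]; rfl
        · rintro ⟨i, hi, hx⟩
          refine ⟨i, hi, ?_⟩
          rw [hiter]
          exact congrArg Additive.ofMul hx
      rw [hS]
      exact h)
    hc (Additive.ofMul x₁) (Additive.ofMul x₂)
    (by obtain ⟨y, hy⟩ := h₁; exact ⟨Additive.ofMul y, hy⟩)
    (by obtain ⟨y, hy⟩ := h₂; exact ⟨Additive.ofMul y, hy⟩)
    (by rintro ⟨y, hy⟩; exact h₂' ⟨Additive.toMul y, hy⟩)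
  obtain ⟨k, y, hy⟩ := key
  exact ⟨k, Additive.toMul y, hy⟩

theorem lemmaX_mul {E : Type*} [CommGroup E] (tors : Subgroup E)
    (htors : ∀ (e : E) (n : ℕ), 0 < n → e ^ n ∈ tors → e ∈ tors)
    (f : E →* E) (hf : ∀ t ∈ tors, f t ∈ tors)
    (p : ℕ) (hp : p.Prime) (m : ℕ) (hm : 2 ≤ m) (c : ℕ)
    (hN : ∀ e : E, ∏ i ∈ Finset.range m, (⇑f)^[i] e ∈ tors)
    (v : E)
    (hv : (Subgroup.closure {e : E | ∃ i : ℕ, i < m - 1 ∧ e = (⇑f)^[i] v} ⊔ tors).FiniteIndex)
    (hc : ¬ p ^ 2 ∣ ∑ i ∈ Finset.range m, c ^ i)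
    (e₁ e₂ : E)
    (h₁ : ∃ w t : E, t ∈ tors ∧ f e₁ = e₁ ^ c * w ^ p * t)
    (h₂ : ∃ w t : E, t ∈ tors ∧ f e₂ = e₂ ^ c * w ^ p * t)
    (h₂' : ¬ ∃ w t : E, t ∈ tors ∧ e₂ = w ^ p * t) :
    ∃ (k : ℕ) (w t : E), t ∈ tors ∧ e₁ = e₂ ^ k * w ^ p * t := by
  classical
  have hmk_surj : Function.Surjective (QuotientGroup.mk' tors) := QuotientGroup.mk'_surjective tors
  have hmk_one : ∀ e : E, QuotientGroup.mk' tors e = 1 ↔ e ∈ tors :=
    fun e => QuotientGroup.eq_one_iff e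
  have hmk_eq : ∀ a b : E, QuotientGroup.mk' tors a = QuotientGroup.mk' tors b →
      ∃ t : E, t ∈ tors ∧ a = b * t := by
    intro a b hab
    refine ⟨b⁻¹ * a, ?_, by group⟩
    rw [← hmk_one, map_mul, map_inv, hab, inv_mul_cancel]
  have hf' : tors ≤ tors.comap f := fun t ht => hf t ht
  have hg : ∀ e, QuotientGroup.map tors tors f hf' (QuotientGroup.mk' tors e)
      = QuotientGroup.mk' tors (f e) := fun e => QuotientGroup.map_mk tors tors f hf' e
  have hgi : ∀ (i : ℕ) (e : E), (⇑(QuotientGroup.map tors tors f hf'))^[i]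
      (QuotientGroup.mk' tors e) = QuotientGroup.mk' tors ((⇑f)^[i] e) := by
    intro i
    induction i with
    | zero => intro e; rfl
    | succ n ih =>
      intro e
      rw [Function.iterate_succ_apply', Function.iterate_succ_apply', ih, hg]
  have key := lemmaX_mul_aux (G := E ⧸ tors)
    (by
      intro n x hn hx
      obtain ⟨e, rfl⟩ := hmk_surj x
      rw [← map_pow, hmk_one] at hx
      exact (hmk_one e).mpr (htors e n hn hx))
    (QuotientGroup.map tors tors f hf') p hp m hm c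
    (by
      intro x
      obtain ⟨e, rfl⟩ := hmk_surj x
      have h := (hmk_one _).mpr (hN e)
      rw [map_prod] at h
      rw [← h]
      exact Finset.prod_congr rfl (fun i _ => hgi i e))
    (QuotientGroup.mk' tors v)
    (by
      have hS : {x : E ⧸ tors | ∃ i : ℕ, i < m - 1 ∧
          x = (⇑(QuotientGroup.map tors tors f hf'))^[i] (QuotientGroup.mk' tors v)}
          = (QuotientGroup.mk' tors) '' {e : E | ∃ i : ℕ, i < m - 1 ∧ e = (⇑f)^[i] v} := by
        ext x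
        simp only [Set.mem_ofPred_eq, Set.mem_image]
        constructor
        · rintro ⟨i, hi, hx⟩
          exact ⟨(⇑f)^[i] v, ⟨i, hi, rfl⟩, by rw [hx, hgi]⟩
        · rintro ⟨e, ⟨i, hi, he⟩, rfl⟩
          exact ⟨i, hi, by rw [he, hgi]⟩
      rw [hS, ← MonoidHom.map_closure]
      have hmap : (Subgroup.closure {e : E | ∃ i : ℕ, i < m - 1 ∧ e = (⇑f)^[i] v}).map
          (QuotientGroup.mk' tors)
          = (Subgroup.closure {e : E | ∃ i : ℕ, i < m - 1 ∧ e = (⇑f)^[i] v} ⊔ tors).map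
          (QuotientGroup.mk' tors) := by
        rw [Subgroup.map_sup]
        have : tors.map (QuotientGroup.mk' tors) = ⊥ := by
          rw [eq_bot_iff]
          rintro x ⟨t, ht, rfl⟩
          exact (hmk_one t).mpr ht
        rw [this, sup_bot_eq]
      rw [hmap]
      refine ⟨fun h0 => hv.index_ne_zero ?_⟩
      have hdvd := Subgroup.index_map_dvd
        (Subgroup.closure {e : E | ∃ i : ℕ, i < m - 1 ∧ e = (⇑f)^[i] v} ⊔ tors) hmk_surj
      rw [h0] at hdvd
      exact Nat.eq_zero_of_zero_dvd hdvd)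
    hc (QuotientGroup.mk' tors e₁) (QuotientGroup.mk' tors e₂)
    (by
      obtain ⟨w, t, ht, h⟩ := h₁
      refine ⟨QuotientGroup.mk' tors w, ?_⟩
      rw [hg, h, map_mul, map_mul, map_pow, map_pow, (hmk_one t).mpr ht, mul_one])
    (by
      obtain ⟨w, t, ht, h⟩ := h₂
      refine ⟨QuotientGroup.mk' tors w, ?_⟩
      rw [hg, h, map_mul, map_mul, map_pow, map_pow, (hmk_one t).mpr ht, mul_one])
    (by
      rintro ⟨y, hy⟩
      obtain ⟨w, rfl⟩ := hmk_surj y
      rw [← map_pow] at hy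
      obtain ⟨t, ht, h⟩ := hmk_eq _ _ hy
      exact h₂' ⟨w, t, ht, h⟩)
  obtain ⟨k, y, hy⟩ := key
  obtain ⟨w, rfl⟩ := hmk_surj y
  have hp0 : (p : ℤ) ≠ 0 := by exact_mod_cast hp.ne_zero
  have hk0 : 0 ≤ k % (p : ℤ) := Int.emod_nonneg k hp0
  have hk : k = ((k % (p : ℤ)).toNat : ℤ) + (k / (p : ℤ)) * (p : ℤ) := by
    rw [Int.toNat_of_nonneg hk0]
    exact (Int.emod_add_ediv_mul k p).symm
  have hE : QuotientGroup.mk' tors e₁
      = QuotientGroup.mk' tors (e₂ ^ (k % (p : ℤ)).toNat * (e₂ ^ (k / (p : ℤ)) * w) ^ p) := by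
    rw [hy, map_mul, map_pow, map_pow, map_mul, map_zpow, mul_pow, ← mul_assoc]
    congr 1
    conv_lhs => rw [hk]
    rw [zpow_add, zpow_natCast, zpow_mul, zpow_natCast]
  obtain ⟨t, ht, h⟩ := hmk_eq _ _ hE
  exact ⟨(k % (p : ℤ)).toNat, e₂ ^ (k / (p : ℤ)) * w, t, ht, h⟩

end Fermat.Agent.S14.Thaine.UnitsAlt
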