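import Fermat.Agent.S14.Thaine.Units.Defs

/-!
# Route T, block `Units` — HEDGE copy `UnitsAlt/UPrime2` (sub-architect helper20; one worker)

`p ∣ E = ∑_{0<j<p} e_j`, `e_j = (j^(p-3) mod p)`.
The statements are IDENTICAL to the ones of the same name in `Thaine/Units/*.lean` (owner
helper276) and FROZEN; only the namespace differs (`UnitsAlt`).  Replace each placeholder by a
proof; auxiliary declarations must be `private` or live in the sub-namespace
`Fermat.Agent.S14.Thaine.UnitsAlt.UPrime2`.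

Notation: `ζ = zetaInt p K = (IsCyclotomicExtension.zeta_spec p ℚ K).toInteger`,
`π = piInt p K = 1 - ζ` (so `π = -(ζ - 1)`; Mathlib states its lemmas for `hζ.toInteger - 1`).

Plan.  Cast to `ZMod p`: `(expSum p : ZMod p) = ∑_{j ∈ Ioo 0 p} (j : ZMod p)^(p-3)`
(`ZMod.natCast_zmod_val`/`ZMod.natCast_val`, `Nat.cast_sum`).  Reindex the sum over
`Finset.Ioo 0 p` as a sum over the nonzero elements of `ZMod p` (e.g. `Finset.sum_bij` with
`j ↦ (j : ZMod p)`, or via `Finset.range p` and `ZMod.val`/`Fin`), add the term `x = 0`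
(`0 ^ (p-3) = 0` as `p - 3 ≠ 0`), and apply `FiniteField.sum_pow_lt_card_sub_one`
(`∑ x : ZMod p, x ^ i = 0` for `i < p - 1`; here `i = p - 3`, `ZMod.card`).  Conclude with
`(ZMod.natCast_eq_zero_iff _ _).mp`.  Note that the statement is about natural numbers
(`p ∣ expSum p`).
-/

set_option autoImplicit false

namespace Fermat.Agent.S14.Thaine.UnitsAlt

open NumberField Fermat.Agent.S14.Thaine.Units

variable (p : ℕ) [Fact p.Prime] (K : Type*) [Field K] [NumberField K]
  [IsCyclotomicExtension {p} ℚ K]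

namespace UPrime2

/-- A sum over `Finset.range n` of a function of the residue class is the sum over `ZMod n`. -/
theorem sum_range_natCast (n : ℕ) [NeZero n] {M : Type*} [AddCommMonoid M] (g : ZMod n → M) :
    ∑ j ∈ Finset.range n, g (j : ZMod n) = ∑ x : ZMod n, g x := by
  refine Finset.sum_nbij' (fun j : ℕ => (j : ZMod n)) (fun x : ZMod n => x.val) ?_ ?_ ?_ ?_ ?_
  · intro a _
    exact Finset.mem_univ _
  · intro x _
    exact Finset.mem_range.mpr (ZMod.val_lt x)
  · intro a ha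
    exact ZMod.val_natCast_of_lt (Finset.mem_range.mp ha)
  · intro x _
    exact ZMod.natCast_zmod_val x
  · intro a _
    rfl

/-- `Finset.range n` is `Finset.Ioo 0 n` together with `0` (for `n > 0`). -/
theorem range_eq_insert_Ioo {n : ℕ} (hn : 0 < n) :
    Finset.range n = insert 0 (Finset.Ioo 0 n) := by
  ext j
  rw [Finset.mem_range, Finset.mem_insert, Finset.mem_Ioo]
  omega

/-- The power sum `∑_{0<j<p} j ^ (p-3)` vanishes in `ZMod p` for `p ≥ 5`. -/
theorem sum_Ioo_pow_eq_zero (hp5 : 5 ≤ p) :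
    ∑ j ∈ Finset.Ioo 0 p, ((j : ℕ) : ZMod p) ^ (p - 3) = 0 := by
  have hp : p.Prime := Fact.out
  have hne : NeZero p := ⟨hp.ne_zero⟩
  have h1 : ∑ j ∈ Finset.range p, ((j : ℕ) : ZMod p) ^ (p - 3) =
      ∑ x : ZMod p, x ^ (p - 3) :=
    sum_range_natCast p (fun x : ZMod p => x ^ (p - 3))
  have h2 : ∑ x : ZMod p, x ^ (p - 3) = 0 := by
    apply FiniteField.sum_pow_lt_card_sub_one
    rw [ZMod.card]
    omega
  have h3 : ∑ j ∈ Finset.range p, ((j : ℕ) : ZMod p) ^ (p - 3) =
      ∑ j ∈ Finset.Ioo 0 p, ((j : ℕ) : ZMod p) ^ (p - 3) := by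
    have h0 : (0 : ℕ) ∉ Finset.Ioo 0 p := by
      rw [Finset.mem_Ioo]
      omega
    have h30 : p - 3 ≠ 0 := by omega
    rw [range_eq_insert_Ioo hp.pos, Finset.sum_insert h0, Nat.cast_zero, zero_pow h30, zero_add]
  rw [← h3, h1, h2]

end UPrime2

theorem p_dvd_expSum (hp5 : 5 ≤ p) : p ∣ expSum p := by
  have hp : p.Prime := Fact.out
  have hne : NeZero p := ⟨hp.ne_zero⟩
  rw [← ZMod.natCast_eq_zero_iff]
  unfold expSum
  rw [Nat.cast_sum]
  simp only [ZMod.natCast_zmod_val]
  exact UPrime2.sum_Ioo_pow_eq_zero p hp5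

end Fermat.Agent.S14.Thaine.UnitsAlt
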