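import Fermat.Agent.S14.Thaine.Units.RepZeta

/-!
# Route T, block `Units` — HEDGE copy `UnitsAlt/UPrime3` (sub-architect helper20; one worker)

The invariants of `u' = ∏ θ_j^{e_j}` are `(0, -1/24)`.
The statements are IDENTICAL to the ones of the same name in `Thaine/Units/*.lean` (owner
helper276) and FROZEN; only the namespace differs (`UnitsAlt`).  Replace each placeholder by a
proof; auxiliary declarations must be `private` or live in the sub-namespace
`Fermat.Agent.S14.Thaine.UnitsAlt.UPrime3`.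

Notation: `ζ = zetaInt p K = (IsCyclotomicExtension.zeta_spec p ℚ K).toInteger`,
`π = piInt p K = 1 - ζ` (so `π = -(ζ - 1)`; Mathlib states its lemmas for `hζ.toInteger - 1`).

Plan.  Black boxes from `Thaine/Units/{Rep,RepZeta}.lean` (namespace `Units`): `AB_theta`,
`AB_pow`, `AB_prod`.  `AB_prod` over `Finset.Ioo 0 p` with `AB_pow (AB_theta j) e_j` gives
`AB u' (∑_j e_j * (-(j-1)/2)) (∑_j e_j * ((j-1)(j-5)/24))` in `ZMod p`, where
`(e_j : ZMod p) = (j : ZMod p)^(p-3)` (`ZMod.natCast_zmod_val`).  For `j ≠ 0` in `ZMod p`: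
`j^(p-3) * j^2 = j^(p-1) = 1` (`ZMod.pow_card_sub_one_eq_one`), so `j^(p-3) * j = j^(p-2)` and
`j^(p-3) * (j-1) = j^(p-2) - j^(p-3)`,
`j^(p-3) * (j-1) * (j-5) = 1 - 6 j^(p-2) + 5 j^(p-3)`.
Power sums over the nonzero residues: `∑_{j ∈ Ioo 0 p} (j : ZMod p)^i = 0` for `0 < i < p - 1`
(reindex to `∑ x : ZMod p, x^i` and use `FiniteField.sum_pow_lt_card_sub_one`), used for
`i = p-2` and `i = p-3` (`p ≥ 5`), and `∑_{j ∈ Ioo 0 p} 1 = p - 1 = -1` in `ZMod p`.
Hence the first sum is `0` and the second is `-1/24`; finally transport along the equalities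
(the statement needs exactly `AB p K (uPrime p K) 0 (-1 / 24)`).
-/

set_option autoImplicit false

namespace Fermat.Agent.S14.Thaine.UnitsAlt

open NumberField Fermat.Agent.S14.Thaine.Units

namespace UPrime3

variable (p : ℕ) [Fact p.Prime]

/-- Sums over `0 < j < p` of a function of the residue class are sums over `ZMod p`, minus the
value at `0`. -/
theorem sum_Ioo_eq (f : ZMod p → ZMod p) :
    ∑ j ∈ Finset.Ioo 0 p, f (j : ZMod p) = ∑ x : ZMod p, f x - f 0 := by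
  have : NeZero p := ⟨(Fact.out : p.Prime).ne_zero⟩
  have hp0 : 0 < p := (Fact.out : p.Prime).pos
  have h1 : ∑ x : ZMod p, f x = ∑ j ∈ Finset.range p, f (j : ZMod p) := by
    refine Finset.sum_nbij' (fun x : ZMod p => x.val) (fun j : ℕ => (j : ZMod p)) ?_ ?_ ?_ ?_ ?_
    · intro x _
      exact Finset.mem_range.mpr (ZMod.val_lt x)
    · intro j _
      exact Finset.mem_univ _
    · intro x _
      exact ZMod.natCast_zmod_val x
    · intro j hj
      exact ZMod.val_cast_of_lt (Finset.mem_range.mp hj)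
    · intro x _
      rw [ZMod.natCast_zmod_val]
  have h2 : ∑ j ∈ Finset.range p, f (j : ZMod p) =
      f ((0 : ℕ) : ZMod p) + ∑ j ∈ Finset.Ioo 0 p, f (j : ZMod p) := by
    rw [Finset.range_eq_Ico, Finset.sum_eq_sum_Ico_succ_bot hp0]
    rfl
  rw [h1, h2, Nat.cast_zero, add_sub_cancel_left]

/-- Power sums over the nonzero residues vanish in degrees `0 < i < p - 1`. -/
theorem sum_Ioo_pow {i : ℕ} (hi0 : 0 < i) (hi : i < p - 1) :
    ∑ j ∈ Finset.Ioo 0 p, (j : ZMod p) ^ i = 0 := by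
  have h := sum_Ioo_eq p (fun x : ZMod p => x ^ i)
  have h' : ∑ x : ZMod p, x ^ i = 0 := by
    apply FiniteField.sum_pow_lt_card_sub_one
    rwa [ZMod.card]
  rw [h, h', zero_pow hi0.ne', sub_zero]

theorem sum_Ioo_pow_pred : ∑ j ∈ Finset.Ioo 0 p, (j : ZMod p) ^ (p - 1) = -1 := by
  have hp1 : 1 ≤ p := (Fact.out : p.Prime).one_le
  have h : ∀ j ∈ Finset.Ioo 0 p, (j : ZMod p) ^ (p - 1) = 1 := by
    intro j hj
    rw [Finset.mem_Ioo] at hj
    apply ZMod.pow_card_sub_one_eq_one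
    rw [Ne, ZMod.natCast_eq_zero_iff]
    exact Nat.not_dvd_of_pos_of_lt hj.1 hj.2
  rw [Finset.sum_congr rfl h, Finset.sum_const, Nat.card_Ioo, nsmul_one, Nat.sub_zero,
    Nat.cast_sub hp1, ZMod.natCast_self, Nat.cast_one, zero_sub]

theorem term_one (hp5 : 5 ≤ p) (x : ZMod p) :
    x ^ (p - 3) * (-(x - 1) / 2) = (-1 / 2) * (x ^ (p - 2) - x ^ (p - 3)) := by
  have h2 : p - 2 = (p - 3) + 1 := by omega
  rw [h2, pow_succ]
  ring

theorem term_two (hp5 : 5 ≤ p) (x : ZMod p) :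
    x ^ (p - 3) * ((x - 1) * (x - 5) / 24) =
      (1 / 24) * (x ^ (p - 1) - 6 * x ^ (p - 2) + 5 * x ^ (p - 3)) := by
  have h2 : p - 2 = (p - 3) + 1 := by omega
  have h1 : p - 1 = (p - 3) + 2 := by omega
  rw [h2, h1, pow_succ, pow_add]
  ring

theorem sum_one (hp5 : 5 ≤ p) :
    ∑ j ∈ Finset.Ioo 0 p, (j : ZMod p) ^ (p - 3) * (-((j : ZMod p) - 1) / 2) = 0 := by
  have e2 : ∑ j ∈ Finset.Ioo 0 p, (j : ZMod p) ^ (p - 2) = 0 :=
    sum_Ioo_pow p (by omega) (by omega)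
  have e3 : ∑ j ∈ Finset.Ioo 0 p, (j : ZMod p) ^ (p - 3) = 0 :=
    sum_Ioo_pow p (by omega) (by omega)
  rw [Finset.sum_congr rfl (fun (j : ℕ) _ => term_one p hp5 (j : ZMod p)), ← Finset.mul_sum,
    Finset.sum_sub_distrib, e2, e3, sub_zero, mul_zero]

theorem sum_two (hp5 : 5 ≤ p) :
    ∑ j ∈ Finset.Ioo 0 p,
      (j : ZMod p) ^ (p - 3) * (((j : ZMod p) - 1) * ((j : ZMod p) - 5) / 24) = -1 / 24 := by
  have e1 : ∑ j ∈ Finset.Ioo 0 p, (j : ZMod p) ^ (p - 1) = -1 := sum_Ioo_pow_pred p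
  have e2 : ∑ j ∈ Finset.Ioo 0 p, (j : ZMod p) ^ (p - 2) = 0 :=
    sum_Ioo_pow p (by omega) (by omega)
  have e3 : ∑ j ∈ Finset.Ioo 0 p, (j : ZMod p) ^ (p - 3) = 0 :=
    sum_Ioo_pow p (by omega) (by omega)
  rw [Finset.sum_congr rfl (fun (j : ℕ) _ => term_two p hp5 (j : ZMod p)), ← Finset.mul_sum,
    Finset.sum_add_distrib, Finset.sum_sub_distrib, ← Finset.mul_sum, ← Finset.mul_sum, e1, e2,
    e3]
  ring

end UPrime3

variable (p : ℕ) [Fact p.Prime] (K : Type*) [Field K] [NumberField K]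
  [IsCyclotomicExtension {p} ℚ K]

theorem AB_uPrime (hp5 : 5 ≤ p) : AB p K (uPrime p K) 0 (-1 / 24) := by
  have hp : NeZero p := ⟨(Fact.out : p.Prime).ne_zero⟩
  have h := Units.AB_prod p K hp5 (Finset.Ioo 0 p)
    (fun j : ℕ => theta p K j ^ (((j : ZMod p)) ^ (p - 3)).val)
    (fun j : ℕ => (j : ZMod p) ^ (p - 3) * (-((j : ZMod p) - 1) / 2))
    (fun j : ℕ => (j : ZMod p) ^ (p - 3) * (((j : ZMod p) - 1) * ((j : ZMod p) - 5) / 24))
    (fun j hj => by
      have hj' := Finset.mem_Ioo.mp hj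
      have h1 := Units.AB_pow p K hp5 (Units.AB_theta p K hp5 j hj'.1 hj'.2)
        (((j : ZMod p)) ^ (p - 3)).val
      rwa [ZMod.natCast_zmod_val] at h1)
  beta_reduce at h
  rw [UPrime3.sum_one p hp5, UPrime3.sum_two p hp5] at h
  exact h

end Fermat.Agent.S14.Thaine.UnitsAlt
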