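import Fermat.Agent.S14.Thaine.Units.Defs

/-!
# Route T, block `Units` — HEDGE copy `UnitsAlt/UPrime1` (sub-architect helper20; one worker)

`1 - ζ^j = π θ_j`, `u = π^E u'`, the `θ_j` and `u'` are units.
The statements are IDENTICAL to the ones of the same name in `Thaine/Units/*.lean` (owner
helper276) and FROZEN; only the namespace differs (`UnitsAlt`).  Replace each placeholder by a
proof; auxiliary declarations must be `private` or live in the sub-namespace
`Fermat.Agent.S14.Thaine.UnitsAlt.UPrime1`.

Notation: `ζ = zetaInt p K = (IsCyclotomicExtension.zeta_spec p ℚ K).toInteger`,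
`π = piInt p K = 1 - ζ` (so `π = -(ζ - 1)`; Mathlib states its lemmas for `hζ.toInteger - 1`).

Plan.  `piInt_mul_theta`: `mul_geom_sum`/`Commute.mul_geom_sum`-type identity
(`(1 - x) * ∑_{i<j} x^i = 1 - x^j`: `mul_neg_geom_sum`, `geom_sum_mul_neg`, or induction on `j`).
`thaineU_eq`: unfold `thaineU`, `uPrime`, `expSum`; rewrite each factor with `piInt_mul_theta`,
`mul_pow`, `Finset.prod_mul_distrib`, `Finset.prod_pow_eq_pow_sum`.
`isUnit_theta`: `IsPrimitiveRoot.geom_sum_isUnit` (for `hζ.toInteger_isPrimitiveRoot`, `2 ≤ p`,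
`j.Coprime p` since `0 < j < p`, `Nat.Coprime` from `Nat.Prime.coprime_iff_not_dvd` +
`Nat.le_of_dvd`); check the exact name/signature with `#check @IsPrimitiveRoot.geom_sum_isUnit`.
`isUnit_uPrime`: `IsUnit.pow`, product of units over a finset (`Finset.prod_induction` /
`IsUnit.prod`-type lemma).
-/

set_option autoImplicit false

namespace Fermat.Agent.S14.Thaine.UnitsAlt

open NumberField Fermat.Agent.S14.Thaine.Units

variable (p : ℕ) [Fact p.Prime] (K : Type*) [Field K] [NumberField K]
  [IsCyclotomicExtension {p} ℚ K]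

theorem piInt_mul_theta (j : ℕ) : piInt p K * theta p K j = 1 - zetaInt p K ^ j := by
  unfold piInt theta
  exact mul_neg_geom_sum (zetaInt p K) j

theorem thaineU_eq : thaineU p K = piInt p K ^ expSum p * uPrime p K := by
  unfold thaineU uPrime expSum
  rw [← Finset.prod_pow_eq_pow_sum, ← Finset.prod_mul_distrib]
  refine Finset.prod_congr rfl (fun j _ => ?_)
  rw [← mul_pow, piInt_mul_theta]

theorem isUnit_theta (j : ℕ) (hj : 0 < j) (hjp : j < p) : IsUnit (theta p K j) := by
  have hp : p.Prime := Fact.out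
  have hζ : IsPrimitiveRoot (zetaInt p K) p :=
    (IsCyclotomicExtension.zeta_spec p ℚ K).toInteger_isPrimitiveRoot
  have hcop : j.Coprime p := by
    rw [Nat.coprime_comm, hp.coprime_iff_not_dvd]
    exact fun h => absurd (Nat.le_of_dvd hj h) (not_le.mpr hjp)
  unfold theta
  exact hζ.geom_sum_isUnit hp.two_le hcop

theorem isUnit_uPrime : IsUnit (uPrime p K) := by
  unfold uPrime
  rw [IsUnit.prod_iff]
  intro j hj
  rw [Finset.mem_Ioo] at hj
  exact (isUnit_theta p K j hj.1 hj.2).pow _

end Fermat.Agent.S14.Thaine.UnitsAlt
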